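/-
S58, package [EC-λ], helper7 — (U): inertia at a prime of multiplicative reduction acts unipotently on
the prime-to-`q` torsion.

Part 1 (abstract): on a nodal model (`S13.GNodeCtx.IsModel`, any residue characteristic, helper2's
S13 library) `σ (σ Q - Q) = σ Q - Q` for every `m`-torsion point `Q`, `m` odd.
Part 2: transport along a translation `(r, t)` fixed by `σ` (via the fixed field of `σ`).
-/
import Mathlib
import Fermat.Prelude.Def_FLTPrelim_GaloisRep
import Fermat.Prelude.Def_FLTPrelim_Ramification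
import Fermat.Agent.S13.At2_helper2_Inertia
import Fermat.Agent.Tate.Inertia
import Fermat.Agent.Tate.VC_helper7_Galois
import Fermat.Agent.Tate.R1_helper8
import Fermat.Agent.Tate.Frey_helper7
import Fermat.Prelude.Def_FLTPrelim_Modularity

set_option autoImplicit false
set_option linter.unusedSectionVars false
set_option linter.unusedVariables false

namespace Fermat.Agent.S58

open Fermat.Agent.Tate Fermat.Agent.S13
open WeierstrassCurve WeierstrassCurve.Affine
open scoped WeierstrassCurve.Affine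

section Abstract

variable {K : Type*} [Field K] [DecidableEq K] {A : ValuationSubring K}
  {R : Type*} {S : Type*} [CommRing R] [CommRing S] [Algebra R S]
  [Algebra R K] [Algebra S K] [IsScalarTower R S K]

/-- **unipotence on a nodal model**: for `σ` stabilising `A`, trivial on the residue field and
fixing an element of nonzero valuation, `σ • Q - Q` is fixed by `σ` for every `m`-torsion point
`Q` (`m` odd, `m`-torsion points integral). -/
theorem gnode_unipotent (W' : Affine R) (C : GNodeCtx K A) {α β : K}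
    (hM : C.IsModel (W'⁄K) α β) {m : ℕ} (hodd : Odd m)
    (hR1 : ∀ {x y : K} (h : (W'⁄K).Nonsingular x y), m • Point.some x y h = 0 → x ∈ A ∧ y ∈ A)
    (σ : K ≃ₐ[S] K) (hσ : ∀ a ∈ A, σ a ∈ A ∧ σ a - a ∈ A.nonunits)
    (hσ' : ∀ a ∈ A, σ.symm a ∈ A) {π : K} (hπ0 : π ≠ 0) (hπ : C.L.w π ≠ 0) (hσπ : σ π = π)
    (Q : (W'⁄K).Point) (hQ : m • Q = 0) : σ • (σ • Q - Q) = σ • Q - Q := by
  have hσQ := nsmul_smul_eq_zero σ hQ
  have hsub : m • (σ • Q - Q) = 0 := by rw [smul_sub, hσQ, hQ, sub_zero]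
  have hd := depthPt_smul_sub_eq_zero W' C hM hR1 σ hσ hπ0 hπ hσπ hσ' hQ
  rcases hD : σ • Q - Q with _ | ⟨x, y, h⟩
  · rfl
  · rw [hD] at hsub hd
    rw [GNodeCtx.depthPt_some, GNodeCtx.depth_eq_zero_iff] at hd
    exact smul_eq_of_not_near W' C hM hodd hR1 σ hσ h hsub hd

end Abstract

section Cast

variable {K : Type*} [Field K] [DecidableEq K]

/-- points of equal curves -/
def ptCast {W₁ W₂ : Affine K} (h : W₁ = W₂) : W₁.Point ≃+ W₂.Point := h ▸ AddEquiv.refl _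

theorem ptCast_some {W₁ W₂ : Affine K} (h : W₁ = W₂) {x y : K} (hxy : W₁.Nonsingular x y) :
    ptCast h (Point.some x y hxy) = Point.some x y (h ▸ hxy) := by
  subst h; rfl

/-- the cast commutes with two Galois actions which agree as functions -/
theorem ptCast_smul {R₁ S₁ R₂ S₂ : Type*} [CommRing R₁] [CommRing S₁] [Algebra R₁ S₁]
    [Algebra R₁ K] [Algebra S₁ K] [IsScalarTower R₁ S₁ K]
    [CommRing R₂] [CommRing S₂] [Algebra R₂ S₂]
    [Algebra R₂ K] [Algebra S₂ K] [IsScalarTower R₂ S₂ K]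
    (W₁ : Affine R₁) (W₂ : Affine R₂) (h : (W₁⁄K) = (W₂⁄K))
    (σ₁ : K ≃ₐ[S₁] K) (σ₂ : K ≃ₐ[S₂] K) (hσ : ∀ x : K, σ₁ x = σ₂ x) (P : (W₁⁄K).Point) :
    ptCast h (σ₁ • P) = σ₂ • ptCast h P := by
  rcases P with _ | ⟨x, y, hxy⟩
  · have h0 : (Point.zero : (W₁⁄K).Point) = 0 := rfl
    rw [h0, smul_zero, map_zero, smul_zero]
  · rw [smul_some, ptCast_some, ptCast_some, smul_some, Point.some.injEq]
    exact ⟨hσ x, hσ y⟩

end Cast

section Transport

variable {K : Type*} [Field K] [DecidableEq K] [Algebra ℚ K] [CharZero K]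
  {A : ValuationSubring K}

/-- integrality of the coefficients of a nodal model -/
theorem gnode_isIntegralCurve58 {C : GNodeCtx K A} {α β : K} {W : Affine K}
    (hM : C.IsModel W α β) : IsIntegralCurve A W where
  a₁ := by rw [hM.a₁]; exact neg_mem (A.add_mem _ _ hM.hα hM.hβ)
  a₂ := by rw [hM.a₂]; exact neg_mem (mul_mem hM.hα hM.hβ)
  a₃ := by rw [hM.a₃]; exact A.zero_mem
  a₄ := by rw [hM.a₄]; exact A.nonunits_le GNodeCtx.a₄_mem
  a₆ := by rw [hM.a₆]; exact A.nonunits_le GNodeCtx.a₆_mem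

/-- **transport**: if the translate of `W⁄K` by `(r, t)` is a nodal model and `σ` (stabilising `A`,
trivial on the residue field) fixes `r`, `t` and an element of nonzero valuation, then
`σ (σ P - P) = σ P - P` for every `m`-torsion point `P` of `W`, `m` odd and invertible in `A`. -/
theorem unipotent_of_gnode_params (W : WeierstrassCurve ℤ) (r t α β : K) (C : GNodeCtx K A)
    (hM : C.IsModel (VariableChange.mk 1 r 0 t • (W.toAffine⁄K)).toAffine α β)
    {m : ℕ} (hodd : Odd m) (hm0 : m ≠ 0) (hminv : ((m : K))⁻¹ ∈ A)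
    (σ : K ≃ₐ[ℚ] K) (hσ : ∀ a ∈ A, σ a ∈ A ∧ σ a - a ∈ A.nonunits)
    (hσ' : ∀ a ∈ A, σ.symm a ∈ A) (hσr : σ r = r) (hσt : σ t = t)
    {π : K} (hπ0 : π ≠ 0) (hπ : C.L.w π ≠ 0) (hσπ : σ π = π)
    (P : (W.toAffine⁄K).Point) (hP : m • P = 0) : σ • (σ • P - P) = σ • P - P := by
  -- the fixed field of `σ`
  let F₀ : IntermediateField ℚ K := FixedBy.intermediateField ℚ K σ
  let r' : F₀ := ⟨r, hσr⟩
  let t' : F₀ := ⟨t, hσt⟩
  let σ' : K ≃ₐ[F₀] K := { σ.toRingEquiv with commutes' := fun x => x.2 }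
  have hσσ' : ∀ x : K, σ' x = σ x := fun x => rfl
  let W_F : WeierstrassCurve F₀ := W.map (algebraMap ℤ F₀)
  let C₀ : VariableChange F₀ := ⟨1, r', 0, t'⟩
  have h1 : (W_F.toAffine⁄K) = (W.toAffine⁄K) := by
    show (W.map (algebraMap ℤ F₀)).map (algebraMap F₀ K) = W.map (algebraMap ℤ K)
    rw [WeierstrassCurve.map_map]
    congr 1
  have hC₀ : C₀.baseChange K = VariableChange.mk 1 r 0 t := by
    show VariableChange.mk (Units.map (algebraMap F₀ K : F₀ →* K) 1) (algebraMap F₀ K r')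
      (algebraMap F₀ K 0) (algebraMap F₀ K t') = _
    rw [map_one, map_zero]
    rfl
  have h2 : ((C₀ • W_F).toAffine⁄K) = VariableChange.mk 1 r 0 t • (W.toAffine⁄K) := by
    have := baseChange_variableChange W_F C₀ K
    rw [hC₀] at this
    rw [← h1]
    exact this
  have hM' : C.IsModel ((C₀ • W_F).toAffine⁄K) α β := by
    rw [h2]; exact hM
  have hR1 : ∀ {x y : K} (h : ((C₀ • W_F).toAffine⁄K).Nonsingular x y),
      m • Point.some x y h = 0 → x ∈ A ∧ y ∈ A := fun h ht =>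
    mem_of_nsmul_eq_zero' (gnode_isIntegralCurve58 hM') hm0 hminv h ht
  have hσ1 : ∀ a ∈ A, σ' a ∈ A ∧ σ' a - a ∈ A.nonunits := hσ
  have hσ1' : ∀ a ∈ A, σ'.symm a ∈ A := hσ'
  have key := gnode_unipotent (C₀ • W_F).toAffine C hM' hodd hR1 σ' hσ1 hσ1' hπ0 hπ hσπ
  -- transport along the change of variables
  let e := vcPtBaseChange W_F C₀ K
  have he : ∀ Q, σ' • e Q = e (σ' • Q) := fun Q => smul_vcPtBaseChange W_F C₀ σ' Q
  have key2 : ∀ P' : (W_F.toAffine⁄K).Point, m • P' = 0 →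
      σ' • (σ' • P' - P') = σ' • P' - P' := by
    intro P' hP'
    obtain ⟨Q, rfl⟩ := e.surjective P'
    have hQ : m • Q = 0 := by
      apply e.injective
      rw [map_nsmul, hP', map_zero]
    have := key Q hQ
    rw [he, ← map_sub, he, this]
  -- transport along the identification of the two base changes
  have hc : ∀ P' : (W_F.toAffine⁄K).Point, ptCast h1 (σ' • P') = σ • ptCast h1 P' :=
    fun P' => ptCast_smul W_F.toAffine W.toAffine h1 σ' σ hσσ' P'
  obtain ⟨P', rfl⟩ := (ptCast h1).surjective P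
  have hP' : m • P' = 0 := by
    apply (ptCast h1).injective
    rw [map_nsmul, hP, map_zero]
  have := key2 P' hP'
  rw [← hc, ← map_sub, ← hc, this]

end Transport

section Concrete

/-- `Ω = AlgebraicClosure ℚ`. -/
local notation "Ω" => AlgebraicClosure ℚ

/-- **the normal form statement** (to be supplied by `NORMF58`): a Weierstrass curve with integral
coefficients, `Δ ∈ 𝔪`, `Δ ≠ 0`, `c₄` a unit, over an algebraically closed field of characteristic
zero, has an integral translate `(r, t)` which is a nodal model; `r, t` are fixed by every ring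
endomorphism fixing the coefficients, stabilising `A` and trivial on the residue field. -/
def GNodeNormalForm (K : Type*) [Field K] [DecidableEq K] : Prop :=
  ∀ (A : ValuationSubring K) (L : LogVal A) (W : WeierstrassCurve K),
    W.a₁ ∈ A → W.a₂ ∈ A → W.a₃ ∈ A → W.a₄ ∈ A → W.a₆ ∈ A →
    W.Δ ≠ 0 → W.Δ ∈ A.nonunits → W.c₄ ∉ A.nonunits →
    ∃ (r t α β : K) (C : GNodeCtx K A), C.L = L ∧ r ∈ A ∧ t ∈ A ∧
      C.IsModel (VariableChange.mk 1 r 0 t • W).toAffine α β ∧
      ∀ σ : K →+* K, σ W.a₁ = W.a₁ → σ W.a₂ = W.a₂ → σ W.a₃ = W.a₃ → σ W.a₄ = W.a₄ →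
        σ W.a₆ = W.a₆ → (∀ a ∈ A, σ a ∈ A ∧ σ a - a ∈ A.nonunits) → σ r = r ∧ σ t = t

/-- **(U), multiplicative primes**: inertia at a prime `q` with `q ∣ Δ`, `q ∤ c₄` acts unipotently
on the `m`-torsion, `m` odd and prime to `q`. -/
theorem unipotent_of_multiplicative (hNF : GNodeNormalForm Ω) (W : WeierstrassCurve ℤ)
    (hΔ0 : W.Δ ≠ 0) {q : ℕ} (hq : q.Prime) (hqΔ : (q : ℤ) ∣ W.Δ) (hqc₄ : ¬ (q : ℤ) ∣ W.c₄)
    {m : ℕ} (hodd : Odd m) (hqm : ¬ q ∣ m)
    (A : ValuationSubring Ω) (hA : A.LiesOverPrime q)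
    (σ : Ω ≃ₐ[ℚ] Ω) (hσ : σ ∈ A.inertiaSubgroupIn ℚ)
    (P : (W.toAffine⁄Ω).Point) (hP : m • P = 0) : σ • (σ • P - P) = σ • P - P := by
  have hqA : ((q : ℕ) : Ω) ∈ A.nonunits := hA
  have : Algebra.IsAlgebraic ℚ Ω := AlgebraicClosure.isAlgebraic ℚ
  obtain ⟨L, hL⟩ := exists_logVal A hq hqA
  have hcoe : ∀ z : ℤ, algebraMap ℤ Ω z = (z : Ω) := fun z => rfl
  have hint : ∀ z : ℤ, algebraMap ℤ Ω z ∈ A := fun z => by rw [hcoe]; exact intCast_mem A z
  have hΔmap : (W.toAffine⁄Ω).Δ = algebraMap ℤ Ω W.Δ := WeierstrassCurve.map_Δ W _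
  have hc₄map : (W.toAffine⁄Ω).c₄ = algebraMap ℤ Ω W.c₄ := WeierstrassCurve.map_c₄ W _
  obtain ⟨r, t, α, β, C, hCL, hr, ht, hM, hfix⟩ := hNF A L (W.toAffine⁄Ω)
    (hint _) (hint _) (hint _) (hint _) (hint _)
    (by rw [hΔmap, hcoe]; exact Int.cast_ne_zero.mpr hΔ0)
    (by rw [hΔmap, hcoe]; exact intCast_mem_nonunits A hqA hqΔ)
    (by rw [hc₄map, hcoe]; exact intCast_notMem_nonunits A hq hqA hqc₄)
  have hin : ∀ a ∈ A, σ a ∈ A ∧ σ a - a ∈ A.nonunits :=
    fun a ha => inertia_map_mem_and_sub_mem hσ ha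
  have hin' : ∀ a ∈ A, σ.symm a ∈ A :=
    fun a ha => (inertia_map_mem_and_sub_mem (inv_mem hσ) ha).1
  have hσcoe : ∀ z : ℤ, (σ : Ω →+* Ω) (algebraMap ℤ Ω z) = algebraMap ℤ Ω z := fun z => by
    rw [hcoe]; exact map_intCast _ z
  obtain ⟨hσr, hσt⟩ := hfix (σ : Ω →+* Ω) (hσcoe _) (hσcoe _) (hσcoe _) (hσcoe _) (hσcoe _) hin
  have hm0 : m ≠ 0 := by
    rintro rfl
    exact hqm (dvd_zero q)
  have hq0 : ((q : ℕ) : Ω) ≠ 0 := Nat.cast_ne_zero.mpr hq.ne_zero
  exact unipotent_of_gnode_params W r t α β C hM hodd hm0 (inv_natCast_mem A hq hqA hqm)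
    σ hin hin' hσr hσt hq0 (by rw [hCL, hL]; exact one_ne_zero) (map_natCast σ q) P hP

/-- **(U-mult)** in the shape consumed by the assembly: for a semistable model, a prime
`q ≠ lam` dividing `Δ`, and `σ` in an inertia group over `q`, `(σ - 1)² = 0` on `lam`-power
torsion. -/
theorem unipotent_of_semistable_of_normalForm (hNF : GNodeNormalForm Ω) (W : WeierstrassCurve ℤ)
    (hΔ : W.Δ ≠ 0) (hss : W.IsSemistableModel) (lam : ℕ) [Fact lam.Prime] (hlam2 : lam ≠ 2) :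
    ∀ q : ℕ, q.Prime → q ≠ lam → (q : ℤ) ∣ W.Δ → ∀ A : ValuationSubring Ω, A.LiesOverPrime q →
      ∀ σ ∈ A.inertiaSubgroupIn ℚ, ∀ (n : ℕ) (P : (W.toAffine⁄Ω).Point), lam ^ n • P = 0 →
        σ • σ • P - (2 : ℤ) • σ • P + P = 0 := by
  intro q hq hqlam hqΔ A hA σ hσ n P hP
  have hlam : lam.Prime := Fact.out
  have hodd : Odd (lam ^ n) := (hlam.odd_of_ne_two hlam2).pow
  have hqm : ¬ q ∣ lam ^ n := by
    intro h
    exact hqlam ((Nat.prime_dvd_prime_iff_eq hq hlam).mp (hq.dvd_of_dvd_pow h))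
  have key := unipotent_of_multiplicative hNF W hΔ hq hqΔ (hss q hq hqΔ) hodd hqm A hA σ hσ P hP
  rw [smul_sub] at key
  have : σ • σ • P - (2 : ℤ) • σ • P + P = (σ • σ • P - σ • P) - (σ • P - P) := by
    rw [two_smul ℤ (σ • P)]; abel
  rw [this, key, sub_self]

end Concrete

end Fermat.Agent.S58
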