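import Mathlib

set_option autoImplicit false

/-!
# The x-line parallelogram law, part 1: coprime triples and degrees of rational functions

Pure algebra over a field `k` (any characteristic).

* `xparCop A B C` : Bezout form of `gcd(A, B, C) = 1`.
* `xparCop_proportional` : two coprime triples that are proportional differ by a unit.
* `ratDeg f` : the degree of `f : RatFunc k` as a self-map of the projective line.
* `xpar_deg_sym` : the degree of `(uv : u + v : 1)` is `ratDeg u + ratDeg v`.
-/

namespace Fermat.Agent.S58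

open Polynomial

section cop

variable {R : Type*} [CommRing R]

/-- Bezout form of `gcd(A, B, C) = 1` -/
def xparCop (A B C : R) : Prop := ∃ r s t : R, r * A + s * B + t * C = 1

theorem xparCop_of_maximal {A B C : R}
    (h : ∀ M : Ideal R, M.IsMaximal → A ∈ M → B ∈ M → C ∈ M → False) : xparCop A B C := by
  by_contra hne
  have hI : Ideal.span ({A, B, C} : Set R) ≠ ⊤ := by
    intro htop
    apply hne
    have h1 : (1 : R) ∈ Ideal.span ({A, B, C} : Set R) := by rw [htop]; trivial
    rw [Ideal.mem_span_insert] at h1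
    obtain ⟨r, z, hz, h1⟩ := h1
    rw [Ideal.mem_span_pair] at hz
    obtain ⟨s, t, rfl⟩ := hz
    exact ⟨r, s, t, by rw [h1]; ring⟩
  obtain ⟨M, hM, hle⟩ := Ideal.exists_le_maximal _ hI
  exact h M hM (hle (Ideal.subset_span (by simp))) (hle (Ideal.subset_span (by simp)))
    (hle (Ideal.subset_span (by simp)))

theorem xparCop_proportional [IsDomain R] {A B C A' B' C' : R} (h : xparCop A B C)
    (h' : xparCop A' B' C') (hC : C ≠ 0) (hA : A * C' = A' * C)
    (hB : B * C' = B' * C) : ∃ u : Rˣ, A' = u * A ∧ B' = u * B ∧ C' = u * C := by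
  obtain ⟨r, s, t, e⟩ := h
  obtain ⟨r', s', t', e'⟩ := h'
  have d1 : C ∣ C' := ⟨r * A' + s * B' + t * C', by
    linear_combination (-C') * e + r * hA + s * hB⟩
  have d2 : C' ∣ C := ⟨r' * A + s' * B + t' * C, by
    linear_combination (-C) * e' - r' * hA - s' * hB⟩
  obtain ⟨u, hu⟩ := associated_of_dvd_dvd d1 d2
  refine ⟨u, ?_, ?_, by rw [← hu]; ring⟩
  · apply mul_right_cancel₀ hC
    rw [← hA, ← hu]; ring
  · apply mul_right_cancel₀ hC
    rw [← hB, ← hu]; ring

end cop

section deg

variable {k : Type*} [Field k]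

/-- the degree of a rational function as a self-map of the projective line -/
noncomputable def ratDeg (f : RatFunc k) : ℕ := max f.num.natDegree f.denom.natDegree

theorem xpar_natDegree_unit_mul (u : k[X]ˣ) (p : k[X]) :
    ((u : k[X]) * p).natDegree = p.natDegree := by
  obtain ⟨c, hc, hcu⟩ := Polynomial.isUnit_iff.mp u.isUnit
  rw [← hcu]
  exact natDegree_C_mul hc.ne_zero

/-- the degree of the triple `(a₃ a₄ : a₃ c₄ + a₄ c₃ : c₃ c₄)` -/
theorem xpar_deg_sym {a₃ c₃ a₄ c₄ : k[X]} (h₃ : c₃ ≠ 0) (h₄ : c₄ ≠ 0) :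
    max (max (a₃ * a₄).natDegree (a₃ * c₄ + a₄ * c₃).natDegree) (c₃ * c₄).natDegree =
      max a₃.natDegree c₃.natDegree + max a₄.natDegree c₄.natDegree := by
  have hc : (c₃ * c₄).natDegree = c₃.natDegree + c₄.natDegree := natDegree_mul h₃ h₄
  by_cases ha₃ : a₃ = 0
  · subst ha₃
    have : (a₄ * c₃).natDegree ≤ a₄.natDegree + c₃.natDegree := natDegree_mul_le
    by_cases ha₄ : a₄ = 0
    · subst ha₄; simp [hc]
    · have h2 : (a₄ * c₃).natDegree = a₄.natDegree + c₃.natDegree := natDegree_mul ha₄ h₃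
      simp only [zero_mul, zero_add, natDegree_zero, h2, hc]
      omega
  by_cases ha₄ : a₄ = 0
  · subst ha₄
    have h2 : (a₃ * c₄).natDegree = a₃.natDegree + c₄.natDegree := natDegree_mul ha₃ h₄
    simp only [mul_zero, zero_mul, add_zero, natDegree_zero, h2, hc]
    omega
  have h1 : (a₃ * a₄).natDegree = a₃.natDegree + a₄.natDegree := natDegree_mul ha₃ ha₄
  have e1 : (a₃ * c₄).natDegree = a₃.natDegree + c₄.natDegree := natDegree_mul ha₃ h₄
  have e2 : (a₄ * c₃).natDegree = a₄.natDegree + c₃.natDegree := natDegree_mul ha₄ h₃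
  have h2le : (a₃ * c₄ + a₄ * c₃).natDegree ≤
      max (a₃.natDegree + c₄.natDegree) (a₄.natDegree + c₃.natDegree) := by
    rw [← e1, ← e2]; exact natDegree_add_le _ _
  have h2a : a₄.natDegree + c₃.natDegree < a₃.natDegree + c₄.natDegree →
      (a₃ * c₄ + a₄ * c₃).natDegree = a₃.natDegree + c₄.natDegree := by
    intro hlt
    rw [← e1]
    exact natDegree_add_eq_left_of_natDegree_lt (by rw [e1, e2]; exact hlt)
  have h2b : a₃.natDegree + c₄.natDegree < a₄.natDegree + c₃.natDegree →
      (a₃ * c₄ + a₄ * c₃).natDegree = a₄.natDegree + c₃.natDegree := by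
    intro hlt
    rw [← e2]
    exact natDegree_add_eq_right_of_natDegree_lt (by rw [e1, e2]; exact hlt)
  rw [h1, hc]
  rcases lt_trichotomy (a₄.natDegree + c₃.natDegree) (a₃.natDegree + c₄.natDegree) with hlt | heq | hgt
  · rw [h2a hlt]; omega
  · omega
  · rw [h2b hgt]; omega

end deg

end Fermat.Agent.S58
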