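import Mathlib
import Fermat.Agent.S58.XPAR_helper8_Core

set_option autoImplicit false

/-!
# The x-line parallelogram law, part 2: the main degree identity

For `X x₃ x₄ : k(x)` with `(x₃ + x₄)(X - x)² = S(X, x)` and `x₃ x₄ (X - x)² = T(X, x)`
(the sum and product of `x(P+Q)`, `x(P-Q)` for `x(P) = X`, `x(Q) = x`),
`ratDeg x₃ + ratDeg x₄ = 2 ratDeg X + 2`.
-/

namespace Fermat.Agent.S58

open Polynomial

variable {k : Type*} [Field k]

section forms

variable (b₂ b₄ b₆ b₈ : k)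

/-- `x⁴ - b₄x² - 2b₆x - b₈`, the numerator of `x(2P)` -/
noncomputable def xparGx : k[X] := X ^ 4 - C b₄ * X ^ 2 - 2 * C b₆ * X - C b₈

/-- `4x³ + b₂x² + 2b₄x + b₆`, the denominator of `x(2P)` -/
noncomputable def xparFx : k[X] := 4 * X ^ 3 + C b₂ * X ^ 2 + 2 * C b₄ * X + C b₆

/-- the product form, homogenised: `b² T(a/b, x)` -/
noncomputable def xparGh (a b : k[X]) : k[X] :=
  a ^ 2 * X ^ 2 - (C b₄ * (a * b * X) + C b₆ * ((a + b * X) * b) + C b₈ * b ^ 2)

/-- the sum form, homogenised: `b² S(a/b, x)` -/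
noncomputable def xparFh (a b : k[X]) : k[X] :=
  2 * (a * X * (a + b * X)) + C b₂ * (a * b * X) + C b₄ * ((a + b * X) * b) + C b₆ * b ^ 2

/-- `b² (a/b - x)²` -/
noncomputable def xparDh (a b : k[X]) : k[X] := (a - X * b) ^ 2

theorem xparGh_sub (a b : k[X]) : xparGh b₄ b₆ b₈ a b - b ^ 2 * xparGx b₄ b₆ b₈ =
    (a - X * b) * (X ^ 3 * b + a * X ^ 2 - C b₄ * (b * X) - C b₆ * b) := by
  unfold xparGh xparGx; ring

theorem xparFh_sub (a b : k[X]) : xparFh b₂ b₄ b₆ a b - b ^ 2 * xparFx b₂ b₄ b₆ =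
    (a - X * b) * (4 * X ^ 2 * b + 2 * X * a + C b₂ * (b * X) + C b₄ * b) := by
  unfold xparFh xparFx; ring

theorem xpar_deg_le (a b : k[X]) :
    (xparGh b₄ b₆ b₈ a b).natDegree ≤ 2 * max a.natDegree b.natDegree + 2 ∧
    (xparFh b₂ b₄ b₆ a b).natDegree ≤ 2 * max a.natDegree b.natDegree + 2 ∧
    (xparDh a b).natDegree ≤ 2 * max a.natDegree b.natDegree + 2 := by
  refine ⟨?_, ?_, ?_⟩
  · unfold xparGh
    compute_degree
    omega
  · unfold xparFh
    compute_degree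
    omega
  · unfold xparDh
    compute_degree
    omega

/-- the degree of the triple `(Gh : Fh : Dh)` is `2 deg + 2` -/
theorem xpar_deg_main {a b : k[X]} (hb : b ≠ 0) :
    max (max (xparGh b₄ b₆ b₈ a b).natDegree (xparFh b₂ b₄ b₆ a b).natDegree)
      (xparDh a b).natDegree = 2 * max a.natDegree b.natDegree + 2 := by
  obtain ⟨hG, hF, hD⟩ := xpar_deg_le b₂ b₄ b₆ b₈ a b
  rcases le_or_gt a.natDegree b.natDegree with hle | hgt
  · -- `Dh` has exact degree
    have hXb : (X * b).natDegree = b.natDegree + 1 := natDegree_X_mul hb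
    have h1 : (a - X * b).natDegree = b.natDegree + 1 := by
      rw [← hXb]
      exact natDegree_sub_eq_right_of_natDegree_lt (by rw [hXb]; omega)
    have h2 : (xparDh a b).natDegree = 2 * (b.natDegree + 1) := by
      unfold xparDh
      rw [natDegree_pow, h1]
    omega
  · -- `Gh` has exact degree
    have ha : a ≠ 0 := by
      rintro rfl
      simp at hgt
    have h1 : (a ^ 2 * X ^ 2).natDegree = 2 * a.natDegree + 2 := by
      rw [natDegree_mul (pow_ne_zero 2 ha) (pow_ne_zero 2 X_ne_zero), natDegree_pow, natDegree_pow,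
        natDegree_X]
    have h2 : (C b₄ * (a * b * X) + C b₆ * ((a + b * X) * b) + C b₈ * b ^ 2).natDegree ≤
        2 * a.natDegree := by
      compute_degree
      omega
    have h3 : (xparGh b₄ b₆ b₈ a b).natDegree = 2 * a.natDegree + 2 := by
      unfold xparGh
      rw [← h1]
      exact natDegree_sub_eq_left_of_natDegree_lt (by rw [h1]; omega)
    omega

end forms

/-- coprimality of the symmetric triple -/
theorem xparCop_sym {R : Type*} [CommRing R] {a₃ c₃ a₄ c₄ : R} (h₃ : IsCoprime a₃ c₃)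
    (h₄ : IsCoprime a₄ c₄) : xparCop (a₃ * a₄) (a₃ * c₄ + a₄ * c₃) (c₃ * c₄) := by
  apply xparCop_of_maximal
  intro M hM hA hB hC
  have hP : M.IsPrime := hM.isPrime
  have key : ∀ {p q : R}, IsCoprime p q → p ∈ M → q ∈ M → False := by
    intro p q ⟨u, v, e⟩ hp hq
    apply hP.ne_top
    rw [Ideal.eq_top_iff_one, ← e]
    exact M.add_mem (M.mul_mem_left u hp) (M.mul_mem_left v hq)
  rcases hP.mem_or_mem hC with h | h
  · rcases hP.mem_or_mem hA with h' | h'
    · exact key h₃ h' h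
    · have : a₃ * c₄ ∈ M := by
        have := M.sub_mem hB (M.mul_mem_left a₄ h)
        simpa using this
      rcases hP.mem_or_mem this with h'' | h''
      · exact key h₃ h'' h
      · exact key h₄ h' h''
  · rcases hP.mem_or_mem hA with h' | h'
    · have : a₄ * c₃ ∈ M := by
        have := M.sub_mem hB (M.mul_mem_left a₃ h)
        simpa using this
      rcases hP.mem_or_mem this with h'' | h''
      · exact key h₄ h'' h
      · exact key h₃ h' h''
    · exact key h₄ h' h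

/-- coprimality of the main triple -/
theorem xparCop_main (b₂ b₄ b₆ b₈ : k) (hcop : IsCoprime (xparGx b₄ b₆ b₈) (xparFx b₂ b₄ b₆))
    {a b : k[X]} (hab : IsCoprime a b) :
    xparCop (xparGh b₄ b₆ b₈ a b) (xparFh b₂ b₄ b₆ a b) (xparDh a b) := by
  apply xparCop_of_maximal
  intro M hM hA hB hC
  have hP : M.IsPrime := hM.isPrime
  have key : ∀ {p q : k[X]}, IsCoprime p q → p ∈ M → q ∈ M → False := by
    intro p q ⟨u, v, e⟩ hp hq
    apply hP.ne_top
    rw [Ideal.eq_top_iff_one, ← e]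
    exact M.add_mem (M.mul_mem_left u hp) (M.mul_mem_left v hq)
  have hm : a - X * b ∈ M := hP.mem_of_pow_mem 2 hC
  have hb : b ∉ M := by
    intro hb
    have ha : a ∈ M := by
      have := M.add_mem hm (M.mul_mem_left X hb)
      simpa using this
    exact key hab ha hb
  have hG : xparGx b₄ b₆ b₈ ∈ M := by
    have h1 : b ^ 2 * xparGx b₄ b₆ b₈ ∈ M := by
      have h2 := M.sub_mem hA (M.mul_mem_right
        (X ^ 3 * b + a * X ^ 2 - C b₄ * (b * X) - C b₆ * b) hm)
      rw [← xparGh_sub b₄ b₆ b₈ a b, sub_sub_cancel] at h2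
      exact h2
    rcases hP.mem_or_mem h1 with h | h
    · exact absurd (hP.mem_of_pow_mem 2 h) hb
    · exact h
  have hF : xparFx b₂ b₄ b₆ ∈ M := by
    have h1 : b ^ 2 * xparFx b₂ b₄ b₆ ∈ M := by
      have h2 := M.sub_mem hB (M.mul_mem_right
        (4 * X ^ 2 * b + 2 * X * a + C b₂ * (b * X) + C b₄ * b) hm)
      rw [← xparFh_sub b₂ b₄ b₆ a b, sub_sub_cancel] at h2
      exact h2
    rcases hP.mem_or_mem h1 with h | h
    · exact absurd (hP.mem_of_pow_mem 2 h) hb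
    · exact h
  exact key hcop hG hF

/-- **x-line parallelogram law**, core form -/
theorem xpar_core (b₂ b₄ b₆ b₈ : k) (hcop : IsCoprime (xparGx b₄ b₆ b₈) (xparFx b₂ b₄ b₆))
    {Xf x₃ x₄ : RatFunc k}
    (hS : (x₃ + x₄) * (Xf - RatFunc.X) ^ 2 =
      2 * (Xf + RatFunc.X) * (Xf * RatFunc.X) + RatFunc.C b₂ * (Xf * RatFunc.X) +
        RatFunc.C b₄ * (Xf + RatFunc.X) + RatFunc.C b₆)
    (hT : (x₃ * x₄) * (Xf - RatFunc.X) ^ 2 =
      (Xf * RatFunc.X) ^ 2 - RatFunc.C b₄ * (Xf * RatFunc.X) - RatFunc.C b₆ * (Xf + RatFunc.X) -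
        RatFunc.C b₈) :
    ratDeg x₃ + ratDeg x₄ = 2 * ratDeg Xf + 2 := by
  set φ := algebraMap k[X] (RatFunc k) with hφ
  have hinj : Function.Injective φ := RatFunc.algebraMap_injective k
  set a := Xf.num
  set b := Xf.denom
  set a₃ := x₃.num
  set c₃ := x₃.denom
  set a₄ := x₄.num
  set c₄ := x₄.denom
  have hb : b ≠ 0 := RatFunc.denom_ne_zero Xf
  have hc₃ : c₃ ≠ 0 := RatFunc.denom_ne_zero x₃
  have hc₄ : c₄ ≠ 0 := RatFunc.denom_ne_zero x₄
  have hφb : φ b ≠ 0 := fun h => hb (hinj (by rw [h, map_zero]))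
  have hφc₃ : φ c₃ ≠ 0 := fun h => hc₃ (hinj (by rw [h, map_zero]))
  have hφc₄ : φ c₄ ≠ 0 := fun h => hc₄ (hinj (by rw [h, map_zero]))
  have eX : φ a = Xf * φ b := by
    have := RatFunc.num_div_denom Xf
    rw [eq_comm, eq_div_iff hφb] at this
    exact this.symm
  have e₃ : φ a₃ = x₃ * φ c₃ := by
    have := RatFunc.num_div_denom x₃
    rw [eq_comm, eq_div_iff hφc₃] at this
    exact this.symm
  have e₄ : φ a₄ = x₄ * φ c₄ := by
    have := RatFunc.num_div_denom x₄
    rw [eq_comm, eq_div_iff hφc₄] at this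
    exact this.symm
  have hφX : φ X = RatFunc.X := RatFunc.algebraMap_X
  have hφC : ∀ c : k, φ (C c) = RatFunc.C c := fun c => RatFunc.algebraMap_C c
  have cop1 : xparCop (a₃ * a₄) (a₃ * c₄ + a₄ * c₃) (c₃ * c₄) :=
    xparCop_sym (RatFunc.isCoprime_num_denom x₃) (RatFunc.isCoprime_num_denom x₄)
  have cop2 : xparCop (xparGh b₄ b₆ b₈ a b) (xparFh b₂ b₄ b₆ a b) (xparDh a b) :=
    xparCop_main b₂ b₄ b₆ b₈ hcop (RatFunc.isCoprime_num_denom Xf)
  have hA : (a₃ * a₄) * xparDh a b = xparGh b₄ b₆ b₈ a b * (c₃ * c₄) := by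
    apply hinj
    simp only [xparDh, xparGh, map_mul, map_add, map_sub, map_pow, hφX, hφC, eX, e₃, e₄]
    linear_combination (φ b ^ 2 * φ c₃ * φ c₄) * hT
  have hB : (a₃ * c₄ + a₄ * c₃) * xparDh a b = xparFh b₂ b₄ b₆ a b * (c₃ * c₄) := by
    apply hinj
    simp only [xparDh, xparFh, map_mul, map_add, map_sub, map_pow, map_ofNat, hφX, hφC, eX, e₃, e₄]
    linear_combination (φ b ^ 2 * φ c₃ * φ c₄) * hS
  obtain ⟨u, hu1, hu2, hu3⟩ := xparCop_proportional cop1 cop2 (mul_ne_zero hc₃ hc₄) hA hB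
  have h1 := xpar_deg_sym (a₃ := a₃) (a₄ := a₄) hc₃ hc₄
  have h2 := xpar_deg_main b₂ b₄ b₆ b₈ (a := a) hb
  rw [hu1, hu2, hu3, xpar_natDegree_unit_mul, xpar_natDegree_unit_mul, xpar_natDegree_unit_mul,
    h1] at h2
  exact h2

end Fermat.Agent.S58
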