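import Mathlib
import Fermat.Agent.S58.XPAR_helper8_Main

set_option autoImplicit false

/-!
# The x-line parallelogram law, part 3: the discriminant, duplication, the recursion

* `xpar_isCoprime_of_Δ` : for `Δ ≠ 0` the numerator and denominator of `x(2P)` are coprime
  (explicit Bezout identity, valid in every characteristic).
* `xpar_dup` : `ratDeg (x(2η)) = 4`.
* `xpar_rec_solve` : `d(n+1) + d(n-1) = 2 d(n) + 2` on `ℤ` forces `d(n) = n² + a n + d(0)`.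
-/

namespace Fermat.Agent.S58

open Polynomial

variable {k : Type*} [Field k]

/-- explicit Bezout identity `u·Gx + v·Fx = Δ` -/
theorem xpar_bezout (W : WeierstrassCurve k) :
    (-48 * X ^ 2 - 8 * C W.b₂ * X - 32 * C W.b₄ + C W.b₂ ^ 2) * xparGx W.b₄ W.b₆ W.b₈ +
      (12 * X ^ 3 - C W.b₂ * X ^ 2 - 10 * C W.b₄ * X + C W.b₂ * C W.b₄ - 27 * C W.b₆) *
        xparFx W.b₂ W.b₄ W.b₆ = C W.Δ := by
  have hrel : (4 : k[X]) * C W.b₈ = C W.b₂ * C W.b₆ - C W.b₄ ^ 2 := by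
    have := congrArg (C : k → k[X]) W.b_relation
    simpa only [map_mul, map_sub, map_pow, map_ofNat] using this
  rw [WeierstrassCurve.Δ]
  simp only [map_add, map_sub, map_mul, map_pow, map_neg, map_ofNat, xparGx, xparFx]
  linear_combination (12 * X ^ 2 + 2 * C W.b₂ * X + 8 * C W.b₄) * hrel

theorem xpar_isCoprime_of_Δ (W : WeierstrassCurve k) (hΔ : W.Δ ≠ 0) :
    IsCoprime (xparGx W.b₄ W.b₆ W.b₈) (xparFx W.b₂ W.b₄ W.b₆) := by
  refine ⟨C W.Δ⁻¹ * (-48 * X ^ 2 - 8 * C W.b₂ * X - 32 * C W.b₄ + C W.b₂ ^ 2),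
    C W.Δ⁻¹ * (12 * X ^ 3 - C W.b₂ * X ^ 2 - 10 * C W.b₄ * X + C W.b₂ * C W.b₄ - 27 * C W.b₆), ?_⟩
  have hone : C W.Δ⁻¹ * C W.Δ = 1 := by rw [← map_mul, inv_mul_cancel₀ hΔ, map_one]
  linear_combination (C W.Δ⁻¹) * xpar_bezout W + hone

theorem xparGx_natDegree (b₄ b₆ b₈ : k) : (xparGx b₄ b₆ b₈).natDegree = 4 := by
  have h1 : (C b₄ * X ^ 2 + 2 * C b₆ * X + C b₈ : k[X]).natDegree ≤ 2 := by
    compute_degree
  have h2 : xparGx b₄ b₆ b₈ = X ^ 4 - (C b₄ * X ^ 2 + 2 * C b₆ * X + C b₈) := by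
    unfold xparGx; ring
  rw [h2]
  have h3 : (X ^ 4 : k[X]).natDegree = 4 := natDegree_X_pow 4
  exact (natDegree_sub_eq_left_of_natDegree_lt (by rw [h3]; omega)).trans h3

theorem xparFx_natDegree_le (b₂ b₄ b₆ : k) : (xparFx b₂ b₄ b₆).natDegree ≤ 3 := by
  unfold xparFx
  compute_degree

theorem xparGx_ne_zero (b₄ b₆ b₈ : k) : xparGx b₄ b₆ b₈ ≠ 0 := by
  intro h
  have := xparGx_natDegree b₄ b₆ b₈
  rw [h, natDegree_zero] at this
  omega

theorem xparFx_ne_zero {b₂ b₄ b₆ b₈ : k} (hcop : IsCoprime (xparGx b₄ b₆ b₈) (xparFx b₂ b₄ b₆)) :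
    xparFx b₂ b₄ b₆ ≠ 0 := by
  intro h
  rw [h, isCoprime_zero_right] at hcop
  have := natDegree_eq_zero_of_isUnit hcop
  rw [xparGx_natDegree] at this
  omega

/-- **duplication**: the degree of `x(2η) = Gx / Fx` is `4` -/
theorem xpar_dup {b₂ b₄ b₆ b₈ : k} (hcop : IsCoprime (xparGx b₄ b₆ b₈) (xparFx b₂ b₄ b₆))
    {x₅ : RatFunc k}
    (h : x₅ * algebraMap k[X] (RatFunc k) (xparFx b₂ b₄ b₆) =
      algebraMap k[X] (RatFunc k) (xparGx b₄ b₆ b₈)) : ratDeg x₅ = 4 := by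
  set φ := algebraMap k[X] (RatFunc k) with hφ
  have hinj : Function.Injective φ := RatFunc.algebraMap_injective k
  have hc : x₅.denom ≠ 0 := RatFunc.denom_ne_zero x₅
  have hφc : φ x₅.denom ≠ 0 := fun h => hc (hinj (by rw [h, map_zero]))
  have e₅ : φ x₅.num = x₅ * φ x₅.denom := by
    have := RatFunc.num_div_denom x₅
    rw [eq_comm, eq_div_iff hφc] at this
    exact this.symm
  have hA : x₅.num * xparFx b₂ b₄ b₆ = xparGx b₄ b₆ b₈ * x₅.denom := by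
    apply hinj
    rw [map_mul, map_mul, e₅, ← h]; ring
  have cop1 : xparCop x₅.num x₅.num x₅.denom := by
    obtain ⟨u, v, e⟩ := RatFunc.isCoprime_num_denom x₅
    exact ⟨u, 0, v, by rw [← e]; ring⟩
  have cop2 : xparCop (xparGx b₄ b₆ b₈) (xparGx b₄ b₆ b₈) (xparFx b₂ b₄ b₆) := by
    obtain ⟨u, v, e⟩ := hcop
    exact ⟨u, 0, v, by rw [← e]; ring⟩
  obtain ⟨u, hu1, -, hu3⟩ := xparCop_proportional cop1 cop2 hc hA hA
  have h1 : x₅.num.natDegree = 4 := by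
    rw [← xpar_natDegree_unit_mul u, ← hu1, xparGx_natDegree]
  have h2 : x₅.denom.natDegree ≤ 3 := by
    rw [← xpar_natDegree_unit_mul u, ← hu3]
    exact xparFx_natDegree_le b₂ b₄ b₆
  unfold ratDeg
  omega

/-- **x-line parallelogram law** for a Weierstrass curve with `Δ ≠ 0` -/
theorem xpar (W : WeierstrassCurve k) (hΔ : W.Δ ≠ 0) {Xf x₃ x₄ : RatFunc k}
    (hS : (x₃ + x₄) * (Xf - RatFunc.X) ^ 2 =
      2 * (Xf + RatFunc.X) * (Xf * RatFunc.X) + RatFunc.C W.b₂ * (Xf * RatFunc.X) +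
        RatFunc.C W.b₄ * (Xf + RatFunc.X) + RatFunc.C W.b₆)
    (hT : (x₃ * x₄) * (Xf - RatFunc.X) ^ 2 =
      (Xf * RatFunc.X) ^ 2 - RatFunc.C W.b₄ * (Xf * RatFunc.X) -
        RatFunc.C W.b₆ * (Xf + RatFunc.X) - RatFunc.C W.b₈) :
    ratDeg x₃ + ratDeg x₄ = 2 * ratDeg Xf + 2 :=
  xpar_core W.b₂ W.b₄ W.b₆ W.b₈ (xpar_isCoprime_of_Δ W hΔ) hS hT

theorem ratDeg_X : ratDeg (RatFunc.X : RatFunc k) = 1 := by
  unfold ratDeg
  rw [RatFunc.num_X, RatFunc.denom_X, natDegree_X, natDegree_one]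
  rfl

theorem ratDeg_zero : ratDeg (0 : RatFunc k) = 0 := by
  unfold ratDeg
  rw [RatFunc.num_zero, RatFunc.denom_zero, natDegree_zero, natDegree_one]
  rfl

/-- the recursion `d(n+1) + d(n-1) = 2 d(n) + 2` on `ℤ` has only quadratic solutions -/
theorem xpar_rec_solve (d : ℤ → ℤ) (h : ∀ n : ℤ, d (n + 1) + d (n - 1) = 2 * d n + 2) (n : ℤ) :
    d n = n ^ 2 + (d 1 - d 0 - 1) * n + d 0 := by
  have hpos : ∀ m : ℕ, d m = (m : ℤ) ^ 2 + (d 1 - d 0 - 1) * m + d 0 ∧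
      d (m + 1) = ((m : ℤ) + 1) ^ 2 + (d 1 - d 0 - 1) * (m + 1) + d 0 := by
    intro m
    induction m with
    | zero => constructor <;> simp
    | succ m ih =>
      obtain ⟨h1, h2⟩ := ih
      refine ⟨by push_cast; exact h2, ?_⟩
      have := h (m + 1)
      rw [add_sub_cancel_right] at this
      push_cast
      linear_combination this + 2 * h2 - h1
  have hneg : ∀ m : ℕ, d (-(m : ℤ)) = (-(m : ℤ)) ^ 2 + (d 1 - d 0 - 1) * (-(m : ℤ)) + d 0 ∧
      d (-(m : ℤ) + 1) = (-(m : ℤ) + 1) ^ 2 + (d 1 - d 0 - 1) * (-(m : ℤ) + 1) + d 0 := by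
    intro m
    induction m with
    | zero => constructor <;> simp
    | succ m ih =>
      obtain ⟨h1, h2⟩ := ih
      have e : (-((m + 1 : ℕ) : ℤ) + 1) = -(m : ℤ) := by push_cast; ring
      refine ⟨?_, by rw [e]; exact h1⟩
      have := h (-(m : ℤ))
      have e2 : (-(m : ℤ) - 1) = -((m + 1 : ℕ) : ℤ) := by push_cast; ring
      rw [e2] at this
      push_cast at this ⊢
      linear_combination this + 2 * h1 - h2
  rcases Int.eq_nat_or_neg n with ⟨m, rfl | rfl⟩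
  · exact (hpos m).1
  · exact (hneg m).1

end Fermat.Agent.S58
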