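/-
S58, package (E2) (helper2), part 1: reduction of torsion points of a Weierstrass curve with good
reduction at a valuation subring.

`K` a field, `A : ValuationSubring K`, `k = IsLocalRing.ResidueField A`.
`E : Affine K`, `Ē : Affine k`, `E2GoodRed A E Ē` : `E` and `Ē` come from one curve over `A` with
unit discriminant.

* `e2RedPt hg : E.Point → Ē.Point` : `0 ↦ 0`, `(x, y) ↦ (x̄, ȳ)` if `x, y ∈ A`, and `0` otherwise;
* `e2RedPt_add` : additive on `m`-torsion points, `m` odd and a unit of `A`;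
* `e2RedPt_injOn` : injective on `m`-torsion points;
* `e2RedTors hg m hm` : the induced injective homomorphism `E[m] →+ Ē[m]`.
-/
import Mathlib
import Fermat.Agent.Tate.R1_helper8
import Fermat.Agent.Tate.Chord
import Fermat.Agent.Tate.NonsingRed

set_option autoImplicit false
set_option linter.unusedSectionVars false

namespace Fermat.Agent.S58

open WeierstrassCurve WeierstrassCurve.Affine IsLocalRing Fermat.Agent.Tate

variable {K : Type*} [Field K] [DecidableEq K] (A : ValuationSubring K)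
  [DecidableEq (ResidueField A)]

/-- `E` over `K` and `Ē` over the residue field of `A` are the generic and the special fibre of a
Weierstrass curve over `A` with unit discriminant. -/
def E2GoodRed (E : Affine K) (Ē : Affine (ResidueField A)) : Prop :=
  ∃ EA : Affine A, EA.map A.subtype = E ∧ EA.map (residue A) = Ē ∧ IsUnit EA.Δ

variable {A} {E : Affine K} {Ē : Affine (ResidueField A)}

theorem E2GoodRed.isIntegralCurve (hg : E2GoodRed A E Ē) : IsIntegralCurve A E := by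
  obtain ⟨EA, rfl, -, -⟩ := hg
  exact ⟨EA.a₁.2, EA.a₂.2, EA.a₃.2, EA.a₄.2, EA.a₆.2⟩

theorem E2GoodRed.Δ_notMem (hg : E2GoodRed A E Ē) : E.Δ ∉ A.nonunits := by
  obtain ⟨EA, rfl, -, hΔ⟩ := hg
  intro h
  have h1 : (EA.map A.subtype).Δ = ((EA.Δ : A) : K) := by
    rw [WeierstrassCurve.map_Δ]; rfl
  rw [h1] at h
  exact (A.coe_mem_nonunits_iff.mp h) hΔ

theorem E2GoodRed.Δ_ne_zero (hg : E2GoodRed A E Ē) : Ē.Δ ≠ 0 := by
  obtain ⟨EA, -, rfl, hΔ⟩ := hg
  have h1 : (EA.map (residue A)).Δ = residue A EA.Δ := by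
    rw [WeierstrassCurve.map_Δ]
  rw [h1]
  exact (hΔ.map (residue A)).ne_zero

theorem E2GoodRed.Δ_ne_zero' (hg : E2GoodRed A E Ē) : E.Δ ≠ 0 := by
  intro h
  apply hg.Δ_notMem
  rw [h, A.mem_nonunits_iff, map_zero]
  exact zero_lt_one

/-- the reduction of an integral point is a (nonsingular) point of the reduced curve -/
theorem E2GoodRed.nonsingular_residue (hg : E2GoodRed A E Ē) {x y : K} (hx : x ∈ A) (hy : y ∈ A)
    (h : E.Equation x y) : Ē.Nonsingular (residue A ⟨x, hx⟩) (residue A ⟨y, hy⟩) := by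
  have hΔ := hg.Δ_ne_zero
  obtain ⟨EA, rfl, rfl, -⟩ := hg
  rw [← equation_iff_nonsingular_of_Δ_ne_zero hΔ]
  have h1 : EA.Equation ⟨x, hx⟩ ⟨y, hy⟩ :=
    (map_equation EA (f := A.subtype) Subtype.val_injective ⟨x, hx⟩ ⟨y, hy⟩).mp h
  exact h1.map (residue A)

open Classical in
/-- the reduction map on points: `0 ↦ 0`, `(x, y) ↦ (x̄, ȳ)` on integral points, `0` on the
non-integral ones. -/
noncomputable def e2RedPt (hg : E2GoodRed A E Ē) : E.Point → Ē.Point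
  | .zero => 0
  | .some x y h =>
    if hxy : x ∈ A ∧ y ∈ A then
      .some (residue A ⟨x, hxy.1⟩) (residue A ⟨y, hxy.2⟩) (hg.nonsingular_residue hxy.1 hxy.2 h.1)
    else 0

@[simp] theorem e2RedPt_zero (hg : E2GoodRed A E Ē) : e2RedPt hg 0 = 0 := rfl

theorem e2RedPt_some (hg : E2GoodRed A E Ē) {x y : K} (h : E.Nonsingular x y) (hx : x ∈ A)
    (hy : y ∈ A) :
    e2RedPt hg (.some x y h) =
      .some (residue A ⟨x, hx⟩) (residue A ⟨y, hy⟩) (hg.nonsingular_residue hx hy h.1) := by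
  unfold e2RedPt
  exact dif_pos (⟨hx, hy⟩ : x ∈ A ∧ y ∈ A)

theorem e2RedPt_some_of_notMem (hg : E2GoodRed A E Ē) {x y : K} (h : E.Nonsingular x y)
    (hxy : ¬ (x ∈ A ∧ y ∈ A)) : e2RedPt hg (.some x y h) = 0 := by
  unfold e2RedPt
  exact dif_neg hxy

theorem e2RedPt_neg (hg : E2GoodRed A E Ē) (P : E.Point) : e2RedPt hg (-P) = -e2RedPt hg P := by
  have hI := hg.isIntegralCurve
  rcases P with _ | ⟨x, y, h⟩
  · rfl
  · rw [Point.neg_some]
    by_cases hxy : x ∈ A ∧ y ∈ A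
    · have hny : E.negY x y ∈ A := by
        rw [Affine.negY]
        exact sub_mem (sub_mem (neg_mem hxy.2) (mul_mem hI.a₁ hxy.1)) hI.a₃
      rw [e2RedPt_some hg _ hxy.1 hny, e2RedPt_some hg h hxy.1 hxy.2, Point.neg_some]
      obtain ⟨EA, rfl, rfl, -⟩ := hg
      congr 1
    · have hxy' : ¬ (x ∈ A ∧ E.negY x y ∈ A) := by
        rintro ⟨hx, hny⟩
        apply hxy
        refine ⟨hx, ?_⟩
        have : y = -(E.negY x y) - E.a₁ * x - E.a₃ := by rw [Affine.negY]; ring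
        rw [this]
        exact sub_mem (sub_mem (neg_mem hny) (mul_mem hI.a₁ hx)) hI.a₃
      rw [e2RedPt_some_of_notMem hg _ hxy', e2RedPt_some_of_notMem hg h hxy, neg_zero]

section Torsion

variable {m : ℕ}

/-- `m`-torsion points are integral (`m` a unit of `A`): the (R1) hypothesis of `Tate/Chord`. -/
theorem E2GoodRed.mem_of_torsion (hg : E2GoodRed A E Ē) (hm0 : (m : K) ≠ 0)
    (hm : ((m : K))⁻¹ ∈ A) {x y : K} (h : E.Nonsingular x y) (ht : m • Point.some x y h = 0) :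
    x ∈ A ∧ y ∈ A :=
  mem_of_nsmul_eq_zero hg.isIntegralCurve hm0 hm h ht

theorem e2RedPt_eq_zero_iff (hg : E2GoodRed A E Ē) (hm0 : (m : K) ≠ 0)
    (hm : ((m : K))⁻¹ ∈ A) {P : E.Point} (hP : m • P = 0) : e2RedPt hg P = 0 ↔ P = 0 := by
  rcases P with _ | ⟨x, y, h⟩
  · exact ⟨fun _ => rfl, fun _ => rfl⟩
  · obtain ⟨hx, hy⟩ := hg.mem_of_torsion hm0 hm h hP
    rw [e2RedPt_some hg h hx hy]
    exact ⟨fun h0 => absurd h0 (Point.some_ne_zero _), fun h0 => absurd h0 (Point.some_ne_zero _)⟩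

/-- **injectivity of reduction on `m`-torsion** (`m` odd, a unit of `A`). -/
theorem e2RedPt_injOn (hg : E2GoodRed A E Ē) (hodd : Odd m) (hm0 : (m : K) ≠ 0)
    (hm : ((m : K))⁻¹ ∈ A) {P Q : E.Point} (hP : m • P = 0) (hQ : m • Q = 0)
    (hPQ : e2RedPt hg P = e2RedPt hg Q) : P = Q := by
  have hI := hg.isIntegralCurve
  rcases P with _ | ⟨x, y, h⟩
  · exact ((e2RedPt_eq_zero_iff hg hm0 hm hQ).mp hPQ.symm).symm
  rcases Q with _ | ⟨x', y', h'⟩
  · exact (e2RedPt_eq_zero_iff hg hm0 hm hP).mp hPQ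
  obtain ⟨hx, hy⟩ := hg.mem_of_torsion hm0 hm h hP
  obtain ⟨hx', hy'⟩ := hg.mem_of_torsion hm0 hm h' hQ
  rw [e2RedPt_some hg h hx hy, e2RedPt_some hg h' hx' hy'] at hPQ
  have hxe : residue A ⟨x, hx⟩ = residue A ⟨x', hx'⟩ := (Point.some.inj hPQ).1
  have hye : residue A ⟨y, hy⟩ = residue A ⟨y', hy'⟩ := (Point.some.inj hPQ).2
  have hxx' : x' - x ∈ A.nonunits := by
    have h1 : residue A (⟨x', hx'⟩ - ⟨x, hx⟩) = 0 := by rw [map_sub, hxe, sub_self]
    rw [residue_eq_zero_iff] at h1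
    exact A.coe_mem_nonunits_iff.mpr ((mem_maximalIdeal _).mp h1)
  have hyy' : y' - y ∈ A.nonunits := by
    have h1 : residue A (⟨y', hy'⟩ - ⟨y, hy⟩) = 0 := by rw [map_sub, hye, sub_self]
    rw [residue_eq_zero_iff] at h1
    exact A.coe_mem_nonunits_iff.mpr ((mem_maximalIdeal _).mp h1)
  exact (eq_of_nonsingular_red hI.a₁ hI.a₂ hI.a₃
    (fun h0 ht => hg.mem_of_torsion hm0 hm h0 ht) hodd h h' hx hy hxx' hyy'
    (not_partials_mem_of_Δ hI.a₁ hI.a₂ hg.Δ_notMem hx h.1) hP hQ).symm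

/-- the residue of the slope is the slope of the residues (curve over `A`, subtype form) -/
theorem e2_residue_slope (EA : Affine A) (X₁ X₂ Y₁ Y₂ LA : A)
    (h₁ : EA.Equation X₁ Y₁) (h₂ : EA.Equation X₂ Y₂)
    (hL : (LA : K) = (EA.map A.subtype).slope (X₁ : K) (X₂ : K) (Y₁ : K) (Y₂ : K))
    (hne : ¬ (residue A X₁ = residue A X₂ ∧
      residue A Y₁ = (EA.map (residue A)).negY (residue A X₂) (residue A Y₂)))
    (hcase : residue A X₁ = residue A X₂ → residue A Y₁ = residue A Y₂ → X₁ = X₂ ∧ Y₁ = Y₂) :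
    residue A LA =
      (EA.map (residue A)).slope (residue A X₁) (residue A X₂) (residue A Y₁) (residue A Y₂) := by
  by_cases hx : residue A X₁ = residue A X₂
  · have hy : residue A Y₁ ≠ (EA.map (residue A)).negY (residue A X₂) (residue A Y₂) :=
      fun h => hne ⟨hx, h⟩
    have hyy : residue A Y₁ = residue A Y₂ :=
      Y_eq_of_Y_ne (h₁.map (residue A)) (h₂.map (residue A)) hx hy
    obtain ⟨rfl, rfl⟩ := hcase hx hyy
    rw [slope_of_Y_ne rfl hy]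
    have hyK : (Y₁ : K) ≠ (EA.map A.subtype).negY (X₁ : K) (Y₁ : K) := by
      intro h
      apply hy
      have h3 : Y₁ = EA.negY X₁ Y₁ := by
        apply Subtype.ext
        rw [h]
        exact map_negY (W' := EA) A.subtype X₁ Y₁
      have h4 := map_negY (W' := EA) (residue A) X₁ Y₁
      rw [h4, ← h3]
    rw [slope_of_Y_ne rfl hyK] at hL
    have hsub : (Y₁ : K) - (EA.map A.subtype).negY (X₁ : K) (Y₁ : K) ≠ 0 := sub_ne_zero.mpr hyK
    have h1 : LA * (Y₁ - EA.negY X₁ Y₁) = 3 * X₁ ^ 2 + 2 * EA.a₂ * X₁ + EA.a₄ - EA.a₁ * Y₁ := by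
      apply Subtype.ext
      have h5 : ((EA.negY X₁ Y₁ : A) : K) = (EA.map A.subtype).negY (X₁ : K) (Y₁ : K) :=
        (map_negY (W' := EA) A.subtype X₁ Y₁).symm
      have c3 : ((3 : A) : K) = 3 := map_ofNat A.subtype 3
      have c2 : ((2 : A) : K) = 2 := map_ofNat A.subtype 2
      have e1 : (EA.map A.subtype).a₁ = (EA.a₁ : K) := rfl
      have e2 : (EA.map A.subtype).a₂ = (EA.a₂ : K) := rfl
      have e4 : (EA.map A.subtype).a₄ = (EA.a₄ : K) := rfl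
      push_cast
      rw [h5, hL, c3, c2, e1, e2, e4]
      field_simp
    have h2 : residue A LA * (residue A Y₁ - (EA.map (residue A)).negY (residue A X₁) (residue A Y₁))
        = 3 * residue A X₁ ^ 2 + 2 * (EA.map (residue A)).a₂ * residue A X₁
          + (EA.map (residue A)).a₄ - (EA.map (residue A)).a₁ * residue A Y₁ := by
      have h4 := map_negY (W' := EA) (residue A) X₁ Y₁
      rw [h4, ← map_sub, ← map_mul, h1]
      simp only [map_sub, map_add, map_mul, map_pow, map_ofNat]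
      rfl
    rw [eq_div_iff (sub_ne_zero.mpr hy)]
    exact h2
  · have hxK : (X₁ : K) ≠ (X₂ : K) := fun h => hx (by rw [Subtype.ext h])
    rw [slope_of_X_ne hx]
    rw [slope_of_X_ne hxK] at hL
    have hsub : (X₁ : K) - X₂ ≠ 0 := sub_ne_zero.mpr hxK
    have h1 : LA * (X₁ - X₂) = Y₁ - Y₂ := by
      apply Subtype.ext
      push_cast
      rw [hL]
      field_simp
    have h2 : residue A LA * (residue A X₁ - residue A X₂) = residue A Y₁ - residue A Y₂ := by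
      rw [← map_sub, ← map_sub, ← map_mul, h1]
    rw [eq_div_iff (sub_ne_zero.mpr hx)]
    exact h2

/-- **additivity of reduction on `m`-torsion** (`m` odd, a unit of `A`). -/
theorem e2RedPt_add (hg : E2GoodRed A E Ē) (hodd : Odd m) (hm0 : (m : K) ≠ 0)
    (hm : ((m : K))⁻¹ ∈ A) {P Q : E.Point} (hP : m • P = 0) (hQ : m • Q = 0) :
    e2RedPt hg (P + Q) = e2RedPt hg P + e2RedPt hg Q := by
  have hI := hg.isIntegralCurve
  have hR1 : ∀ {x y : K} (h : E.Nonsingular x y), m • Point.some x y h = 0 → x ∈ A ∧ y ∈ A :=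
    fun h0 ht => hg.mem_of_torsion hm0 hm h0 ht
  rcases P with _ | ⟨x₁, y₁, h₁⟩
  · change e2RedPt hg (0 + Q) = 0 + e2RedPt hg Q
    rw [zero_add, zero_add]
  rcases Q with _ | ⟨x₂, y₂, h₂⟩
  · change e2RedPt hg (_ + 0) = _ + 0
    rw [add_zero, add_zero]
  obtain ⟨hx₁, hy₁⟩ := hR1 h₁ hP
  obtain ⟨hx₂, hy₂⟩ := hR1 h₂ hQ
  by_cases hxy : x₁ = x₂ ∧ y₁ = E.negY x₂ y₂
  · have hQ' : Point.some x₂ y₂ h₂ = -Point.some x₁ y₁ h₁ := by
      rw [Point.neg_some]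
      obtain ⟨rfl, rfl⟩ := hxy
      simp only [negY_negY]
    rw [hQ', add_neg_cancel, e2RedPt_neg, add_neg_cancel]
    rfl
  · have hL : E.slope x₁ x₂ y₁ y₂ ∈ A :=
      slope_mem_of_torsion hI.a₁ hI.a₂ hR1 h₁ h₂ hx₁ hx₂ hP hQ hxy
    have hnegQ : m • (-Point.some x₂ y₂ h₂) = 0 := by rw [smul_neg, hQ, neg_zero]
    have hxy' : ¬ (residue A ⟨x₁, hx₁⟩ = residue A ⟨x₂, hx₂⟩ ∧
        residue A ⟨y₁, hy₁⟩ = Ē.negY (residue A ⟨x₂, hx₂⟩) (residue A ⟨y₂, hy₂⟩)) := by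
      intro hh
      have h3 : e2RedPt hg (Point.some x₁ y₁ h₁) = e2RedPt hg (-Point.some x₂ y₂ h₂) := by
        rw [e2RedPt_neg, e2RedPt_some hg h₁ hx₁ hy₁, e2RedPt_some hg h₂ hx₂ hy₂, Point.neg_some]
        simp only [Point.some.injEq]
        exact hh
      have h4 := e2RedPt_injOn hg hodd hm0 hm hP hnegQ h3
      rw [Point.neg_some] at h4
      exact hxy ⟨(Point.some.inj h4).1, (Point.some.inj h4).2⟩
    have hcase : residue A ⟨x₁, hx₁⟩ = residue A ⟨x₂, hx₂⟩ →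
        residue A ⟨y₁, hy₁⟩ = residue A ⟨y₂, hy₂⟩ →
        (⟨x₁, hx₁⟩ : A) = ⟨x₂, hx₂⟩ ∧ (⟨y₁, hy₁⟩ : A) = ⟨y₂, hy₂⟩ := by
      intro hxe hye
      have h3 : e2RedPt hg (Point.some x₁ y₁ h₁) = e2RedPt hg (Point.some x₂ y₂ h₂) := by
        rw [e2RedPt_some hg h₁ hx₁ hy₁, e2RedPt_some hg h₂ hx₂ hy₂]
        simp only [Point.some.injEq]
        exact ⟨hxe, hye⟩
      have h4 := e2RedPt_injOn hg hodd hm0 hm hP hQ h3
      exact ⟨Subtype.ext (Point.some.inj h4).1, Subtype.ext (Point.some.inj h4).2⟩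
    rw [Point.add_some hxy, e2RedPt_some hg h₁ hx₁ hy₁, e2RedPt_some hg h₂ hx₂ hy₂,
      Point.add_some hxy']
    obtain ⟨EA, hE, hĒ, hΔ⟩ := id hg
    subst hE
    subst hĒ
    have eq₁ : EA.Equation ⟨x₁, hx₁⟩ ⟨y₁, hy₁⟩ :=
      (map_equation EA (f := A.subtype) Subtype.val_injective ⟨x₁, hx₁⟩ ⟨y₁, hy₁⟩).mp h₁.1
    have eq₂ : EA.Equation ⟨x₂, hx₂⟩ ⟨y₂, hy₂⟩ :=
      (map_equation EA (f := A.subtype) Subtype.val_injective ⟨x₂, hx₂⟩ ⟨y₂, hy₂⟩).mp h₂.1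
    have hLres := e2_residue_slope EA ⟨x₁, hx₁⟩ ⟨x₂, hx₂⟩ ⟨y₁, hy₁⟩ ⟨y₂, hy₂⟩ ⟨_, hL⟩ eq₁ eq₂ rfl
      hxy' hcase
    have hXA : (EA.map A.subtype).addX x₁ x₂ ((EA.map A.subtype).slope x₁ x₂ y₁ y₂) =
        ((EA.addX ⟨x₁, hx₁⟩ ⟨x₂, hx₂⟩ ⟨_, hL⟩ : A) : K) :=
      map_addX (W' := EA) A.subtype ⟨x₁, hx₁⟩ ⟨x₂, hx₂⟩ ⟨_, hL⟩
    have hYA : (EA.map A.subtype).addY x₁ x₂ y₁ ((EA.map A.subtype).slope x₁ x₂ y₁ y₂) =
        ((EA.addY ⟨x₁, hx₁⟩ ⟨x₂, hx₂⟩ ⟨y₁, hy₁⟩ ⟨_, hL⟩ : A) : K) :=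
      map_addY (W' := EA) A.subtype ⟨x₁, hx₁⟩ ⟨y₁, hy₁⟩ ⟨x₂, hx₂⟩ ⟨_, hL⟩
    have hXm : (EA.map A.subtype).addX x₁ x₂ ((EA.map A.subtype).slope x₁ x₂ y₁ y₂) ∈ A := by
      rw [hXA]; exact Subtype.property _
    have hYm : (EA.map A.subtype).addY x₁ x₂ y₁ ((EA.map A.subtype).slope x₁ x₂ y₁ y₂) ∈ A := by
      rw [hYA]; exact Subtype.property _
    rw [e2RedPt_some hg _ hXm hYm]
    simp only [Point.some.injEq]
    constructor
    · rw [← hLres, map_addX]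
      exact congrArg (residue A) (Subtype.ext hXA)
    · rw [← hLres, map_addY]
      exact congrArg (residue A) (Subtype.ext hYA)

theorem e2RedPt_nsmul (hg : E2GoodRed A E Ē) (hodd : Odd m) (hm0 : (m : K) ≠ 0)
    (hm : ((m : K))⁻¹ ∈ A) {P : E.Point} (hP : m • P = 0) (n : ℕ) :
    e2RedPt hg (n • P) = n • e2RedPt hg P := by
  induction n with
  | zero => simp
  | succ n ih =>
    have hnP : m • (n • P) = 0 := by rw [smul_comm, hP, smul_zero]
    rw [succ_nsmul, succ_nsmul, e2RedPt_add hg hodd hm0 hm hnP hP, ih]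

theorem e2RedPt_torsion (hg : E2GoodRed A E Ē) (hodd : Odd m) (hm0 : (m : K) ≠ 0)
    (hm : ((m : K))⁻¹ ∈ A) {P : E.Point} (hP : m • P = 0) : m • e2RedPt hg P = 0 := by
  rw [← e2RedPt_nsmul hg hodd hm0 hm hP, hP, e2RedPt_zero]

theorem e2_mem_torsionBy_iff {G : Type*} [AddCommGroup G] {P : G} :
    P ∈ Submodule.torsionBy ℤ G (m : ℤ) ↔ m • P = 0 := by
  rw [Submodule.mem_torsionBy_iff, natCast_zsmul]

/-- **the reduction homomorphism `E[m] →+ Ē[m]`** (`m` odd, a unit of `A`). -/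
noncomputable def e2RedTors (hg : E2GoodRed A E Ē) (hodd : Odd m) (hm0 : (m : K) ≠ 0)
    (hm : ((m : K))⁻¹ ∈ A) :
    Submodule.torsionBy ℤ E.Point (m : ℤ) →+ Submodule.torsionBy ℤ Ē.Point (m : ℤ) where
  toFun P := ⟨e2RedPt hg P.1,
    e2_mem_torsionBy_iff.mpr (e2RedPt_torsion hg hodd hm0 hm (e2_mem_torsionBy_iff.mp P.2))⟩
  map_zero' := rfl
  map_add' P Q := Subtype.ext
    (e2RedPt_add hg hodd hm0 hm (e2_mem_torsionBy_iff.mp P.2) (e2_mem_torsionBy_iff.mp Q.2))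

@[simp] theorem coe_e2RedTors (hg : E2GoodRed A E Ē) (hodd : Odd m) (hm0 : (m : K) ≠ 0)
    (hm : ((m : K))⁻¹ ∈ A) (P : Submodule.torsionBy ℤ E.Point (m : ℤ)) :
    ((e2RedTors hg hodd hm0 hm P : Submodule.torsionBy ℤ Ē.Point (m : ℤ)) : Ē.Point) =
      e2RedPt hg (P : E.Point) := rfl

theorem e2RedTors_injective (hg : E2GoodRed A E Ē) (hodd : Odd m) (hm0 : (m : K) ≠ 0)
    (hm : ((m : K))⁻¹ ∈ A) : Function.Injective (e2RedTors hg hodd hm0 hm) := by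
  intro P Q h
  apply Subtype.ext
  exact e2RedPt_injOn hg hodd hm0 hm (e2_mem_torsionBy_iff.mp P.2) (e2_mem_torsionBy_iff.mp Q.2)
    (congrArg Subtype.val h)

end Torsion

end Fermat.Agent.S58
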