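/-
S58, package (E2) (helper2), part 2: reduction of torsion points of an integral Weierstrass curve
`W : WeierstrassCurve ℤ` at a valuation subring `A` of a field `K` with `Δ` a unit of `A`;
equivariance of reduction for the decomposition group of `A`; Frobenius.
-/
import Mathlib
import Fermat.Prelude.Def_EllipticCurve_FrobeniusTrace
import Fermat.Agent.S58.E2_helper2_Red

set_option autoImplicit false
set_option linter.unusedSectionVars false

namespace Fermat.Agent.S58

open WeierstrassCurve WeierstrassCurve.Affine IsLocalRing Fermat.Agent.Tate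
open scoped WeierstrassCurve.Affine

section Generic

variable {K : Type*} [Field K] [DecidableEq K] {A : ValuationSubring K}
  [DecidableEq (ResidueField A)] {E : Affine K} {Ē : Affine (ResidueField A)}

/-- **generic equivariance**: if `Ψ` acts on the points of `E` through a ring endomorphism `τ` of
`K` preserving `A` in both directions, and `Φ` acts on the points of `Ē` through the induced
endomorphism `τ̄` of the residue field, then reduction intertwines `Ψ` and `Φ`. -/
theorem e2RedPt_comm (hg : E2GoodRed A E Ē) (τ : K →+* K) (hτA : ∀ a, τ a ∈ A ↔ a ∈ A)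
    (τb : ResidueField A →+* ResidueField A)
    (hτb : ∀ (a : K) (ha : a ∈ A), τb (residue A ⟨a, ha⟩) = residue A ⟨τ a, (hτA a).mpr ha⟩)
    (Ψ : E.Point → E.Point) (hΨ0 : Ψ 0 = 0)
    (hΨ : ∀ x y h, ∃ h', Ψ (.some x y h) = .some (τ x) (τ y) h')
    (Φ : Ē.Point → Ē.Point) (hΦ0 : Φ 0 = 0)
    (hΦ : ∀ x y h, ∃ h', Φ (.some x y h) = .some (τb x) (τb y) h') (P : E.Point) :
    e2RedPt hg (Ψ P) = Φ (e2RedPt hg P) := by
  rcases P with _ | ⟨x, y, h⟩
  · change e2RedPt hg (Ψ 0) = Φ (e2RedPt hg 0)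
    rw [hΨ0, e2RedPt_zero, hΦ0]
  · obtain ⟨h', hΨP⟩ := hΨ x y h
    rw [hΨP]
    by_cases hxy : x ∈ A ∧ y ∈ A
    · rw [e2RedPt_some hg h hxy.1 hxy.2,
        e2RedPt_some hg h' ((hτA x).mpr hxy.1) ((hτA y).mpr hxy.2)]
      obtain ⟨h'', hΦP⟩ := hΦ _ _ (hg.nonsingular_residue hxy.1 hxy.2 h.1)
      rw [hΦP]
      simp only [Point.some.injEq]
      exact ⟨(hτb x hxy.1).symm, (hτb y hxy.2).symm⟩
    · have hxy' : ¬ (τ x ∈ A ∧ τ y ∈ A) := fun hh => hxy ⟨(hτA x).mp hh.1, (hτA y).mp hh.2⟩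
      rw [e2RedPt_some_of_notMem hg h hxy, e2RedPt_some_of_notMem hg h' hxy', hΦ0]

end Generic

section DecompositionGroup

variable {S : Type*} {K : Type*} [Field S] [Field K] [Algebra S K] {A : ValuationSubring K}

theorem e2_decomp_map_mem {σ : K ≃ₐ[S] K} (hσ : σ ∈ A.decompositionSubgroup S) {a : K}
    (ha : a ∈ A) : σ a ∈ A := by
  have h1 : ((⟨σ, hσ⟩ : A.decompositionSubgroup S) • (⟨a, ha⟩ : A) : A).1 = σ a := rfl
  rw [← h1]
  exact Subtype.property _

theorem e2_decomp_map_mem_iff {σ : K ≃ₐ[S] K} (hσ : σ ∈ A.decompositionSubgroup S) (a : K) :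
    σ a ∈ A ↔ a ∈ A := by
  refine ⟨fun h => ?_, fun h => e2_decomp_map_mem hσ h⟩
  have h1 := e2_decomp_map_mem (inv_mem hσ) h
  have h2 : σ⁻¹ (σ a) = a := by
    change σ.symm (σ a) = a
    exact σ.symm_apply_apply a
  rwa [h2] at h1

/-- the action of an element of the decomposition group on the residue field, as a ring
homomorphism -/
noncomputable def e2ResHom (σ : K ≃ₐ[S] K) (hσ : σ ∈ A.decompositionSubgroup S) :
    ResidueField A →+* ResidueField A :=
  MulSemiringAction.toRingHom (A.decompositionSubgroup S) (ResidueField A) ⟨σ, hσ⟩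

theorem e2ResHom_apply (σ : K ≃ₐ[S] K) (hσ : σ ∈ A.decompositionSubgroup S)
    (x : ResidueField A) :
    e2ResHom σ hσ x = (⟨σ, hσ⟩ : A.decompositionSubgroup S) • x := rfl

theorem e2ResHom_residue (σ : K ≃ₐ[S] K) (hσ : σ ∈ A.decompositionSubgroup S) (a : K)
    (ha : a ∈ A) :
    e2ResHom σ hσ (residue A ⟨a, ha⟩) = residue A ⟨σ a, e2_decomp_map_mem hσ ha⟩ := rfl

theorem e2ResHom_eq_pow_of_isFrobeniusAt {σ : K ≃ₐ[S] K} {ℓ : ℕ} (h : A.IsFrobeniusAt σ ℓ)
    (x : ResidueField A) : e2ResHom σ h.mem_decompositionSubgroup x = x ^ ℓ :=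
  h.smul_residue_eq x

end DecompositionGroup

section IntCurve

variable {K : Type*} [Field K] [DecidableEq K] (A : ValuationSubring K)
  [DecidableEq (ResidueField A)] (W : WeierstrassCurve ℤ)

/-- good reduction of an integral Weierstrass curve, general form: `E` and `Ē` are the images of
`W` over `K` and over the residue field. -/
theorem e2GoodRed_of_map (hΔ : ((W.Δ : ℤ) : K) ∉ A.nonunits) {E : Affine K}
    {Ē : Affine (ResidueField A)} (hE : E = W.map (Int.castRingHom K))
    (hĒ : Ē = W.map (Int.castRingHom (ResidueField A))) : E2GoodRed A E Ē := by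
  refine ⟨W.map (Int.castRingHom A), ?_, ?_, ?_⟩
  · rw [hE]
    change (W.map (Int.castRingHom A)).map A.subtype = _
    rw [WeierstrassCurve.map_map]
    congr 1
  · rw [hĒ]
    change (W.map (Int.castRingHom A)).map (residue A) = _
    rw [WeierstrassCurve.map_map]
    congr 1
  · have h1 : (W.map (Int.castRingHom A)).Δ = ((W.Δ : ℤ) : A) := by
      rw [WeierstrassCurve.map_Δ]; rfl
    change IsUnit (W.map (Int.castRingHom A)).Δ
    rw [h1]
    by_contra hu
    apply hΔ
    have h2 : (((W.Δ : ℤ) : A) : K) = ((W.Δ : ℤ) : K) := map_intCast A.subtype _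
    rw [← h2, A.coe_mem_nonunits_iff]
    exact hu

/-- good reduction, `E = W⁄K`, `Ē = W⁄k` -/
theorem e2GoodRed_int (hΔ : ((W.Δ : ℤ) : K) ∉ A.nonunits) :
    E2GoodRed A (W⁄K) (W⁄(ResidueField A)) :=
  e2GoodRed_of_map A W hΔ (by
    change W.map (algebraMap ℤ K) = _
    congr 1) (by
    change W.map (algebraMap ℤ (ResidueField A)) = _
    congr 1)

/-- good reduction, `E = (W_ℚ)⁄K`, `Ē = W⁄k` -/
theorem e2GoodRed_intRat [Algebra ℚ K] (hΔ : ((W.Δ : ℤ) : K) ∉ A.nonunits) :
    E2GoodRed A ((W.map (Int.castRingHom ℚ))⁄K) (W⁄(ResidueField A)) :=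
  e2GoodRed_of_map A W hΔ (by
    change (W.map (Int.castRingHom ℚ)).map (algebraMap ℚ K) = _
    rw [WeierstrassCurve.map_map]
    congr 1
    exact RingHom.ext_int _ _) (by
    change W.map (algebraMap ℤ (ResidueField A)) = _
    congr 1)

end IntCurve

section Equivariance

variable {S : Type*} {K : Type*} [Field S] [Field K] [DecidableEq K] [Algebra S K]
  {A : ValuationSubring K} [DecidableEq (ResidueField A)] (W : WeierstrassCurve ℤ)

/-- **equivariance of reduction**, `E = W⁄K`, `Ē = W⁄k`: for `σ` in the decomposition group of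
`A`, acting on the residue field through `φ`. -/
theorem e2RedPt_smul (hg : E2GoodRed A (W⁄K) (W⁄(ResidueField A))) (σ : K ≃ₐ[S] K)
    (hσ : σ ∈ A.decompositionSubgroup S) (φ : ResidueField A →ₐ[ℤ] ResidueField A)
    (hφ : ∀ x, φ x = e2ResHom σ hσ x) (P : (W⁄K).Point) :
    e2RedPt hg (σ • P) = Point.map (W' := W) φ (e2RedPt hg P) := by
  refine e2RedPt_comm hg (σ : K →+* K) (e2_decomp_map_mem_iff hσ) (φ : _ →+* _) ?_
    (fun P => σ • P) rfl (fun x y h => ⟨_, rfl⟩) (Point.map (W' := W) φ) rfl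
    (fun x y h => ⟨_, rfl⟩) P
  intro a ha
  exact (hφ _).trans (e2ResHom_residue σ hσ a ha)

/-- **Frobenius-equivariance of reduction**, `E = W⁄K`, `Ē = W⁄k`: a Frobenius element `σ` at `ℓ`
for `A` acts on the reduction through the `ℓ`-power map `φ`. -/
theorem e2RedPt_smul_of_isFrobeniusAt (hg : E2GoodRed A (W⁄K) (W⁄(ResidueField A)))
    {σ : K ≃ₐ[S] K} {ℓ : ℕ} (hσ : A.IsFrobeniusAt σ ℓ)
    (φ : ResidueField A →ₐ[ℤ] ResidueField A) (hφ : ∀ x, φ x = x ^ ℓ) (P : (W⁄K).Point) :
    e2RedPt hg (σ • P) = Point.map (W' := W) φ (e2RedPt hg P) :=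
  e2RedPt_smul W hg σ hσ.mem_decompositionSubgroup φ
    (fun x => (hφ x).trans (e2ResHom_eq_pow_of_isFrobeniusAt hσ x).symm) P

end Equivariance

end Fermat.Agent.S58
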