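/-
S58, package (E2) (helper2), part 3: the TRANSFER LEMMA.  A quadratic relation satisfied by an
additive endomorphism `Φ` of the points of the reduced curve `Ē(k)` is satisfied, on the `m`-torsion
of `E(K)` (`m` odd, a unit of `A`), by every additive endomorphism `Ψ` of `E(K)` which is intertwined
with `Φ` by the reduction map.  Specialisation: Frobenius elements at a good prime `ℓ` of an integral
Weierstrass curve.
-/
import Mathlib
import Fermat.Prelude.Def_FLTPrelim_Modularity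
import Fermat.Agent.S58.E2_helper2_Int
import Fermat.Agent.Tate.Frey_helper7
import Fermat.Agent.JA.BASE_helper1_Res

set_option autoImplicit false
set_option linter.unusedSectionVars false

namespace Fermat.Agent.S58

open WeierstrassCurve WeierstrassCurve.Affine IsLocalRing Fermat.Agent.Tate
open scoped WeierstrassCurve.Affine

section Abstract

variable {K : Type*} [Field K] [DecidableEq K] {A : ValuationSubring K}
  [DecidableEq (ResidueField A)] {E : Affine K} {Ē : Affine (ResidueField A)} {m : ℕ}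

/-- **transfer lemma, abstract form.** -/
theorem e2_transfer_relation (hg : E2GoodRed A E Ē) (hodd : Odd m) (hm0 : (m : K) ≠ 0)
    (hm : ((m : K))⁻¹ ∈ A) (Ψ : E.Point →+ E.Point) (Φ : Ē.Point →+ Ē.Point)
    (hcomm : ∀ P, e2RedPt hg (Ψ P) = Φ (e2RedPt hg P)) (a b : ℤ)
    (hrel : ∀ S : Ē.Point, Φ (Φ S) - a • Φ S + b • S = 0) {P : E.Point} (hP : m • P = 0) :
    Ψ (Ψ P) - a • Ψ P + b • P = 0 := by
  have hΨ : ∀ Q : E.Point, m • Q = 0 → m • Ψ Q = 0 := fun Q hQ => by
    rw [← map_nsmul, hQ, map_zero]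
  set p : Submodule.torsionBy ℤ E.Point (m : ℤ) := ⟨P, e2_mem_torsionBy_iff.mpr hP⟩ with hp
  set p1 : Submodule.torsionBy ℤ E.Point (m : ℤ) := ⟨Ψ P, e2_mem_torsionBy_iff.mpr (hΨ P hP)⟩
    with hp1
  set p2 : Submodule.torsionBy ℤ E.Point (m : ℤ) :=
    ⟨Ψ (Ψ P), e2_mem_torsionBy_iff.mpr (hΨ _ (hΨ P hP))⟩ with hp2
  have h1 : e2RedTors hg hodd hm0 hm (p2 - a • p1 + b • p) = 0 := by
    rw [map_add, map_sub, map_zsmul, map_zsmul]
    apply Subtype.ext
    simp only [Submodule.coe_add, Submodule.coe_sub, Submodule.coe_smul, coe_e2RedTors,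
      Submodule.coe_zero]
    rw [hp2, hp1, hp]
    simp only []
    rw [hcomm, hcomm]
    exact hrel _
  have h2 : p2 - a • p1 + b • p = 0 :=
    e2RedTors_injective hg hodd hm0 hm (h1.trans (map_zero _).symm)
  have h3 := congrArg (Subtype.val) h2
  simpa only [Submodule.coe_add, Submodule.coe_sub, Submodule.coe_smul, Submodule.coe_zero]
    using h3

end Abstract

section Frobenius

variable {S : Type*} {K : Type*} [Field S] [Field K] [DecidableEq K] [Algebra S K]
  {A : ValuationSubring K} [DecidableEq (ResidueField A)] (W : WeierstrassCurve ℤ)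

/-- good reduction, `E = W⁄K`, `Ē = (W mod ℓ)⁄k` -/
theorem e2GoodRed_reductionMod (ℓ : ℕ) [Algebra (ZMod ℓ) (ResidueField A)]
    (hΔ : ((W.Δ : ℤ) : K) ∉ A.nonunits) :
    E2GoodRed A (W⁄K) ((W.reductionMod ℓ)⁄(ResidueField A)) :=
  e2GoodRed_of_map A W hΔ (by
    change W.map (algebraMap ℤ K) = _
    congr 1) (by
    change (W.map (Int.castRingHom (ZMod ℓ))).map (algebraMap (ZMod ℓ) (ResidueField A)) = _
    rw [WeierstrassCurve.map_map]
    congr 1
    exact RingHom.ext_int _ _)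

/-- **Frobenius-equivariance of reduction**, `E = W⁄K`, `Ē = (W mod ℓ)⁄k`. -/
theorem e2RedPt_smul_reductionMod (ℓ : ℕ) [Algebra (ZMod ℓ) (ResidueField A)]
    (hg : E2GoodRed A (W⁄K) ((W.reductionMod ℓ)⁄(ResidueField A)))
    {σ : K ≃ₐ[S] K} (hσ : A.IsFrobeniusAt σ ℓ)
    (φ : ResidueField A →ₐ[ZMod ℓ] ResidueField A) (hφ : ∀ x, φ x = x ^ ℓ) (P : (W⁄K).Point) :
    e2RedPt hg (σ • P) = Point.map (W' := W.reductionMod ℓ) φ (e2RedPt hg P) := by
  refine e2RedPt_comm hg (σ : K →+* K) (e2_decomp_map_mem_iff hσ.mem_decompositionSubgroup)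
    (φ : _ →+* _) ?_ (fun P => σ • P) rfl (fun x y h => ⟨_, rfl⟩)
    (Point.map (W' := W.reductionMod ℓ) φ) rfl (fun x y h => ⟨_, rfl⟩) P
  intro a ha
  exact ((hφ _).trans (e2ResHom_eq_pow_of_isFrobeniusAt hσ _).symm).trans
    (e2ResHom_residue σ hσ.mem_decompositionSubgroup a ha)

/-- **transfer lemma for Frobenius**: a quadratic relation for the `ℓ`-Frobenius on all points of
the reduction `(W mod ℓ)(k)` holds for every Frobenius element at `ℓ` on `E[m](K)`, `m` odd and a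
unit of `A`. -/
theorem e2_frobenius_relation_torsion (ℓ : ℕ) [Algebra (ZMod ℓ) (ResidueField A)]
    (hg : E2GoodRed A (W⁄K) ((W.reductionMod ℓ)⁄(ResidueField A)))
    {σ : K ≃ₐ[S] K} (hσ : A.IsFrobeniusAt σ ℓ)
    (φ : ResidueField A →ₐ[ZMod ℓ] ResidueField A) (hφ : ∀ x, φ x = x ^ ℓ) (a b : ℤ)
    (hrel : ∀ T : ((W.reductionMod ℓ)⁄(ResidueField A)).Point,
      Point.map (W' := W.reductionMod ℓ) φ (Point.map (W' := W.reductionMod ℓ) φ T)
        - a • Point.map (W' := W.reductionMod ℓ) φ T + b • T = 0)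
    {m : ℕ} (hodd : Odd m) (hm0 : (m : K) ≠ 0) (hm : ((m : K))⁻¹ ∈ A) {P : (W⁄K).Point}
    (hP : m • P = 0) : σ • σ • P - a • σ • P + b • P = 0 :=
  e2_transfer_relation hg hodd hm0 hm (DistribMulAction.toAddMonoidHom (W⁄K).Point σ)
    (Point.map (W' := W.reductionMod ℓ) φ)
    (fun P => e2RedPt_smul_reductionMod W ℓ hg hσ φ hφ P) a b hrel hP

end Frobenius

section Qbar

/-- `Ω = AlgebraicClosure ℚ`. -/
local notation "Ω" => AlgebraicClosure ℚ

/-- the trace of Frobenius of the model at `ℓ`, spelled out -/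
theorem e2_apOfModel_eq (W : WeierstrassCurve ℤ) (ℓ : ℕ) :
    W.apOfModel ℓ = (ℓ : ℤ) + 1 - (Nat.card (W.reductionMod ℓ).toAffine.Point : ℤ) := by
  unfold WeierstrassCurve.apOfModel WeierstrassCurve.traceOfFrobenius WeierstrassCurve.card
  rw [Nat.card_zmod]

/-- the shape of the Frobenius relation on the reduction mod `ℓ` (the output of (E3)), as a
hypothesis: over every algebraically closed field `k` of characteristic `ℓ`, the `ℓ`-Frobenius `φ`
of `(W mod ℓ)(k)` satisfies `φ² - a φ + ℓ = 0`. -/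
def E2FrobRel (W : WeierstrassCurve ℤ) (ℓ : ℕ) (a : ℤ) : Prop :=
  ∀ (k : Type) [Field k] [DecidableEq k] [Algebra (ZMod ℓ) k] [IsAlgClosed k]
    (φ : k →ₐ[ZMod ℓ] k), (∀ x, φ x = x ^ ℓ) →
    ∀ T : ((W.reductionMod ℓ)⁄k).Point,
      Point.map (W' := W.reductionMod ℓ) φ (Point.map (W' := W.reductionMod ℓ) φ T)
        - a • Point.map (W' := W.reductionMod ℓ) φ T + (ℓ : ℤ) • T = 0

/-- **(E2)+(E3) ⇒ the Frobenius relation on the torsion of `E(ℚ̄)`**: for a good prime `ℓ` of the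
integral model `W`, a place `A` of `ℚ̄` over `ℓ`, a Frobenius element `σ` at `ℓ` for `A`, and `m` odd
prime to `ℓ`: `σ² - a σ + ℓ = 0` on `E[m](ℚ̄)`, as soon as the `ℓ`-Frobenius of the reduction
satisfies this relation. -/
theorem e2_frobenius_relation_Qbar (W : WeierstrassCurve ℤ) {ℓ : ℕ} (hℓ : ℓ.Prime)
    (hgood : W.IsGoodPrimeFor ℓ) {a : ℤ} (hfrob : E2FrobRel W ℓ a)
    (A : ValuationSubring Ω) (hA : A.LiesOverPrime ℓ) {σ : Ω ≃ₐ[ℚ] Ω}
    (hσ : A.IsFrobeniusAt σ ℓ) {m : ℕ} (hodd : Odd m) (hmℓ : ¬ ℓ ∣ m) {P : (W⁄Ω).Point}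
    (hP : m • P = 0) : σ • σ • P - a • σ • P + (ℓ : ℤ) • P = 0 := by
  classical
  haveI : Fact ℓ.Prime := ⟨hℓ⟩
  haveI : CharP (ResidueField A) ℓ := Fermat.Agent.JA.charP_residueField hA
  letI : Algebra (ZMod ℓ) (ResidueField A) := ZMod.algebra _ ℓ
  haveI : IsAlgClosed (ResidueField A) := Fermat.Agent.JA.isAlgClosed_residueField A
  have hℓA : ((ℓ : ℕ) : Ω) ∈ A.nonunits := hA
  have hΔ : ((W.Δ : ℤ) : Ω) ∉ A.nonunits := intCast_notMem_nonunits A hℓ hℓA hgood
  have hg := e2GoodRed_reductionMod (A := A) W ℓ hΔ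
  have hm0 : ((m : ℕ) : Ω) ≠ 0 := by
    intro h0
    apply hmℓ
    have : m = 0 := by exact_mod_cast h0
    rw [this]
    exact dvd_zero _
  have hm : (((m : ℕ) : Ω))⁻¹ ∈ A := inv_natCast_mem A hℓ hℓA hmℓ
  -- the Frobenius of the residue field
  let φ : ResidueField A →ₐ[ZMod ℓ] ResidueField A :=
    { frobenius (ResidueField A) ℓ with
      commutes' := fun r => by
        change (algebraMap (ZMod ℓ) (ResidueField A) r) ^ ℓ = _
        rw [← map_pow, ZMod.pow_card] }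
  have hφ : ∀ x, φ x = x ^ ℓ := fun x => rfl
  exact e2_frobenius_relation_torsion W ℓ hg hσ φ hφ a (ℓ : ℤ)
    (hfrob (ResidueField A) φ hφ) hodd hm0 hm hP

end Qbar

end Fermat.Agent.S58
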