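/-
S58, package (E2) (helper2), part 5: (N3) — a Frobenius element at a good prime `ℓ` does not act as
a scalar on `T_λ E` (`λ` odd, `λ ≠ ℓ`): if for every `s` it acted on `E[λ^s](ℚ̄)` as an integer `c_s`,
then reduction would give `λ^(2s)` points of `Ē(k)` in the kernel of `φ - c_s`, contradicting the
kernel bound `#ker (φ - c) ≤ c² - a c + ℓ` ((N1), an output of (E3), here a hypothesis).
-/
import Mathlib
import Fermat.Agent.S58.E2_helper2_Transfer

set_option autoImplicit false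
set_option linter.unusedSectionVars false

namespace Fermat.Agent.S58

open WeierstrassCurve WeierstrassCurve.Affine IsLocalRing Fermat.Agent.Tate
open scoped WeierstrassCurve.Affine

section Abstract

variable {K : Type*} [Field K] [DecidableEq K] {A : ValuationSubring K}
  [DecidableEq (ResidueField A)] {E : Affine K} {Ē : Affine (ResidueField A)} {m : ℕ}

theorem e2RedPt_zsmul (hg : E2GoodRed A E Ē) (hodd : Odd m) (hm0 : (m : K) ≠ 0)
    (hm : ((m : K))⁻¹ ∈ A) {P : E.Point} (hP : m • P = 0) (c : ℤ) :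
    e2RedPt hg (c • P) = c • e2RedPt hg P := by
  have h1 := map_zsmul (e2RedTors hg hodd hm0 hm) c
    (⟨P, e2_mem_torsionBy_iff.mpr hP⟩ : Submodule.torsionBy ℤ E.Point (m : ℤ))
  have h2 := congrArg Subtype.val h1
  simpa only [Submodule.coe_smul, coe_e2RedTors] using h2

/-- **(N3), abstract form**: if `Ψ` (intertwined with `Φ` by reduction) acts on `E[m]` as the
integer `c`, then `Φ` acts as `c` on the `#T₀` reductions of any finite set `T₀ ⊆ E[m]`. -/
theorem e2_exists_finset_of_scalar [DecidableEq Ē.Point] (hg : E2GoodRed A E Ē) (hodd : Odd m)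
    (hm0 : (m : K) ≠ 0) (hm : ((m : K))⁻¹ ∈ A) (Ψ : E.Point → E.Point) (Φ : Ē.Point → Ē.Point)
    (hcomm : ∀ P, e2RedPt hg (Ψ P) = Φ (e2RedPt hg P)) (c : ℤ)
    (hc : ∀ P : E.Point, m • P = 0 → Ψ P = c • P) (T₀ : Finset E.Point)
    (hT₀ : ∀ P ∈ T₀, m • P = 0) :
    ∃ T : Finset Ē.Point, T.card = T₀.card ∧ ∀ S ∈ T, Φ S = c • S := by
  classical
  refine ⟨T₀.image (e2RedPt hg), ?_, ?_⟩
  · apply Finset.card_image_of_injOn
    intro P hP Q hQ hPQ
    exact e2RedPt_injOn hg hodd hm0 hm (hT₀ P hP) (hT₀ Q hQ) hPQ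
  · intro S hS
    obtain ⟨P, hP, rfl⟩ := Finset.mem_image.mp hS
    rw [← hcomm, hc P (hT₀ P hP), e2RedPt_zsmul hg hodd hm0 hm (hT₀ P hP)]

end Abstract

/-- elementary inequality behind (N3) -/
theorem e2_scalar_ineq {L c a ℓ N : ℤ} (hL : |a| + ℓ + 2 ≤ L) (hℓ : 0 ≤ ℓ) (hc1 : -L ≤ 2 * c)
    (hc2 : 2 * c ≤ L) (hN : L ^ 2 ≤ N) (hle : N ≤ c ^ 2 - a * c + ℓ) : False := by
  have ha := abs_nonneg a
  have hL0 : 0 < L := by linarith
  have h4 : 4 * c ^ 2 ≤ L ^ 2 := by nlinarith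
  have h5 : -(4 * (a * c)) ≤ 2 * |a| * L := by
    rcases le_or_gt 0 a with h0 | h0
    · rw [abs_of_nonneg h0]
      nlinarith
    · rw [abs_of_neg h0]
      nlinarith
  have h6 : 3 * L ^ 2 ≤ 2 * |a| * L + 4 * ℓ := by nlinarith
  nlinarith

/-- in a `λ`-divisible abelian group whose `λ`-torsion has at least `λ²` elements, the
`λ^s`-torsion has at least `λ^(2s)` elements (finset form). -/
theorem e2_exists_finset_torsion_pow {J : Type*} [AddCommGroup J] {lam : ℕ}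
    (T₁ : Finset J) (hT₁ : ∀ R ∈ T₁, lam • R = 0) (hcard : lam ^ 2 ≤ T₁.card)
    (hdiv : ∀ P : J, ∃ Q : J, lam • Q = P) (s : ℕ) :
    ∃ T₀ : Finset J, (∀ P ∈ T₀, lam ^ s • P = 0) ∧ lam ^ (2 * s) ≤ T₀.card := by
  classical
  induction s with
  | zero =>
    refine ⟨{0}, ?_, ?_⟩
    · intro P hP
      rw [Finset.mem_singleton.mp hP, smul_zero]
    · simp
  | succ s ih =>
    obtain ⟨T, hT, hTcard⟩ := ih
    choose q hq using hdiv
    refine ⟨(T ×ˢ T₁).image (fun x => q x.1 + x.2), ?_, ?_⟩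
    · intro P hP
      obtain ⟨x, hx, rfl⟩ := Finset.mem_image.mp hP
      obtain ⟨hx1, hx2⟩ := Finset.mem_product.mp hx
      rw [smul_add, pow_succ, mul_smul, hq, hT _ hx1, zero_add, mul_smul, hT₁ _ hx2,
        smul_zero]
    · rw [Finset.card_image_of_injOn, Finset.card_product]
      · calc lam ^ (2 * (s + 1)) = lam ^ (2 * s) * lam ^ 2 := by ring
          _ ≤ T.card * T₁.card := Nat.mul_le_mul hTcard hcard
      · intro x hx y hy hxy
        obtain ⟨hx1, hx2⟩ := Finset.mem_product.mp (Finset.mem_coe.mp hx)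
        obtain ⟨hy1, hy2⟩ := Finset.mem_product.mp (Finset.mem_coe.mp hy)
        have hxy' : q x.1 + x.2 = q y.1 + y.2 := hxy
        have h1 : x.1 = y.1 := by
          have := congrArg (fun z => lam • z) hxy'
          simp only [smul_add, hq, hT₁ _ hx2, hT₁ _ hy2, add_zero] at this
          exact this
        have h2 : x.2 = y.2 := by
          rw [h1] at hxy'
          exact add_left_cancel hxy'
        exact Prod.ext h1 h2

section Qbar

/-- `Ω = AlgebraicClosure ℚ`. -/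
local notation "Ω" => AlgebraicClosure ℚ

/-- the shape of the kernel bound (N1) on the reduction mod `ℓ` (an output of (E3)), as a
hypothesis: over every algebraically closed field `k` of characteristic `ℓ`, any finite set of
points of `(W mod ℓ)(k)` on which the `ℓ`-Frobenius acts as the integer `c` has at most
`c² - a c + ℓ` elements. -/
def E2KerBound (W : WeierstrassCurve ℤ) (ℓ : ℕ) (a : ℤ) : Prop :=
  ∀ (k : Type) [Field k] [DecidableEq k] [Algebra (ZMod ℓ) k] [IsAlgClosed k]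
    (φ : k →ₐ[ZMod ℓ] k), (∀ x, φ x = x ^ ℓ) →
    ∀ (c : ℤ) (T : Finset ((W.reductionMod ℓ)⁄k).Point),
      (∀ S ∈ T, Point.map (W' := W.reductionMod ℓ) φ S = c • S) →
      (T.card : ℤ) ≤ c ^ 2 - a * c + (ℓ : ℤ)

/-- **(N3): a Frobenius element at a good prime is not a scalar on `T_λ E`**, in the torsion-level
form matching transfer principle (iv) of [TMOD]: it is impossible that for every `s` the Frobenius
`σ` acts on `E[λ^s](ℚ̄)` as an integer, as soon as `E[λ^s]` has at least `λ^(2s)` points (E1) and the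
kernel bound (N1) holds on the reduction. -/
theorem e2_frobenius_not_scalar_Qbar (W : WeierstrassCurve ℤ) {ℓ : ℕ} (hℓ : ℓ.Prime)
    (hgood : W.IsGoodPrimeFor ℓ) {a : ℤ} (hker : E2KerBound W ℓ a)
    (A : ValuationSubring Ω) (hA : A.LiesOverPrime ℓ) {σ : Ω ≃ₐ[ℚ] Ω}
    (hσ : A.IsFrobeniusAt σ ℓ) {lam : ℕ} (hlam : lam.Prime) (hlam2 : lam ≠ 2) (hlamℓ : lam ≠ ℓ)
    (hcard : ∀ s : ℕ, ∃ T₀ : Finset (W⁄Ω).Point, (∀ P ∈ T₀, lam ^ s • P = 0) ∧
      lam ^ (2 * s) ≤ T₀.card) :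
    ¬ ∀ s : ℕ, ∃ c : ℤ, ∀ P : (W⁄Ω).Point, lam ^ s • P = 0 → σ • P = c • P := by
  classical
  intro hscal
  haveI : Fact ℓ.Prime := ⟨hℓ⟩
  haveI : CharP (ResidueField A) ℓ := Fermat.Agent.JA.charP_residueField hA
  letI : Algebra (ZMod ℓ) (ResidueField A) := ZMod.algebra _ ℓ
  haveI : IsAlgClosed (ResidueField A) := Fermat.Agent.JA.isAlgClosed_residueField A
  have hℓA : ((ℓ : ℕ) : Ω) ∈ A.nonunits := hA
  have hΔ : ((W.Δ : ℤ) : Ω) ∉ A.nonunits := intCast_notMem_nonunits A hℓ hℓA hgood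
  have hg := e2GoodRed_reductionMod (A := A) W ℓ hΔ
  let φ : ResidueField A →ₐ[ZMod ℓ] ResidueField A :=
    { frobenius (ResidueField A) ℓ with
      commutes' := fun r => by
        change (algebraMap (ZMod ℓ) (ResidueField A) r) ^ ℓ = _
        rw [← map_pow, ZMod.pow_card] }
  have hφ : ∀ x, φ x = x ^ ℓ := fun x => rfl
  -- choose `s` with `λ^s` large
  set s : ℕ := a.natAbs + ℓ + 2 with hs
  set m : ℕ := lam ^ s with hm_def
  have hmbig : a.natAbs + ℓ + 2 ≤ m := by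
    have := Nat.lt_pow_self (n := s) hlam.one_lt
    omega
  have hodd : Odd m := (hlam.odd_of_ne_two hlam2).pow
  have hmℓ : ¬ ℓ ∣ m := fun h =>
    hlamℓ ((Nat.prime_dvd_prime_iff_eq hℓ hlam).mp (hℓ.dvd_of_dvd_pow h)).symm
  have hm0 : ((m : ℕ) : Ω) ≠ 0 := by
    intro h0
    apply hmℓ
    have : m = 0 := by exact_mod_cast h0
    rw [this]
    exact dvd_zero _
  have hm : (((m : ℕ) : Ω))⁻¹ ∈ A := inv_natCast_mem A hℓ hℓA hmℓ
  obtain ⟨c, hc⟩ := hscal s
  obtain ⟨T₀, hT₀, hT₀card⟩ := hcard s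
  -- the balanced representative of `c` modulo `m`
  have hmpos : 0 < m := Nat.pos_of_ne_zero (fun h => by rw [h] at hmbig; omega)
  set c' : ℤ := Int.bmod c m with hc'
  have hdvd : (m : ℤ) ∣ c' - c := Int.dvd_bmod_sub_self
  have hc'P : ∀ P : (W⁄Ω).Point, m • P = 0 → σ • P = c' • P := by
    intro P hP
    rw [hc P hP]
    obtain ⟨t, ht⟩ := hdvd
    have h1 : c' = c + (m : ℤ) * t := by linarith
    rw [h1, add_zsmul, mul_comm, mul_zsmul, natCast_zsmul, hP, zsmul_zero, add_zero]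
  obtain ⟨T, hTcard, hT⟩ := e2_exists_finset_of_scalar hg hodd hm0 hm (fun P => σ • P)
    (Point.map (W' := W.reductionMod ℓ) φ)
    (fun P => e2RedPt_smul_reductionMod W ℓ hg hσ φ hφ P) c' hc'P T₀ hT₀
  have hbound := hker (ResidueField A) φ hφ c' T hT
  rw [hTcard] at hbound
  have h1 : -((m : ℤ) / 2) ≤ c' := Int.le_bmod hmpos
  have h2 : c' < ((m : ℤ) + 1) / 2 := Int.bmod_lt hmpos
  refine e2_scalar_ineq (L := (m : ℤ)) (c := c') (a := a) (ℓ := (ℓ : ℤ)) (N := (T₀.card : ℤ))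
    ?_ (by positivity) (by omega) (by omega) ?_ hbound
  · have : |a| = (a.natAbs : ℤ) := (Int.natCast_natAbs a).symm
    rw [this]
    exact_mod_cast hmbig
  · have : (m : ℤ) ^ 2 = ((lam ^ (2 * s) : ℕ) : ℤ) := by
      rw [hm_def]; push_cast; ring
    rw [this]
    exact_mod_cast hT₀card

/-- (N3) with (E1) in the form `#E[λ] = λ²` + `λ`-divisibility of `E(ℚ̄)`. -/
theorem e2_frobenius_not_scalar_Qbar' (W : WeierstrassCurve ℤ) {ℓ : ℕ} (hℓ : ℓ.Prime)
    (hgood : W.IsGoodPrimeFor ℓ) {a : ℤ} (hker : E2KerBound W ℓ a)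
    (A : ValuationSubring Ω) (hA : A.LiesOverPrime ℓ) {σ : Ω ≃ₐ[ℚ] Ω}
    (hσ : A.IsFrobeniusAt σ ℓ) {lam : ℕ} (hlam : lam.Prime) (hlam2 : lam ≠ 2) (hlamℓ : lam ≠ ℓ)
    (hcard1 : Nat.card {P : (W⁄Ω).Point // lam • P = 0} = lam ^ 2)
    (hdiv : ∀ P : (W⁄Ω).Point, ∃ Q : (W⁄Ω).Point, lam • Q = P) :
    ¬ ∀ s : ℕ, ∃ c : ℤ, ∀ P : (W⁄Ω).Point, lam ^ s • P = 0 → σ • P = c • P := by
  classical
  refine e2_frobenius_not_scalar_Qbar W hℓ hgood hker A hA hσ hlam hlam2 hlamℓ ?_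
  haveI : Finite {P : (W⁄Ω).Point // lam • P = 0} := by
    apply Nat.finite_of_card_ne_zero
    rw [hcard1]
    exact pow_ne_zero _ hlam.ne_zero
  haveI : Fintype {P : (W⁄Ω).Point // lam • P = 0} := Fintype.ofFinite _
  refine e2_exists_finset_torsion_pow
    ((Finset.univ : Finset {P : (W⁄Ω).Point // lam • P = 0}).image Subtype.val) ?_ ?_ hdiv
  · intro R hR
    obtain ⟨x, -, rfl⟩ := Finset.mem_image.mp hR
    exact x.2
  · rw [Finset.card_image_of_injective _ Subtype.val_injective, Finset.card_univ,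
      ← Nat.card_eq_fintype_card, hcard1]

end Qbar

end Fermat.Agent.S58
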