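import Mathlib
import Fermat.Agent.EC.Frob_helper6_Ker
import Fermat.Agent.S58.E2_helper2_Scalar

set_option autoImplicit false

/-!
# (E3) at a good prime of an integral model: the Frobenius relation and the kernel bound
in the shapes `E2FrobRel`, `E2KerBound` consumed by (E2)
-/

namespace Fermat.Agent.S58

open WeierstrassCurve WeierstrassCurve.Affine

theorem reductionMod_Δ_ne_zero (W : WeierstrassCurve ℤ) {ℓ : ℕ} (hgood : W.IsGoodPrimeFor ℓ) :
    (W.reductionMod ℓ).Δ ≠ 0 := by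
  unfold WeierstrassCurve.reductionMod
  rw [WeierstrassCurve.map_Δ]
  intro h
  apply hgood
  exact (ZMod.intCast_zmod_eq_zero_iff_dvd _ _).mp (by simpa using h)

/-- the Frobenius relation at a good prime, in the shape consumed by `e2_frobenius_relation_Qbar` -/
theorem e2FrobRel_of_good (W : WeierstrassCurve ℤ) {ℓ : ℕ} (hℓ : ℓ.Prime)
    (hgood : W.IsGoodPrimeFor ℓ) : E2FrobRel W ℓ (W.apOfModel ℓ) := by
  have : Fact ℓ.Prime := ⟨hℓ⟩
  intro k _ _ _ _ φ hφ T
  rw [e2_apOfModel_eq]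
  exact Fermat.Agent.EC.frob_relation ℓ (W.reductionMod ℓ) (reductionMod_Δ_ne_zero W hgood) k φ hφ T

/-- the kernel bound at a good prime, in the shape consumed by `e2_frobenius_not_scalar_Qbar` -/
theorem e2KerBound_of_good (W : WeierstrassCurve ℤ) {ℓ : ℕ} (hℓ : ℓ.Prime)
    (hgood : W.IsGoodPrimeFor ℓ) : E2KerBound W ℓ (W.apOfModel ℓ) := by
  have : Fact ℓ.Prime := ⟨hℓ⟩
  intro k _ _ _ _ φ hφ c T hT
  rw [e2_apOfModel_eq]
  exact Fermat.Agent.EC.frob_ker_card_le ℓ (W.reductionMod ℓ) (reductionMod_Δ_ne_zero W hgood)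
    k φ hφ c T hT

end Fermat.Agent.S58
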