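/-
S58, package (E2) (helper2), part 4: at a prime of good reduction the inertia group acts trivially
on the torsion of odd order prime to the residue characteristic (Néron–Ogg–Shafarevich, easy
direction), for an integral Weierstrass curve over `ℚ̄`.
-/
import Mathlib
import Fermat.Agent.S58.E2_helper2_Transfer
import Fermat.Agent.Tate.Inertia

set_option autoImplicit false
set_option linter.unusedSectionVars false

namespace Fermat.Agent.S58

open WeierstrassCurve WeierstrassCurve.Affine IsLocalRing Fermat.Agent.Tate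
open scoped WeierstrassCurve.Affine

section General

variable {S : Type*} {K : Type*} [Field S] [Field K] [DecidableEq K] [Algebra S K]
  {A : ValuationSubring K} [DecidableEq (ResidueField A)] (W : WeierstrassCurve ℤ)

/-- **inertia acts trivially on `E[m]`** at a place of good reduction (`m` odd, a unit of `A`). -/
theorem e2_inertia_smul_eq (hg : E2GoodRed A (W⁄K) (W⁄(ResidueField A))) {σ : K ≃ₐ[S] K}
    (hσ : σ ∈ A.inertiaSubgroupIn S) {m : ℕ} (hodd : Odd m) (hm0 : (m : K) ≠ 0)
    (hm : ((m : K))⁻¹ ∈ A) {P : (W⁄K).Point} (hP : m • P = 0) : σ • P = P := by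
  have hdec : σ ∈ A.decompositionSubgroup S := by
    obtain ⟨τ, -, rfl⟩ := hσ
    exact τ.2
  have hσP : m • (σ • P) = 0 := by
    have h0 : m • (σ • P) = σ • (m • P) :=
      (map_nsmul (DistribMulAction.toAddMonoidHom (W⁄K).Point σ) m P).symm
    rw [h0, hP]
    rfl
  refine e2RedPt_injOn hg hodd hm0 hm hσP hP ?_
  have h1 := e2RedPt_smul W hg σ hdec (AlgHom.id ℤ (ResidueField A)) (fun x => ?_) P
  · rw [h1]
    rcases e2RedPt hg P with _ | ⟨x, y, h⟩
    · rfl
    · rfl
  · -- the induced automorphism of the residue field is trivial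
    obtain ⟨a, rfl⟩ := residue_surjective x
    have h2 := (inertia_map_mem_and_sub_mem hσ a.2).2
    rw [AlgHom.id_apply]
    have h3 : e2ResHom σ hdec (residue A a) = residue A ⟨σ a.1, e2_decomp_map_mem hdec a.2⟩ :=
      e2ResHom_residue σ hdec a.1 a.2
    rw [h3]
    symm
    rw [← sub_eq_zero, ← map_sub, residue_eq_zero_iff, mem_maximalIdeal]
    exact A.coe_mem_nonunits_iff.mp h2

end General

section Qbar

/-- `Ω = AlgebraicClosure ℚ`. -/
local notation "Ω" => AlgebraicClosure ℚ

/-- **(E5), good primes**: for a good prime `q` of the integral model `W`, a place `A` of `ℚ̄` over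
`q` and `m` odd prime to `q`, the inertia group of `A` acts trivially on `E[m](ℚ̄)`. -/
theorem e2_inertia_smul_eq_Qbar (W : WeierstrassCurve ℤ) {q : ℕ} (hq : q.Prime)
    (hgood : W.IsGoodPrimeFor q) (A : ValuationSubring Ω) (hA : A.LiesOverPrime q)
    {σ : Ω ≃ₐ[ℚ] Ω} (hσ : σ ∈ A.inertiaSubgroupIn ℚ) {m : ℕ} (hodd : Odd m) (hmq : ¬ q ∣ m)
    {P : (W⁄Ω).Point} (hP : m • P = 0) : σ • P = P := by
  classical
  have hqA : ((q : ℕ) : Ω) ∈ A.nonunits := hA
  have hΔ : ((W.Δ : ℤ) : Ω) ∉ A.nonunits := intCast_notMem_nonunits A hq hqA hgood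
  have hm0 : ((m : ℕ) : Ω) ≠ 0 := by
    intro h0
    apply hmq
    have : m = 0 := by exact_mod_cast h0
    rw [this]
    exact dvd_zero _
  exact e2_inertia_smul_eq W (e2GoodRed_int A W hΔ) hσ hodd hm0
    (inv_natCast_mem A hq hqA hmq) hP

end Qbar

end Fermat.Agent.S58
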