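/-
S58 [TMOD], helper4 — part 1: the abstract Tate module of an abelian group `J` whose `p`-torsion has
`p²` elements and whose `p`-power torsion is `p`-divisible: two Tate sequences `x y` forming a basis
at every level, and the additive bijection `(Fin 2 → ℤ_[p]) ≃+ TateSeq J p`.
-/
import Fermat.Agent.GR.TATE_lead_Rep

set_option autoImplicit false
set_option linter.unusedSectionVars false
set_option linter.unusedVariables false
set_option linter.style.haveILetI false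

namespace Fermat.Agent.S58

open Fermat.Agent.GR

section Congr

variable {J : Type*} [AddCommGroup J]

/-- on `n`-torsion, `a • x` only depends on `a` modulo `n` (integers) -/
theorem tmod_zsmul_congr {n : ℕ} {a b : ℤ} {x : J} (hx : n • x = 0) (hab : (n : ℤ) ∣ a - b) :
    a • x = b • x := by
  obtain ⟨c, hc⟩ := hab
  have h1 : a = b + (n : ℤ) * c := by rw [← hc]; ring
  rw [h1, add_smul, mul_comm, mul_smul, natCast_zsmul, hx, smul_zero, add_zero]

theorem tmod_zsmul_eq_zero {n : ℕ} {a : ℤ} {x : J} (hx : n • x = 0) (ha : (n : ℤ) ∣ a) :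
    a • x = 0 := by
  have := tmod_zsmul_congr (a := a) (b := 0) hx (by simpa using ha)
  rw [this, zero_smul]

end Congr

section Seq

variable {J : Type*} [AddCommGroup J] {p : ℕ}

theorem tmod_pow_smul (t : ↥(TateSeq J p)) (j k : ℕ) : p ^ j • t.1 (k + j) = t.1 k := by
  induction j with
  | zero => rw [pow_zero, one_smul, add_zero]
  | succ j ih =>
    rw [pow_succ, mul_smul, ← add_assoc, TateSeq.smul_succ t (k + j), ih]

theorem tmod_pow_smul_one (t : ↥(TateSeq J p)) (k : ℕ) : p ^ k • t.1 (k + 1) = t.1 1 := by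
  have := tmod_pow_smul t k 1
  rwa [add_comm] at this

/-- every `p`-torsion element of a group with `p`-divisible `p`-power torsion is the level-one
component of a Tate sequence -/
theorem tmod_exists_tateSeq
    (hdiv : ∀ P : J, (∃ n : ℕ, p ^ n • P = 0) → ∃ Q : J, p • Q = P)
    (e : J) (he : p • e = 0) : ∃ t : ↥(TateSeq J p), t.1 1 = e := by
  classical
  let T := {x : J // ∃ n : ℕ, p ^ n • x = 0}
  have hstep : ∀ x : T, ∃ y : T, p • y.1 = x.1 := by
    intro x
    obtain ⟨Q, hQ⟩ := hdiv x.1 x.2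
    obtain ⟨n, hn⟩ := x.2
    refine ⟨⟨Q, n + 1, ?_⟩, hQ⟩
    rw [pow_succ, mul_smul, hQ, hn]
  choose nxt hnxt using hstep
  let s : ℕ → T := fun n => Nat.rec (⟨e, 1, by rw [pow_one]; exact he⟩ : T) (fun _ x => nxt x) n
  have hs0 : (s 0).1 = e := rfl
  have hss : ∀ n, p • (s (n + 1)).1 = (s n).1 := fun n => hnxt (s n)
  refine ⟨⟨fun k => Nat.casesOn k 0 (fun k => (s k).1), ?_, ?_⟩, ?_⟩
  · rfl
  · intro k
    cases k with
    | zero =>
      show p • (s 0).1 = 0
      rw [hs0, he]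
    | succ k =>
      show p • (s (k + 1)).1 = (s k).1
      exact hss k
  · exact hs0

end Seq

section BasisOne

/-- the `ZMod n`-module structure on the `n`-torsion of an abelian group -/
@[reducible] def tmodZModModule (J : Type*) [AddCommGroup J] (n : ℕ) :
    Module (ZMod n) ↥(torsionNat J n) :=
  AddCommGroup.zmodModule (fun x => Subtype.ext x.2)

attribute [local instance] tmodZModModule

variable {J : Type*} [AddCommGroup J] {p : ℕ} [hp : Fact p.Prime]

/-- a basis of the `p`-torsion (integer-coefficient form) -/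
theorem tmod_exists_basis_one (hcard : Nat.card {P : J // p • P = 0} = p ^ 2) :
    ∃ e₁ e₂ : J, p • e₁ = 0 ∧ p • e₂ = 0 ∧
      (∀ a b : ℤ, a • e₁ + b • e₂ = 0 → (p : ℤ) ∣ a ∧ (p : ℤ) ∣ b) ∧
      (∀ z : J, p • z = 0 → ∃ a b : ℤ, z = a • e₁ + b • e₂) := by
  classical
  haveI inz : NeZero p := ⟨hp.out.ne_zero⟩
  have hcardT : Nat.card ↥(torsionNat J p) = p ^ 2 := hcard
  haveI ifin : Finite ↥(torsionNat J p) :=
    Nat.finite_of_card_ne_zero (by rw [hcardT]; exact pow_ne_zero _ hp.out.ne_zero)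
  haveI imf : Module.Finite (ZMod p) ↥(torsionNat J p) := Module.Finite.of_finite
  have hrank : Module.finrank (ZMod p) ↥(torsionNat J p) = 2 := by
    have h1 := Module.natCard_eq_pow_finrank (K := ZMod p) (V := ↥(torsionNat J p))
    rw [hcardT, Nat.card_zmod] at h1
    exact (Nat.pow_right_injective hp.out.two_le h1).symm
  let b : Module.Basis (Fin 2) (ZMod p) ↥(torsionNat J p) :=
    Module.finBasisOfFinrankEq (ZMod p) ↥(torsionNat J p) hrank
  have hcast : ∀ (a : ℤ) (x : ↥(torsionNat J p)), ((a : ZMod p) • x : ↥(torsionNat J p)) = a • x :=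
    fun a x => Int.cast_smul_eq_zsmul (ZMod p) a x
  refine ⟨(b 0).1, (b 1).1, (b 0).2, (b 1).2, ?_, ?_⟩
  · intro a c h
    have h1 : (a : ZMod p) • b 0 + (c : ZMod p) • b 1 = 0 := by
      rw [hcast, hcast]
      apply Subtype.ext
      exact h
    have h2 := Fintype.linearIndependent_iff.1 b.linearIndependent
      (fun i => if i = 0 then (a : ZMod p) else (c : ZMod p))
      (by rw [Fin.sum_univ_two]; simpa using h1)
    have ha := h2 0
    have hc := h2 1
    simp only [if_true] at ha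
    simp only [Fin.isValue, one_ne_zero, if_false] at hc
    exact ⟨(ZMod.intCast_zmod_eq_zero_iff_dvd a p).1 ha, (ZMod.intCast_zmod_eq_zero_iff_dvd c p).1 hc⟩
  · intro z hz
    have h1 := b.sum_repr (⟨z, hz⟩ : ↥(torsionNat J p))
    rw [Fin.sum_univ_two] at h1
    refine ⟨((b.repr ⟨z, hz⟩ 0 : ZMod p).cast : ℤ), ((b.repr ⟨z, hz⟩ 1 : ZMod p).cast : ℤ), ?_⟩
    have h2 := congrArg Subtype.val h1
    have hc : ∀ (c : ZMod p) (x : ↥(torsionNat J p)),
        ((c • x : ↥(torsionNat J p)) : J) = (c.cast : ℤ) • x.1 := by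
      intro c x
      have : c = ((c.cast : ℤ) : ZMod p) := (ZMod.intCast_zmod_cast c).symm
      conv_lhs => rw [this, hcast]
      rfl
    rw [← hc, ← hc]
    exact h2.symm

end BasisOne

section Frame

variable {J : Type*} [AddCommGroup J] {p : ℕ}

/-- a pair of Tate sequences whose level-one components form a basis of the `p`-torsion -/
structure TmodFrame (J : Type*) [AddCommGroup J] (p : ℕ) where
  x : ↥(TateSeq J p)
  y : ↥(TateSeq J p)
  indep : ∀ a b : ℤ, a • x.1 1 + b • y.1 1 = 0 → (p : ℤ) ∣ a ∧ (p : ℤ) ∣ b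
  span : ∀ z : J, p • z = 0 → ∃ a b : ℤ, z = a • x.1 1 + b • y.1 1

namespace TmodFrame

variable (F : TmodFrame J p)

/-- independence at every level -/
theorem indep_level (k : ℕ) (a b : ℤ) (h : a • F.x.1 k + b • F.y.1 k = 0) :
    ((p ^ k : ℕ) : ℤ) ∣ a ∧ ((p ^ k : ℕ) : ℤ) ∣ b := by
  induction k generalizing a b with
  | zero => simp
  | succ k ih =>
    -- multiply by `p^k`
    have h1 : a • F.x.1 1 + b • F.y.1 1 = 0 := by
      have := congrArg (fun z => p ^ k • z) h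
      simp only [smul_add, smul_zero] at this
      rw [smul_comm (p ^ k) a, smul_comm (p ^ k) b, tmod_pow_smul_one, tmod_pow_smul_one] at this
      exact this
    obtain ⟨⟨a', rfl⟩, ⟨b', rfl⟩⟩ := F.indep a b h1
    have h2 : a' • F.x.1 k + b' • F.y.1 k = 0 := by
      rw [← TateSeq.smul_succ F.x k, ← TateSeq.smul_succ F.y k]
      rw [mul_comm (p : ℤ) a', mul_comm (p : ℤ) b', mul_smul, mul_smul, natCast_zsmul,
        natCast_zsmul] at h
      exact h
    obtain ⟨⟨a'', rfl⟩, ⟨b'', rfl⟩⟩ := ih a' b' h2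
    refine ⟨⟨a'', ?_⟩, ⟨b'', ?_⟩⟩ <;> push_cast <;> ring

/-- spanning at every level -/
theorem span_level (k : ℕ) (z : J) (hz : p ^ k • z = 0) :
    ∃ a b : ℤ, z = a • F.x.1 k + b • F.y.1 k := by
  induction k generalizing z with
  | zero =>
    refine ⟨0, 0, ?_⟩
    rw [pow_zero, one_smul] at hz
    rw [hz, zero_smul, zero_smul, add_zero]
  | succ k ih =>
    have h1 : p ^ k • (p • z) = 0 := by rw [← mul_smul, ← pow_succ]; exact hz
    obtain ⟨a, b, hab⟩ := ih (p • z) h1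
    set w := z - (a • F.x.1 (k + 1) + b • F.y.1 (k + 1)) with hw
    have hw0 : p • w = 0 := by
      rw [hw, smul_sub, hab, smul_add, smul_comm p a, smul_comm p b, TateSeq.smul_succ,
        TateSeq.smul_succ, sub_self]
    obtain ⟨c, d, hcd⟩ := F.span w hw0
    refine ⟨a + (p ^ k : ℕ) * c, b + (p ^ k : ℕ) * d, ?_⟩
    have h2 : z = w + (a • F.x.1 (k + 1) + b • F.y.1 (k + 1)) := by rw [hw]; abel
    rw [h2, hcd, ← tmod_pow_smul_one F.x k, ← tmod_pow_smul_one F.y k, add_smul, add_smul,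
      mul_comm ((p ^ k : ℕ) : ℤ) c, mul_comm ((p ^ k : ℕ) : ℤ) d, mul_smul, mul_smul,
      natCast_zsmul, natCast_zsmul]
    abel

end TmodFrame

end Frame

section Psi

variable {J : Type*} [AddCommGroup J] {p : ℕ}

section Appr

variable [hp : Fact p.Prime]

theorem tmod_cast_appr (z : ℤ_[p]) (k : ℕ) :
    (((z.appr k : ℕ) : ℤ) : ZMod (p ^ k)) = PadicInt.toZModPow k z := by
  rw [Int.cast_natCast]
  rfl

/-- if `toZModPow k z` is the class of the integer `a` then `appr z k ≡ a mod p^k` -/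
theorem tmod_dvd_appr_sub {z : ℤ_[p]} {k : ℕ} {a : ℤ}
    (h : PadicInt.toZModPow k z = (a : ZMod (p ^ k))) : ((p ^ k : ℕ) : ℤ) ∣ (z.appr k : ℤ) - a := by
  rw [← tmod_cast_appr, ZMod.intCast_eq_intCast_iff_dvd_sub] at h
  rw [← dvd_neg, neg_sub]
  exact h

theorem tmod_dvd_appr_add (z w : ℤ_[p]) (k : ℕ) :
    ((p ^ k : ℕ) : ℤ) ∣ ((z + w).appr k : ℤ) - ((z.appr k : ℤ) + (w.appr k : ℤ)) := by
  apply tmod_dvd_appr_sub
  rw [map_add, Int.cast_add, tmod_cast_appr, tmod_cast_appr]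

theorem tmod_dvd_appr_succ (z : ℤ_[p]) (k : ℕ) :
    ((p ^ k : ℕ) : ℤ) ∣ (z.appr (k + 1) : ℤ) - (z.appr k : ℤ) := by
  have h := PadicInt.dvd_appr_sub_appr z k (k + 1) (Nat.le_succ k)
  have h2 : ((z.appr (k + 1) - z.appr k : ℕ) : ℤ) = (z.appr (k + 1) : ℤ) - (z.appr k : ℤ) :=
    Nat.cast_sub (PadicInt.appr_mono z (Nat.le_succ k))
  rw [← h2]
  exact Int.natCast_dvd_natCast.2 h

end Appr

namespace TmodFrame

variable [hp : Fact p.Prime] (F : TmodFrame J p)

/-- the `k`-th component of `Ψ v` -/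
noncomputable def psiComp (v : Fin 2 → ℤ_[p]) (k : ℕ) : J :=
  ((v 0).appr k : ℤ) • F.x.1 k + ((v 1).appr k : ℤ) • F.y.1 k

theorem psiComp_mem (v : Fin 2 → ℤ_[p]) : F.psiComp v ∈ TateSeq J p := by
  refine ⟨?_, fun k => ?_⟩
  · show ((v 0).appr 0 : ℤ) • F.x.1 0 + ((v 1).appr 0 : ℤ) • F.y.1 0 = 0
    rw [TateSeq.zero_eq, TateSeq.zero_eq, smul_zero, smul_zero, add_zero]
  · show p • (((v 0).appr (k + 1) : ℤ) • F.x.1 (k + 1) + ((v 1).appr (k + 1) : ℤ) • F.y.1 (k + 1)) =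
      ((v 0).appr k : ℤ) • F.x.1 k + ((v 1).appr k : ℤ) • F.y.1 k
    rw [smul_add, smul_comm p, smul_comm p, TateSeq.smul_succ, TateSeq.smul_succ,
      tmod_zsmul_congr (TateSeq.pow_smul F.x k) (tmod_dvd_appr_succ (v 0) k),
      tmod_zsmul_congr (TateSeq.pow_smul F.y k) (tmod_dvd_appr_succ (v 1) k)]

/-- **`Ψ`** as an additive map `(Fin 2 → ℤ_[p]) →+ TateSeq J p` -/
noncomputable def psi : (Fin 2 → ℤ_[p]) →+ ↥(TateSeq J p) where
  toFun v := ⟨F.psiComp v, F.psiComp_mem v⟩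
  map_zero' := by
    apply Subtype.ext; funext k
    show (((0 : ℤ_[p]).appr k : ℕ) : ℤ) • F.x.1 k + (((0 : ℤ_[p]).appr k : ℕ) : ℤ) • F.y.1 k = 0
    have h0 : ∀ t : ↥(TateSeq J p), (((0 : ℤ_[p]).appr k : ℕ) : ℤ) • t.1 k = 0 := by
      intro t
      have := tmod_zsmul_congr (a := (((0 : ℤ_[p]).appr k : ℕ) : ℤ)) (b := 0)
        (TateSeq.pow_smul t k) (by
          apply tmod_dvd_appr_sub
          rw [map_zero, Int.cast_zero])
      rw [this, zero_smul]
    rw [h0, h0, add_zero]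
  map_add' v w := by
    apply Subtype.ext; funext k
    show (((v 0 + w 0).appr k : ℕ) : ℤ) • F.x.1 k + (((v 1 + w 1).appr k : ℕ) : ℤ) • F.y.1 k =
      (((v 0).appr k : ℤ) • F.x.1 k + ((v 1).appr k : ℤ) • F.y.1 k) +
        (((w 0).appr k : ℤ) • F.x.1 k + ((w 1).appr k : ℤ) • F.y.1 k)
    rw [tmod_zsmul_congr (TateSeq.pow_smul F.x k) (tmod_dvd_appr_add (v 0) (w 0) k),
      tmod_zsmul_congr (TateSeq.pow_smul F.y k) (tmod_dvd_appr_add (v 1) (w 1) k),
      add_smul, add_smul]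
    abel

@[simp] theorem psi_apply (v : Fin 2 → ℤ_[p]) (k : ℕ) :
    (F.psi v).1 k = ((v 0).appr k : ℤ) • F.x.1 k + ((v 1).appr k : ℤ) • F.y.1 k := rfl

theorem appr_eq_zero_of_dvd {z : ℤ_[p]} {k : ℕ} (h : ((p ^ k : ℕ) : ℤ) ∣ (z.appr k : ℤ)) :
    PadicInt.toZModPow k z = 0 := by
  rw [← tmod_cast_appr]
  exact (ZMod.intCast_zmod_eq_zero_iff_dvd _ _).2 h

theorem psi_injective : Function.Injective F.psi := by
  rw [injective_iff_map_eq_zero]
  intro v hv
  have h : ∀ k, ((p ^ k : ℕ) : ℤ) ∣ ((v 0).appr k : ℤ) ∧ ((p ^ k : ℕ) : ℤ) ∣ ((v 1).appr k : ℤ) := by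
    intro k
    apply F.indep_level k
    have := congrArg (fun t : ↥(TateSeq J p) => t.1 k) hv
    exact this
  funext i
  rw [Pi.zero_apply, ← PadicInt.ext_of_toZModPow]
  intro k
  rw [map_zero]
  fin_cases i
  · exact appr_eq_zero_of_dvd (h k).1
  · exact appr_eq_zero_of_dvd (h k).2

theorem psi_surjective : Function.Surjective F.psi := by
  intro t
  choose a b hab using fun k => F.span_level k (t.1 k) (TateSeq.pow_smul t k)
  -- compatibility of the coefficients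
  have hcompat : ∀ k, ((p ^ k : ℕ) : ℤ) ∣ a (k + 1) - a k ∧ ((p ^ k : ℕ) : ℤ) ∣ b (k + 1) - b k := by
    intro k
    apply F.indep_level k
    have h1 := TateSeq.smul_succ t k
    rw [hab (k + 1), hab k, smul_add, smul_comm p, smul_comm p, TateSeq.smul_succ,
      TateSeq.smul_succ] at h1
    rw [sub_smul, sub_smul]
    rw [← sub_eq_zero] at h1
    rw [← h1]
    abel
  have hmem : ∀ c : ℕ → ℤ, (∀ k, ((p ^ k : ℕ) : ℤ) ∣ c (k + 1) - c k) →
      (fun k => ((c k : ℤ) : ZMod (p ^ k))) ∈ compatSeq p := by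
    intro c hc k
    show redSucc p k ((c (k + 1) : ℤ) : ZMod (p ^ (k + 1))) = ((c k : ℤ) : ZMod (p ^ k))
    rw [map_intCast, ZMod.intCast_eq_intCast_iff_dvd_sub, ← dvd_neg, neg_sub]
    exact hc k
  let za : ℤ_[p] := limZ p ⟨_, hmem a fun k => (hcompat k).1⟩
  let zb : ℤ_[p] := limZ p ⟨_, hmem b fun k => (hcompat k).2⟩
  have hza : ∀ k, PadicInt.toZModPow k za = ((a k : ℤ) : ZMod (p ^ k)) := fun k =>
    toZModPow_limZ p _ k
  have hzb : ∀ k, PadicInt.toZModPow k zb = ((b k : ℤ) : ZMod (p ^ k)) := fun k =>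
    toZModPow_limZ p _ k
  refine ⟨![za, zb], ?_⟩
  apply Subtype.ext; funext k
  rw [psi_apply, hab k]
  show ((za.appr k : ℕ) : ℤ) • F.x.1 k + ((zb.appr k : ℕ) : ℤ) • F.y.1 k = _
  rw [tmod_zsmul_congr (TateSeq.pow_smul F.x k) (tmod_dvd_appr_sub (hza k)),
    tmod_zsmul_congr (TateSeq.pow_smul F.y k) (tmod_dvd_appr_sub (hzb k))]

/-- **`Ψ : (Fin 2 → ℤ_[p]) ≃+ T_p J`** -/
noncomputable def psiEquiv : (Fin 2 → ℤ_[p]) ≃+ ↥(TateSeq J p) :=
  AddEquiv.ofBijective F.psi ⟨F.psi_injective, F.psi_surjective⟩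

@[simp] theorem psiEquiv_apply (v : Fin 2 → ℤ_[p]) : F.psiEquiv v = F.psi v := rfl

end TmodFrame

end Psi

section ExistsFrame

variable {J : Type*} [AddCommGroup J] {p : ℕ} [hp : Fact p.Prime]

/-- **existence of a frame** from `#J[p] = p²` and `p`-divisibility of the `p`-power torsion -/
theorem tmod_exists_frame (hcard : Nat.card {P : J // p • P = 0} = p ^ 2)
    (hdiv : ∀ P : J, (∃ n : ℕ, p ^ n • P = 0) → ∃ Q : J, p • Q = P) :
    Nonempty (TmodFrame J p) := by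
  obtain ⟨e₁, e₂, h1, h2, hind, hspan⟩ := tmod_exists_basis_one (J := J) (p := p) hcard
  obtain ⟨x, hx⟩ := tmod_exists_tateSeq hdiv e₁ h1
  obtain ⟨y, hy⟩ := tmod_exists_tateSeq hdiv e₂ h2
  refine ⟨⟨x, y, ?_, ?_⟩⟩
  · rw [hx, hy]; exact hind
  · rw [hx, hy]; exact hspan

end ExistsFrame

end Fermat.Agent.S58
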