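/-
S58 [TMOD], helper4 — part 2: transport of additive endomorphisms of `J` to `ℤ_[p]`-linear
endomorphisms of `V = Fin 2 → ℤ_[p]` along `Ψ`, and the transfer principles (vanishing on torsion,
congruence modulo `p^k`, scalar endomorphisms).
-/
import Fermat.Agent.S58.TMOD_helper4_Basic
import Fermat.Agent.GR.DET_lead_Linear

set_option autoImplicit false
set_option linter.unusedSectionVars false
set_option linter.unusedVariables false
set_option linter.style.haveILetI false

namespace Fermat.Agent.S58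

open Fermat.Agent.GR

variable {J : Type*} [AddCommGroup J] {p : ℕ} [hp : Fact p.Prime]

/-- `Fin 2 → ℤ_[p]` is `p`-adically separated -/
theorem tmod_pi_separated (m : Fin 2 → ℤ_[p])
    (h : ∀ k : ℕ, ∃ m' : Fin 2 → ℤ_[p], m = (p : ℤ_[p]) ^ k • m') : m = 0 := by
  funext i
  rw [Pi.zero_apply, ← PadicInt.ext_of_toZModPow]
  intro k
  obtain ⟨m', hm'⟩ := h k
  rw [hm', map_zero]
  show PadicInt.toZModPow k ((p : ℤ_[p]) ^ k * m' i) = 0
  rw [map_mul, map_pow, map_natCast]
  have : ((p : ZMod (p ^ k)) ^ k) = 0 := by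
    rw [← Nat.cast_pow]; exact ZMod.natCast_self (p ^ k)
  rw [this, zero_mul]

namespace TmodFrame

variable (F : TmodFrame J p)

/-- the additive endomorphism of `V` corresponding to an additive endomorphism of `J` -/
noncomputable def endAdd (f : J →+ J) : (Fin 2 → ℤ_[p]) →+ (Fin 2 → ℤ_[p]) :=
  (F.psiEquiv.symm.toAddMonoidHom.comp (TateSeq.map p f)).comp F.psiEquiv.toAddMonoidHom

theorem psi_endAdd (f : J →+ J) (v : Fin 2 → ℤ_[p]) :
    F.psi (F.endAdd f v) = TateSeq.map p f (F.psi v) := by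
  show F.psiEquiv (F.psiEquiv.symm (TateSeq.map p f (F.psiEquiv v))) = _
  rw [AddEquiv.apply_symm_apply]
  rfl

/-- **transport of endomorphisms** `End(J) → End_{ℤ_p}(V)` along `Ψ` -/
noncomputable def endo : AddMonoid.End J →+* Module.End ℤ_[p] (Fin 2 → ℤ_[p]) where
  toFun f :=
    { toFun := F.endAdd f
      map_add' := map_add _
      map_smul' := fun z v =>
        map_padic_smul_of_separated p tmod_pi_separated (F.endAdd f) z v }
  map_one' := by
    apply LinearMap.ext; intro v
    apply F.psi_injective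
    exact F.psi_endAdd (AddMonoidHom.id J) v
  map_mul' f g := by
    apply LinearMap.ext; intro v
    apply F.psi_injective
    have h1 : F.psi (F.endAdd (AddMonoidHom.comp f g) v) =
        TateSeq.map p (AddMonoidHom.comp f g) (F.psi v) := F.psi_endAdd _ v
    have h2 : F.psi (F.endAdd g v) = TateSeq.map p g (F.psi v) := F.psi_endAdd g v
    have h3 : F.psi (F.endAdd f (F.endAdd g v)) = TateSeq.map p f (F.psi (F.endAdd g v)) :=
      F.psi_endAdd f _
    show F.psi (F.endAdd (AddMonoidHom.comp f g) v) = F.psi (F.endAdd f (F.endAdd g v))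
    rw [h1, h3, h2]
    rfl
  map_zero' := by
    apply LinearMap.ext; intro v
    apply F.psi_injective
    show F.psi (F.endAdd (0 : J →+ J) v) = F.psi 0
    rw [psi_endAdd, map_zero]
    apply Subtype.ext; funext k; rfl
  map_add' f g := by
    apply LinearMap.ext; intro v
    apply F.psi_injective
    have h1 : F.psi (F.endAdd ((f : J →+ J) + (g : J →+ J)) v) =
        TateSeq.map p ((f : J →+ J) + (g : J →+ J)) (F.psi v) := F.psi_endAdd _ v
    have h2 : F.psi (F.endAdd g v) = TateSeq.map p g (F.psi v) := F.psi_endAdd g v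
    have h3 : F.psi (F.endAdd f v) = TateSeq.map p f (F.psi v) := F.psi_endAdd f v
    show F.psi (F.endAdd ((f : J →+ J) + (g : J →+ J)) v) = F.psi (F.endAdd f v + F.endAdd g v)
    rw [map_add, h1, h2, h3]
    apply Subtype.ext; funext k; rfl

theorem psi_endo (f : AddMonoid.End J) (v : Fin 2 → ℤ_[p]) :
    F.psi (F.endo f v) = TateSeq.map p f (F.psi v) :=
  F.psi_endAdd f v

/-- componentwise form of `psi_endo` -/
theorem psi_endo_apply (f : AddMonoid.End J) (v : Fin 2 → ℤ_[p]) (k : ℕ) :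
    (F.psi (F.endo f v)).1 k = f ((F.psi v).1 k) := by
  rw [psi_endo]; rfl

/-- endomorphisms agreeing on `p`-power torsion have the same transport -/
theorem endo_congr {f g : AddMonoid.End J}
    (h : ∀ x : J, (∃ n : ℕ, p ^ n • x = 0) → f x = g x) : F.endo f = F.endo g := by
  apply LinearMap.ext; intro v
  apply F.psi_injective
  rw [psi_endo, psi_endo, TateSeq.map_congr h]

/-- an endomorphism vanishing on `p`-power torsion has zero transport -/
theorem endo_eq_zero {f : AddMonoid.End J}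
    (h : ∀ x : J, (∃ n : ℕ, p ^ n • x = 0) → f x = 0) : F.endo f = 0 := by
  rw [← map_zero F.endo]
  exact F.endo_congr h

/-- an endomorphism fixing the `p`-power torsion has transport `1` -/
theorem endo_eq_one {f : AddMonoid.End J}
    (h : ∀ x : J, (∃ n : ℕ, p ^ n • x = 0) → f x = x) : F.endo f = 1 := by
  rw [← map_one F.endo]
  exact F.endo_congr h

/-- a vector whose image under `Ψ` has vanishing `k`-th component is divisible by `p^k` -/
theorem exists_eq_smul_of_psi_comp_eq_zero (u : Fin 2 → ℤ_[p]) (k : ℕ)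
    (h : (F.psi u).1 k = 0) : ∃ u' : Fin 2 → ℤ_[p], u = (p : ℤ_[p]) ^ k • u' := by
  have h1 := F.indep_level k _ _ h
  have h2 : ∀ i, ∃ c : ℤ_[p], u i = (p : ℤ_[p]) ^ k * c := by
    intro i
    have hz : PadicInt.toZModPow k (u i) = 0 := by
      fin_cases i
      · exact appr_eq_zero_of_dvd h1.1
      · exact appr_eq_zero_of_dvd h1.2
    have hmem : u i ∈ RingHom.ker (PadicInt.toZModPow k (p := p)) := hz
    rw [PadicInt.ker_toZModPow, Ideal.mem_span_singleton'] at hmem
    obtain ⟨c, hc⟩ := hmem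
    exact ⟨c, by rw [← hc, mul_comm]⟩
  choose c hc using h2
  exact ⟨c, funext fun i => hc i⟩

/-- **congruence**: if `f` fixes the `p^k`-torsion then `F.endo f v ≡ v mod p^k` -/
theorem endo_sub_eq_smul (f : AddMonoid.End J) (k : ℕ)
    (h : ∀ x : J, p ^ k • x = 0 → f x = x) (v : Fin 2 → ℤ_[p]) :
    ∃ v' : Fin 2 → ℤ_[p], F.endo f v - v = (p : ℤ_[p]) ^ k • v' := by
  apply F.exists_eq_smul_of_psi_comp_eq_zero
  rw [map_sub]
  show (F.psi (F.endo f v)).1 k - (F.psi v).1 k = 0
  rw [psi_endo_apply, h _ (TateSeq.pow_smul (F.psi v) k), sub_self]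

/-- the value of `Ψ` on the first basis vector -/
theorem psi_single_zero (r : ℤ_[p]) (k : ℕ) : (F.psi ![r, 0]).1 k = (r.appr k : ℤ) • F.x.1 k := by
  rw [psi_apply]
  show ((r.appr k : ℕ) : ℤ) • F.x.1 k + (((0 : ℤ_[p]).appr k : ℕ) : ℤ) • F.y.1 k = _
  have h0 : (((0 : ℤ_[p]).appr k : ℕ) : ℤ) • F.y.1 k = 0 := by
    have := tmod_zsmul_congr (a := (((0 : ℤ_[p]).appr k : ℕ) : ℤ)) (b := 0)
      (TateSeq.pow_smul F.y k) (by
        apply tmod_dvd_appr_sub
        rw [map_zero, Int.cast_zero])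
    rw [this, zero_smul]
  rw [h0, add_zero]

/-- the value of `Ψ` on the second basis vector -/
theorem psi_single_one (r : ℤ_[p]) (k : ℕ) : (F.psi ![0, r]).1 k = (r.appr k : ℤ) • F.y.1 k := by
  rw [psi_apply]
  show (((0 : ℤ_[p]).appr k : ℕ) : ℤ) • F.x.1 k + ((r.appr k : ℕ) : ℤ) • F.y.1 k = _
  have h0 : (((0 : ℤ_[p]).appr k : ℕ) : ℤ) • F.x.1 k = 0 := by
    have := tmod_zsmul_congr (a := (((0 : ℤ_[p]).appr k : ℕ) : ℤ)) (b := 0)
      (TateSeq.pow_smul F.x k) (by
        apply tmod_dvd_appr_sub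
        rw [map_zero, Int.cast_zero])
    rw [this, zero_smul]
  rw [h0, zero_add]

theorem one_appr_smul (t : ↥(TateSeq J p)) (k : ℕ) :
    (((1 : ℤ_[p]).appr k : ℕ) : ℤ) • t.1 k = t.1 k := by
  have := tmod_zsmul_congr (a := (((1 : ℤ_[p]).appr k : ℕ) : ℤ)) (b := 1)
    (TateSeq.pow_smul t k) (by
      apply tmod_dvd_appr_sub
      rw [map_one, Int.cast_one])
  rw [this, one_smul]

/-- **scalar transfer**: if the transport of `f` is the scalar `r` then `f` is multiplication by
`r mod p^k` on the `p^k`-torsion -/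
theorem endo_scalar (f : AddMonoid.End J) (r : ℤ_[p])
    (h : F.endo f = r • (1 : Module.End ℤ_[p] (Fin 2 → ℤ_[p]))) (k : ℕ) (z : J)
    (hz : p ^ k • z = 0) : f z = (r.appr k : ℤ) • z := by
  have hx : f (F.x.1 k) = (r.appr k : ℤ) • F.x.1 k := by
    have h1 := F.psi_endo_apply f ![1, 0] k
    rw [h, LinearMap.smul_apply, Module.End.one_apply] at h1
    have h2 : r • ![(1 : ℤ_[p]), 0] = ![r, 0] := by
      funext i; fin_cases i <;> simp
    rw [h2, psi_single_zero, psi_single_zero, one_appr_smul] at h1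
    exact h1.symm
  have hy : f (F.y.1 k) = (r.appr k : ℤ) • F.y.1 k := by
    have h1 := F.psi_endo_apply f ![0, 1] k
    rw [h, LinearMap.smul_apply, Module.End.one_apply] at h1
    have h2 : r • ![(0 : ℤ_[p]), 1] = ![0, r] := by
      funext i; fin_cases i <;> simp
    rw [h2, psi_single_one, psi_single_one, one_appr_smul] at h1
    exact h1.symm
  obtain ⟨a, b, rfl⟩ := F.span_level k z hz
  rw [map_add, map_zsmul, map_zsmul, hx, hy, smul_add, smul_comm a, smul_comm b]

end TmodFrame

end Fermat.Agent.S58
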