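/-
S58 [TMOD], helper4 — part 3: the `λ`-adic Galois representation `GaloisRepAdic ℤ_[λ]` on the Tate
module of an abelian group `J` with `G_ℚ`-action, `#J[λ] = λ²`, `λ`-divisible `λ`-power torsion and
open stabilisers of torsion points, with the transfer principles (relations, trivial action,
unipotent action, scalar action).
-/
import Fermat.Agent.S58.TMOD_helper4_Rep
import Fermat.Prelude.Def_GaloisRep_Adic

set_option autoImplicit false
set_option linter.unusedSectionVars false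
set_option linter.unusedVariables false
set_option linter.style.haveILetI false

namespace Fermat.Agent.S58

open Fermat.Agent.GR Polynomial

/-- `Ω = AlgebraicClosure ℚ`. -/
local notation "Ω" => AlgebraicClosure ℚ
/-- `GQ = Gal(Ω/ℚ)`. -/
local notation "GQ" => (AlgebraicClosure ℚ ≃ₐ[ℚ] AlgebraicClosure ℚ)

variable {J : Type*} [AddCommGroup J] {p : ℕ} [hp : Fact p.Prime]

/-- the continuity hypothesis: every `p`-power torsion point is fixed by the absolute Galois group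
of a finite extension of `ℚ` -/
def TmodCont (p : ℕ) (act : GQ →* AddMonoid.End J) : Prop :=
  ∀ P : J, (∃ n : ℕ, p ^ n • P = 0) →
    ∃ L : IntermediateField ℚ Ω, FiniteDimensional ℚ L ∧
      ∀ σ : GQ, (∀ a ∈ L, σ a = a) → act σ P = P

theorem tmod_smul_pow_mem (k : ℕ) (v : Fin 2 → ℤ_[p]) :
    (p : ℤ_[p]) ^ k • v ∈
      (IsLocalRing.maximalIdeal ℤ_[p] ^ k) • (⊤ : Submodule ℤ_[p] (Fin 2 → ℤ_[p])) := by
  refine Submodule.smul_mem_smul ?_ Submodule.mem_top
  rw [PadicInt.maximalIdeal_eq_span_p, Ideal.span_singleton_pow]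
  exact Ideal.subset_span rfl

namespace TmodFrame

variable (F : TmodFrame J p) (act : GQ →* AddMonoid.End J)

/-- the representation as a monoid homomorphism -/
noncomputable def rhoHom : GQ →* Module.End ℤ_[p] (Fin 2 → ℤ_[p]) :=
  (F.endo : AddMonoid.End J →* Module.End ℤ_[p] (Fin 2 → ℤ_[p])).comp act

theorem rhoHom_apply (σ : GQ) : F.rhoHom act σ = F.endo (act σ) := rfl

theorem rhoHom_continuous (hcont : TmodCont p act) :
    GaloisActionIsAdicContinuous ℤ_[p] (F.rhoHom act) := by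
  intro n
  obtain ⟨L₁, hL₁, h₁⟩ := hcont (F.x.1 n) ⟨n, TateSeq.pow_smul F.x n⟩
  obtain ⟨L₂, hL₂, h₂⟩ := hcont (F.y.1 n) ⟨n, TateSeq.pow_smul F.y n⟩
  refine ⟨L₁ ⊔ L₂, IntermediateField.finiteDimensional_sup L₁ L₂, ?_⟩
  intro σ hσ v
  have hx : act σ (F.x.1 n) = F.x.1 n :=
    h₁ σ fun a ha => hσ a ((le_sup_left : L₁ ≤ L₁ ⊔ L₂) ha)
  have hy : act σ (F.y.1 n) = F.y.1 n :=
    h₂ σ fun a ha => hσ a ((le_sup_right : L₂ ≤ L₁ ⊔ L₂) ha)
  have hfix : ∀ z : J, p ^ n • z = 0 → act σ z = z := by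
    intro z hz
    obtain ⟨a, b, rfl⟩ := F.span_level n z hz
    rw [map_add, map_zsmul, map_zsmul, hx, hy]
  obtain ⟨v', hv'⟩ := F.endo_sub_eq_smul (act σ) n hfix v
  rw [rhoHom_apply, hv']
  exact tmod_smul_pow_mem n v'

/-- **the `p`-adic representation on the Tate module** -/
noncomputable def rep (hcont : TmodCont p act) : GaloisRepAdic ℤ_[p] where
  V := Fin 2 → ℤ_[p]
  finrank_eq := Module.finrank_fin_fun ℤ_[p]
  ρ := F.rhoHom act
  isAdicContinuous := F.rhoHom_continuous act hcont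

theorem rep_rho (hcont : TmodCont p act) (σ : GQ) :
    (F.rep act hcont).ρ σ = F.endo (act σ) := rfl

/-! ### transfer principles -/

/-- an integer, as an endomorphism, is the corresponding scalar -/
theorem tmod_intCast_end (a : ℤ) :
    ((a : ℤ) : Module.End ℤ_[p] (Fin 2 → ℤ_[p])) =
      (a : ℤ_[p]) • (1 : Module.End ℤ_[p] (Fin 2 → ℤ_[p])) := by
  apply LinearMap.ext; intro v
  rw [Module.End.intCast_apply, LinearMap.smul_apply, Module.End.one_apply,
    Int.cast_smul_eq_zsmul]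

/-- **(i') quadratic relations**: a relation `σ² − aσ + q = 0` on the `p`-power torsion holds
for `ρ(σ)` -/
theorem rep_quadratic (hcont : TmodCont p act) (σ : GQ) (a q : ℤ)
    (h : ∀ P : J, (∃ n : ℕ, p ^ n • P = 0) → act σ (act σ P) - a • act σ P + q • P = 0) :
    (F.rep act hcont).ρ σ * (F.rep act hcont).ρ σ - (a : ℤ_[p]) • (F.rep act hcont).ρ σ +
      (q : ℤ_[p]) • (1 : Module.End ℤ_[p] (F.rep act hcont).V) = 0 := by
  have h0 : F.endo (act σ * act σ - (a : AddMonoid.End J) * act σ + (q : AddMonoid.End J)) = 0 := by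
    apply F.endo_eq_zero
    intro P hP
    have := h P hP
    show act σ (act σ P) - (a : AddMonoid.End J) (act σ P) + (q : AddMonoid.End J) P = 0
    rw [AddMonoid.End.intCast_apply, AddMonoid.End.intCast_apply]
    exact this
  rw [map_add, map_sub, map_mul, map_mul, map_intCast, map_intCast, tmod_intCast_end,
    tmod_intCast_end, smul_mul_assoc, one_mul] at h0
  exact h0

/-- **(i) polynomial relations**: an integer polynomial killing `σ` on the `p`-power torsion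
kills `ρ(σ)` -/
theorem rep_aeval (hcont : TmodCont p act) (σ : GQ) (f : Polynomial ℤ)
    (h : ∀ P : J, (∃ n : ℕ, p ^ n • P = 0) → Polynomial.aeval (act σ) f P = 0) :
    Polynomial.aeval ((F.rep act hcont).ρ σ) f = 0 := by
  have h0 : F.endo (Polynomial.aeval (act σ) f) = 0 := F.endo_eq_zero h
  have h1 := Polynomial.aeval_algHom_apply (F.endo : AddMonoid.End J →+* _).toIntAlgHom (act σ) f
  exact h1.trans h0

/-- **(ii) trivial action** -/
theorem rep_eq_one (hcont : TmodCont p act) (σ : GQ)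
    (h : ∀ P : J, (∃ n : ℕ, p ^ n • P = 0) → act σ P = P) :
    (F.rep act hcont).ρ σ = 1 :=
  F.endo_eq_one h

/-- **(iv) scalar action**: if `ρ(σ)` is a scalar then `σ` acts on every `J[p^s]` as an integer -/
theorem rep_scalar (hcont : TmodCont p act) (σ : GQ)
    (h : IsScalarEnd ((F.rep act hcont).ρ σ)) (s : ℕ) :
    ∃ c : ℤ, ∀ P : J, p ^ s • P = 0 → act σ P = c • P := by
  obtain ⟨r, hr⟩ := h
  exact ⟨(r.appr s : ℤ), fun P hP => F.endo_scalar (act σ) r hr s P hP⟩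

/-- **(iii) unipotent action**: if `(σ − 1)² = 0` on the `p`-power torsion then the
characteristic polynomial of `ρ(σ)` is `(X − 1)²` -/
theorem rep_unipotent (hcont : TmodCont p act) (σ : GQ)
    (h : ∀ P : J, (∃ n : ℕ, p ^ n • P = 0) → act σ (act σ P) - (2 : ℤ) • act σ P + P = 0) :
    LinearMap.charpoly ((F.rep act hcont).ρ σ) = (X - 1) ^ 2 := by
  have hq := F.rep_quadratic act hcont σ 2 1 (by
    intro P hP
    rw [one_smul]
    exact h P hP)
  by_cases hns : IsScalarEnd ((F.rep act hcont).ρ σ)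
  · obtain ⟨r, hr⟩ := hns
    haveI : Nontrivial (F.rep act hcont).V :=
      Module.nontrivial_of_finrank_pos (R := ℤ_[p]) (by rw [(F.rep act hcont).finrank_eq]; norm_num)
    have h1 : (r * r - ((2 : ℤ) : ℤ_[p]) * r + ((1 : ℤ) : ℤ_[p])) •
        (1 : Module.End ℤ_[p] (F.rep act hcont).V) = 0 := by
      rw [← hq, hr, add_smul, sub_smul, smul_mul_smul_comm, mul_one, smul_smul]
    have h2 := eq_zero_of_smul_one_eq_zero h1
    have h3 : (r - 1) ^ 2 = 0 := by
      rw [← h2]; push_cast; ring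
    have h4 : r = 1 := by
      have := pow_eq_zero_iff (two_ne_zero) |>.1 h3
      exact sub_eq_zero.1 this
    rw [hr, h4, one_smul, LinearMap.charpoly_one, (F.rep act hcont).finrank_eq]
  · have := charpoly_eq_of_quadratic (F.rep act hcont).finrank_eq hq hns
    rw [this]
    push_cast
    rw [map_ofNat, map_one]
    ring

end TmodFrame

/-! ### non-scalarity from a kernel bound -/

/-- arithmetic core: an integer `c` with `|2c| ≤ m` cannot satisfy `m² ≤ c² − ac + q` when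
`m ≥ 2|a| + 2|q| + 3` -/
theorem tmod_kerBound_arith {m a q c : ℤ} (hm : 2 * |a| + 2 * |q| + 3 ≤ m)
    (hc1 : -m ≤ 2 * c) (hc2 : 2 * c ≤ m) (h : m ^ 2 ≤ c ^ 2 - a * c + q) : False := by
  have hA := abs_nonneg a
  have hQ := abs_nonneg q
  have h1 : 4 * c ^ 2 ≤ m ^ 2 := by nlinarith
  have h2 : -(a * c) ≤ |a| * |c| := by
    rw [← abs_mul]; exact neg_le_abs (a * c)
  have h3 : 2 * |c| ≤ m := by
    rcases abs_cases c with ⟨hc, _⟩ | ⟨hc, _⟩ <;> rw [hc] <;> linarith
  have h4 : q ≤ |q| := le_abs_self q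
  have h5 : |a| * (2 * |c|) ≤ |a| * m := mul_le_mul_of_nonneg_left h3 hA
  nlinarith

/-- every integer is congruent modulo `m > 0` to an integer `c'` with `−m ≤ 2c' ≤ m` -/
theorem tmod_exists_balanced (m : ℕ) (hm : 0 < m) (c : ℤ) :
    ∃ c' : ℤ, (m : ℤ) ∣ c' - c ∧ -(m : ℤ) ≤ 2 * c' ∧ 2 * c' ≤ (m : ℤ) := by
  refine ⟨Int.bmod c m, ?_, ?_, ?_⟩
  · have h := Int.bmod_emod (x := c) (m := m)
    exact Int.ModEq.dvd (h.symm : c % (m : ℤ) = Int.bmod c m % (m : ℤ))
  · have := Int.le_bmod (x := c) (m := m) hm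
    omega
  · have := Int.bmod_lt (x := c) (m := m) hm
    omega

namespace TmodFrame

variable (F : TmodFrame J p) (act : GQ →* AddMonoid.End J)

/-- **(N3), abstract form**: if every integer `c` by which `σ` acts on some `J[p^s]` satisfies
`p^{2s} ≤ c² − ac + q` (a kernel bound), then `ρ(σ)` is not a scalar -/
theorem rep_not_isScalarEnd_of_kerBound (hcont : TmodCont p act) (σ : GQ) (a q : ℤ)
    (hker : ∀ (s : ℕ) (c : ℤ), (∀ P : J, p ^ s • P = 0 → act σ P = c • P) →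
      ((p ^ s : ℕ) : ℤ) ^ 2 ≤ c ^ 2 - a * c + q) :
    ¬ IsScalarEnd ((F.rep act hcont).ρ σ) := by
  intro hsc
  -- choose `s` with `p^s` large
  obtain ⟨s, hs⟩ : ∃ s : ℕ, 2 * |a| + 2 * |q| + 3 ≤ ((p ^ s : ℕ) : ℤ) := by
    refine ⟨(2 * |a| + 2 * |q| + 3).toNat, ?_⟩
    have h1 : (2 * |a| + 2 * |q| + 3).toNat < p ^ (2 * |a| + 2 * |q| + 3).toNat :=
      Nat.lt_pow_self hp.out.one_lt
    have h2 : (2 * |a| + 2 * |q| + 3) ≤ ((2 * |a| + 2 * |q| + 3).toNat : ℤ) := Int.self_le_toNat _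
    have h3 : (((2 * |a| + 2 * |q| + 3).toNat : ℕ) : ℤ) ≤
        ((p ^ (2 * |a| + 2 * |q| + 3).toNat : ℕ) : ℤ) := by exact_mod_cast h1.le
    exact h2.trans h3
  obtain ⟨c, hc⟩ := F.rep_scalar act hcont σ hsc s
  have hpos : 0 < p ^ s := pow_pos hp.out.pos s
  obtain ⟨c', hdvd, hc1, hc2⟩ := tmod_exists_balanced (p ^ s) hpos c
  have hc' : ∀ P : J, p ^ s • P = 0 → act σ P = c' • P := by
    intro P hP
    rw [hc P hP]
    exact (tmod_zsmul_congr hP hdvd).symm
  exact tmod_kerBound_arith hs hc1 hc2 (hker s c' hc')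

/-- **(v) Frobenius characteristic polynomial**: quadratic relation on torsion + kernel bound ⇒
`charpoly ρ(σ) = X² − aX + q` -/
theorem rep_charpoly_of_kerBound (hcont : TmodCont p act) (σ : GQ) (a q : ℤ)
    (hrel : ∀ P : J, (∃ n : ℕ, p ^ n • P = 0) → act σ (act σ P) - a • act σ P + q • P = 0)
    (hker : ∀ (s : ℕ) (c : ℤ), (∀ P : J, p ^ s • P = 0 → act σ P = c • P) →
      ((p ^ s : ℕ) : ℤ) ^ 2 ≤ c ^ 2 - a * c + q) :
    LinearMap.charpoly ((F.rep act hcont).ρ σ) =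
      X ^ 2 - C ((a : ℤ) : ℤ_[p]) * X + C ((q : ℤ) : ℤ_[p]) :=
  charpoly_eq_of_quadratic (F.rep act hcont).finrank_eq (F.rep_quadratic act hcont σ a q hrel)
    (F.rep_not_isScalarEnd_of_kerBound act hcont σ a q hker)

end TmodFrame

/-! ### the one-stop existential -/

/-- **[TMOD]**: the `λ`-adic Tate module representation of an abelian group with `G_ℚ`-action,
with all transfer principles. -/
theorem exists_tmod {J : Type*} [AddCommGroup J] [DistribMulAction GQ J] (lam : ℕ)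
    [Fact lam.Prime]
    (ha : Nat.card {P : J // lam • P = 0} = lam ^ 2)
    (hb : ∀ P : J, (∃ n : ℕ, lam ^ n • P = 0) → ∃ Q : J, lam • Q = P)
    (hc : ∀ P : J, (∃ n : ℕ, lam ^ n • P = 0) →
      ∃ L : IntermediateField ℚ Ω, FiniteDimensional ℚ L ∧
        ∀ σ : GQ, (∀ a ∈ L, σ a = a) → σ • P = P) :
    ∃ ρ : GaloisRepAdic ℤ_[lam],
      (∀ (σ : GQ) (f : Polynomial ℤ),
        (∀ P : J, (∃ n : ℕ, lam ^ n • P = 0) →
          Polynomial.aeval (DistribMulAction.toAddMonoidEnd GQ J σ) f P = 0) →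
        Polynomial.aeval (ρ.ρ σ) f = 0) ∧
      (∀ (σ : GQ) (a q : ℤ),
        (∀ P : J, (∃ n : ℕ, lam ^ n • P = 0) → σ • σ • P - a • σ • P + q • P = 0) →
        ρ.ρ σ * ρ.ρ σ - (a : ℤ_[lam]) • ρ.ρ σ +
          (q : ℤ_[lam]) • (1 : Module.End ℤ_[lam] ρ.V) = 0) ∧
      (∀ σ : GQ, (∀ P : J, (∃ n : ℕ, lam ^ n • P = 0) → σ • P = P) → ρ.ρ σ = 1) ∧
      (∀ σ : GQ,
        (∀ P : J, (∃ n : ℕ, lam ^ n • P = 0) → σ • σ • P - (2 : ℤ) • σ • P + P = 0) →
        LinearMap.charpoly (ρ.ρ σ) = (X - 1) ^ 2) ∧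
      (∀ σ : GQ, IsScalarEnd (ρ.ρ σ) → ∀ s : ℕ, ∃ c : ℤ, ∀ P : J, lam ^ s • P = 0 →
        σ • P = c • P) ∧
      (∀ (σ : GQ) (a q : ℤ),
        (∀ P : J, (∃ n : ℕ, lam ^ n • P = 0) → σ • σ • P - a • σ • P + q • P = 0) →
        (∀ (s : ℕ) (c : ℤ), (∀ P : J, lam ^ s • P = 0 → σ • P = c • P) →
          ((lam ^ s : ℕ) : ℤ) ^ 2 ≤ c ^ 2 - a * c + q) →
        LinearMap.charpoly (ρ.ρ σ) =
          X ^ 2 - C ((a : ℤ) : ℤ_[lam]) * X + C ((q : ℤ) : ℤ_[lam])) := by
  obtain ⟨F⟩ := tmod_exists_frame (J := J) (p := lam) ha hb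
  have hcont : TmodCont lam (DistribMulAction.toAddMonoidEnd GQ J) := hc
  refine ⟨F.rep _ hcont, ?_, ?_, ?_, ?_, ?_, ?_⟩
  · exact fun σ f h => F.rep_aeval _ hcont σ f h
  · exact fun σ a q h => F.rep_quadratic _ hcont σ a q h
  · exact fun σ h => F.rep_eq_one _ hcont σ h
  · exact fun σ h => F.rep_unipotent _ hcont σ h
  · exact fun σ h s => F.rep_scalar _ hcont σ h s
  · exact fun σ a q hrel hker => F.rep_charpoly_of_kerBound _ hcont σ a q hrel hker

end Fermat.Agent.S58
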