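/-
S58 — helper9 — [CMP]: the interface [EC-λ] (`ECTate`), and the comparison of the λ-adic
representation of the curve with any λ-adic representation attached (in the sense of the frozen
statements S35/S36) to a normalised eigenform whose good coefficients are the `a_ℓ` of the curve.
-/
import Mathlib
import Fermat.Prelude.Def_FLTPrelim_Modularity
import Fermat.Prelude.Def_FLTPrelim_Ramification
import Fermat.Prelude.Def_GaloisRep_LocalConditions
import Fermat.Prelude.Def_CuspForm_HeckeAlgebra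
import Fermat.Agent.GR.K9B_helper4_Main
import Fermat.Agent.GR.PADICALG_lead
import Fermat.Agent.TW.CondBaseChange_helper6

set_option autoImplicit false

namespace Fermat.Agent.S58

open Polynomial IsLocalRing CuspForm ModularFormClass CongruenceSubgroup

/-- **the interface [EC-λ]**: the `lam`-adic Tate module of the curve `W`, for every odd prime
`lam`, with its Frobenius characteristic polynomials at the good primes and unipotent inertia
everywhere (semistability). -/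
def ECTate (W : WeierstrassCurve ℤ) : Prop :=
  ∀ (lam : ℕ) [Fact lam.Prime], lam ≠ 2 →
    ∃ ρ : GaloisRepAdic ℤ_[lam],
      (∀ ℓ : ℕ, ℓ.Prime → ℓ ≠ lam → W.IsGoodPrimeFor ℓ →
        ∀ A : ValuationSubring (AlgebraicClosure ℚ), A.LiesOverPrime ℓ →
          ∀ σ : AlgebraicClosure ℚ ≃ₐ[ℚ] AlgebraicClosure ℚ, A.IsFrobeniusAt σ ℓ →
            LinearMap.charpoly (ρ.ρ σ) =
              X ^ 2 - C ((W.apOfModel ℓ : ℤ) : ℤ_[lam]) * X + C ((ℓ : ℕ) : ℤ_[lam])) ∧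
      (∀ q : ℕ, q.Prime → q ≠ lam → ρ.IsUnipotentOnInertiaAt q)

section Local

variable (p : ℕ) [hp : Fact p.Prime] {𝒪 : Type} [CommRing 𝒪] [IsLocalRing 𝒪]
  [IsAdicComplete (maximalIdeal 𝒪) 𝒪]

/-- the canonical map `ℤ_[p] → 𝒪` into a complete local ring of residue characteristic `p` is
local. -/
theorem isLocalHom_padicToComplete (hp𝒪 : (p : 𝒪) ∈ maximalIdeal 𝒪) :
    IsLocalHom (Fermat.Agent.GR.padicToComplete p (maximalIdeal 𝒪) hp𝒪) := by
  refine ⟨fun x hx => ?_⟩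
  by_contra hnu
  have hmem : x ∈ maximalIdeal ℤ_[p] := (IsLocalRing.mem_maximalIdeal x).mpr hnu
  rw [PadicInt.maximalIdeal_eq_span_p, Ideal.mem_span_singleton] at hmem
  obtain ⟨y, rfl⟩ := hmem
  rw [map_mul, map_natCast] at hx
  have h1 : (p : 𝒪) * (Fermat.Agent.GR.padicToComplete p (maximalIdeal 𝒪) hp𝒪) y ∈
      maximalIdeal 𝒪 := Ideal.mul_mem_right _ _ hp𝒪
  exact (IsLocalRing.mem_maximalIdeal _).mp h1 hx

end Local

section Cmp

variable (W : WeierstrassCurve ℤ)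

/-- **[CMP]**: if `ρ` is attached (good Frobenius characteristic polynomials, as in the
conclusions of the frozen S35/S36) to a normalised eigenform `g` of level `M ∣ N` whose
coefficients at the good primes `ℓ ∤ N` are the `a_ℓ(W)`, then `ρ` and the `lam`-adic
representation `ρE` of `W` have the same characteristic polynomial at EVERY element of `G_ℚ`. -/
theorem charpoly_eq_map_of_attached
    {N : ℕ} (hN0 : N ≠ 0) {M : ℕ} [NeZero M] (hΔ : W.Δ ≠ 0)
    {g : CuspForm (Gamma0 M) 2}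
    (hgW : ∀ ℓ : ℕ, ℓ.Prime → W.IsGoodPrimeFor ℓ → ¬ ℓ ∣ N → qCoeff g ℓ = (W.apOfModel ℓ : ℂ))
    (lam : ℕ) [Fact lam.Prime] (S : Finset ℕ)
    (O' : Type) [CommRing O']
    (chig : CuspForm.heckeAlgebra M 2 (↑S : Set ℕ) →+* ℂ)
    (hchig : ∀ (ℓ : ℕ) (hℓ : ℓ.Prime) (hℓM : ¬ ℓ ∣ M) (hℓS : ℓ ∉ (↑S : Set ℕ)),
      chig (CuspForm.heckeAlgebra.T hℓ hℓM hℓS) = qCoeff g ℓ)
    (iota : chig.range →+* O')
    (O'' : Type) [CommRing O''] [IsDomain O''] [IsDiscreteValuationRing O'']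
    [IsAdicComplete (maximalIdeal O'') O''] [Algebra O' O'']
    (hlamO'' : (lam : O'') ∈ maximalIdeal O'')
    (ρ : GaloisRepAdic O'')
    (hρ : ∀ (ℓ : ℕ) (hℓ : ℓ.Prime) (hℓM : ¬ ℓ ∣ M) (hℓS : ℓ ∉ (↑S : Set ℕ)),
      ∀ A : ValuationSubring (AlgebraicClosure ℚ), A.LiesOverPrime ℓ →
        ∀ σ : AlgebraicClosure ℚ ≃ₐ[ℚ] AlgebraicClosure ℚ, A.IsFrobeniusAt σ ℓ →
          LinearMap.charpoly (ρ.ρ σ) =
            X ^ 2 - C (algebraMap O' O'' ((iota.comp chig.rangeRestrict)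
              (CuspForm.heckeAlgebra.T hℓ hℓM hℓS))) * X + C ((ℓ : O'')))
    (ρE : GaloisRepAdic ℤ_[lam])
    (hρE : ∀ ℓ : ℕ, ℓ.Prime → ℓ ≠ lam → W.IsGoodPrimeFor ℓ →
        ∀ A : ValuationSubring (AlgebraicClosure ℚ), A.LiesOverPrime ℓ →
          ∀ σ : AlgebraicClosure ℚ ≃ₐ[ℚ] AlgebraicClosure ℚ, A.IsFrobeniusAt σ ℓ →
            LinearMap.charpoly (ρE.ρ σ) =
              X ^ 2 - C ((W.apOfModel ℓ : ℤ) : ℤ_[lam]) * X + C ((ℓ : ℕ) : ℤ_[lam]))
    (σ : AlgebraicClosure ℚ ≃ₐ[ℚ] AlgebraicClosure ℚ) :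
    LinearMap.charpoly (ρ.ρ σ) =
      (LinearMap.charpoly (ρE.ρ σ)).map
        (Fermat.Agent.GR.padicToComplete lam (maximalIdeal O'') hlamO'') := by
  classical
  set φ := Fermat.Agent.GR.padicToComplete lam (maximalIdeal O'') hlamO'' with hφ
  have hloc : IsLocalHom φ := isLocalHom_padicToComplete lam hlamO''
  rw [← Fermat.Agent.TW.charpoly_baseChangeAlong φ hloc ρE σ]
  have hM0 : M ≠ 0 := NeZero.ne M
  refine Fermat.Agent.GR.charpoly_eq_of_forall_frobenius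
    (ρ₁ := ρ) (ρ₂ := ρE.baseChangeAlong φ hloc)
    (S ∪ {lam} ∪ M.primeFactors ∪ N.primeFactors ∪ W.Δ.natAbs.primeFactors) ?_ σ
  intro ℓ hℓ hℓT P hP τ hτ
  simp only [Finset.mem_union, Finset.mem_singleton, not_or] at hℓT
  obtain ⟨⟨⟨⟨hℓS, hℓlam⟩, hℓM'⟩, hℓN'⟩, hℓΔ'⟩ := hℓT
  have hℓM : ¬ ℓ ∣ M := fun h => hℓM' (Nat.mem_primeFactors.mpr ⟨hℓ, h, hM0⟩)
  have hℓN : ¬ ℓ ∣ N := fun h => hℓN' (Nat.mem_primeFactors.mpr ⟨hℓ, h, hN0⟩)
  have hgood : W.IsGoodPrimeFor ℓ := by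
    intro h
    refine hℓΔ' (Nat.mem_primeFactors.mpr ⟨hℓ, ?_, Int.natAbs_ne_zero.mpr hΔ⟩)
    exact Int.natCast_dvd.mp h
  have hℓS' : ℓ ∉ (↑S : Set ℕ) := fun h => hℓS (Finset.mem_coe.mp h)
  rw [hρ ℓ hℓ hℓM hℓS' P hP τ hτ, Fermat.Agent.TW.charpoly_baseChangeAlong,
    hρE ℓ hℓ hℓlam hgood P hP τ hτ]
  -- the coefficient
  have hcoe : (iota.comp chig.rangeRestrict) (CuspForm.heckeAlgebra.T hℓ hℓM hℓS') =
      ((W.apOfModel ℓ : ℤ) : O') := by
    have h1 : chig.rangeRestrict (CuspForm.heckeAlgebra.T hℓ hℓM hℓS') =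
        ((W.apOfModel ℓ : ℤ) : chig.range) := by
      apply Subtype.ext
      rw [RingHom.coe_rangeRestrict, hchig ℓ hℓ hℓM hℓS', hgW ℓ hℓ hgood hℓN]
      simp
    rw [RingHom.comp_apply, h1, map_intCast]
  rw [hcoe, map_intCast]
  simp only [Polynomial.map_sub, Polynomial.map_add, Polynomial.map_mul, Polynomial.map_pow,
    Polynomial.map_X, map_intCast, map_natCast, Polynomial.map_intCast, Polynomial.map_natCast]

end Cmp

end Fermat.Agent.S58
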