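/-
S58 — helper9 — [EC-λ] assembly skeleton: the interface `ECTate W` at one odd prime `lam` from
the pieces (E1) `#E[lam] = lam²` + `lam`-divisibility, (E2)+(E3) the Frobenius relation, (N1) the
kernel bound, the good-prime inertia statement, and (U) unipotence at the bad primes.
-/
import Mathlib
import Fermat.Agent.S58.TMOD_helper4_Main
import Fermat.Agent.S58.E2_helper2_Scalar
import Fermat.Agent.S58.E2_helper2_Inertia
import Fermat.Agent.EC.Frob_helper6_Final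
import Fermat.Agent.EC.Tors_helper6_CountGe
import Fermat.Agent.S58.TOP58_helper9_Cmp

set_option autoImplicit false

namespace Fermat.Agent.S58

open Polynomial WeierstrassCurve WeierstrassCurve.Affine
open scoped WeierstrassCurve.Affine

/-- `Ω = AlgebraicClosure ℚ`. -/
local notation "Ω" => AlgebraicClosure ℚ

section Pieces

variable (W : WeierstrassCurve ℤ)

/-- every point of `E(ℚ̄)` is fixed by the absolute Galois group of a number field. -/
theorem asm58_exists_fixingField (P : (W⁄Ω).Point) :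
    ∃ L : IntermediateField ℚ Ω, FiniteDimensional ℚ L ∧
      ∀ σ : Ω ≃ₐ[ℚ] Ω, (∀ a ∈ L, σ a = a) → σ • P = P := by
  rcases P with _ | ⟨x, y, h⟩
  · exact ⟨⊥, inferInstance, fun σ _ => rfl⟩
  · refine ⟨IntermediateField.adjoin ℚ {x, y}, ?_, fun σ hσ => ?_⟩
    · apply IntermediateField.finiteDimensional_adjoin
      intro z _
      exact (Algebra.IsAlgebraic.isAlgebraic z).isIntegral
    · have hx : σ x = x := hσ x (IntermediateField.subset_adjoin ℚ _ (by simp))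
      have hy : σ y = y := hσ y (IntermediateField.subset_adjoin ℚ _ (by simp))
      rw [Point.algEquiv_smul_def]
      simp only [Point.map_some]
      congr 1

/-- good reduction: the discriminant of the reduction is nonzero. -/
theorem asm58_reductionMod_Δ_ne_zero {ℓ : ℕ} (hgood : W.IsGoodPrimeFor ℓ) :
    (W.reductionMod ℓ).Δ ≠ 0 := by
  unfold WeierstrassCurve.reductionMod
  rw [WeierstrassCurve.map_Δ]
  intro h
  apply hgood
  exact (ZMod.intCast_zmod_eq_zero_iff_dvd _ _).mp h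

/-- (E3), in the shape consumed by (E2). -/
theorem asm58_e2FrobRel {ℓ : ℕ} (hℓ : ℓ.Prime) (hgood : W.IsGoodPrimeFor ℓ) :
    E2FrobRel W ℓ (W.apOfModel ℓ) := by
  haveI : Fact ℓ.Prime := ⟨hℓ⟩
  intro k _ _ _ _ φ hφ T
  rw [e2_apOfModel_eq]
  exact Fermat.Agent.EC.frob_relation ℓ (W.reductionMod ℓ) (asm58_reductionMod_Δ_ne_zero W hgood) k φ hφ T

end Pieces

/-- **[EC-λ] from the pieces**, at one odd prime `lam`. -/
theorem ecTate_of_pieces (W : WeierstrassCurve ℤ) (hΔ : W.Δ ≠ 0) (lam : ℕ) [Fact lam.Prime]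
    (hlam2 : lam ≠ 2)
    (hker : ∀ ℓ : ℕ, ℓ.Prime → W.IsGoodPrimeFor ℓ → E2KerBound W ℓ (W.apOfModel ℓ))
    (hdiv : ∀ P : (W⁄Ω).Point, ∃ Q : (W⁄Ω).Point, lam • Q = P)
    (hU : ∀ q : ℕ, q.Prime → q ≠ lam → (q : ℤ) ∣ W.Δ →
      ∀ A : ValuationSubring Ω, A.LiesOverPrime q → ∀ σ ∈ A.inertiaSubgroupIn ℚ,
        ∀ (n : ℕ) (P : (W⁄Ω).Point), lam ^ n • P = 0 →
          σ • σ • P - (2 : ℤ) • σ • P + P = 0) :
    ∃ ρ : GaloisRepAdic ℤ_[lam],
      (∀ ℓ : ℕ, ℓ.Prime → ℓ ≠ lam → W.IsGoodPrimeFor ℓ →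
        ∀ A : ValuationSubring (AlgebraicClosure ℚ), A.LiesOverPrime ℓ →
          ∀ σ : AlgebraicClosure ℚ ≃ₐ[ℚ] AlgebraicClosure ℚ, A.IsFrobeniusAt σ ℓ →
            LinearMap.charpoly (ρ.ρ σ) =
              X ^ 2 - C ((W.apOfModel ℓ : ℤ) : ℤ_[lam]) * X + C ((ℓ : ℕ) : ℤ_[lam])) ∧
      (∀ q : ℕ, q.Prime → q ≠ lam → ρ.IsUnipotentOnInertiaAt q) := by
  classical
  have hlam : lam.Prime := Fact.out
  have hΔΩ : (W⁄Ω).Δ ≠ 0 := by
    have h1 : (W⁄Ω).Δ = ((W.Δ : ℤ) : Ω) := by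
      simp [WeierstrassCurve.baseChange, WeierstrassCurve.map_Δ]
    rw [h1]
    exact_mod_cast hΔ
  have hcard1 : Nat.card {P : (W⁄Ω).Point // lam • P = 0} = lam ^ 2 :=
    Fermat.Agent.EC.card_torsion_eq hΔΩ hlam hlam2
  have hoddpow : ∀ n : ℕ, Odd (lam ^ n) := fun n => (hlam.odd_of_ne_two hlam2).pow
  have hndvd : ∀ {q : ℕ}, q.Prime → q ≠ lam → ∀ n : ℕ, ¬ q ∣ lam ^ n := fun {q} hq hqlam n h =>
    hqlam ((Nat.prime_dvd_prime_iff_eq hq hlam).mp (hq.dvd_of_dvd_pow h))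
  obtain ⟨ρ, -, h_quad, -, h_unip, h_scalar, -⟩ :=
    exists_tmod (J := (W⁄Ω).Point) lam hcard1 (fun P _ => hdiv P)
      (fun P _ => asm58_exists_fixingField W P)
  refine ⟨ρ, ?_, ?_⟩
  · intro ℓ hℓ hℓlam hgood A hA σ hσ
    have hrel : ∀ P : (W⁄Ω).Point, (∃ n : ℕ, lam ^ n • P = 0) →
        σ • σ • P - (W.apOfModel ℓ) • σ • P + (ℓ : ℤ) • P = 0 := by
      rintro P ⟨n, hP⟩
      exact e2_frobenius_relation_Qbar W hℓ hgood (asm58_e2FrobRel W hℓ hgood) A hA hσ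
        (hoddpow n) (hndvd hℓ hℓlam n) hP
    have hns : ¬ Fermat.Agent.GR.IsScalarEnd (ρ.ρ σ) := fun hs =>
      e2_frobenius_not_scalar_Qbar' W hℓ hgood (hker ℓ hℓ hgood) A hA hσ hlam hlam2
        (Ne.symm hℓlam) hcard1 hdiv (h_scalar σ hs)
    have h := Fermat.Agent.GR.charpoly_eq_of_quadratic ρ.finrank_eq
      (h_quad σ (W.apOfModel ℓ) (ℓ : ℤ) hrel) hns
    rw [h, Int.cast_natCast]
  · intro q hq hqlam A hA σ hσ
    apply h_unip σ
    rintro P ⟨n, hP⟩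
    by_cases hbad : (q : ℤ) ∣ W.Δ
    · exact hU q hq hqlam hbad A hA σ hσ n P hP
    · have hfix : ∀ Q : (W⁄Ω).Point, lam ^ n • Q = 0 → σ • Q = Q := fun Q hQ =>
        e2_inertia_smul_eq_Qbar W hq hbad A hA hσ (hoddpow n) (hndvd hq hqlam n) hQ
      rw [hfix P hP, hfix P hP]
      have h2 : (2 : ℤ) • P = P + P := by
        rw [show (2 : ℤ) = 1 + 1 from rfl, add_zsmul, one_zsmul]
      rw [h2]
      abel

end Fermat.Agent.S58
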