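/-
S58 [COMPL], general form — helper3 — **coefficient data `(O', iota)` of S35/S36 for an ARBITRARY
character `chig` of the Hecke algebra**: `chig.range` is a finitely generated `ℤ`-module (S22),
hence an order in a number field `E ⊆ ℂ`; `O'` := the completion of `𝓞 E` at a prime over `lam`.

* `exists_completeDVR_of_finite_int` : a subring of `ℂ` which is a finitely generated `ℤ`-module
  maps to a complete DVR of characteristic `0` with finite residue field and `lam ∈ 𝔪`;
* `exists_compl58_gen` : the case of `chig.range`.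
-/
import Mathlib
import Fermat.Prelude.Def_CuspForm_HeckeGaloisRepDatum
import Fermat.Agent.S22
import Fermat.Agent.GR.PADIC_lead_NumberField

set_option autoImplicit false
set_option linter.unusedSectionVars false
set_option linter.style.haveILetI false

namespace Fermat.Agent.S58

open Fermat.Agent.GR NumberField IsLocalRing

/-- a subring of `ℂ` which is a finitely generated `ℤ`-module maps to a complete discrete
valuation ring of characteristic `0`, with finite residue field of characteristic `lam`. -/
theorem exists_completeDVR_of_finite_int (R : Subring ℂ) [Module.Finite ℤ R]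
    (lam : ℕ) [hlam : Fact lam.Prime] :
    ∃ (O' : Type) (_ : CommRing O') (_ : IsDomain O') (_ : IsDiscreteValuationRing O')
      (_ : IsAdicComplete (maximalIdeal O') O') (_ : Finite (ResidueField O'))
      (_ : CharZero O'), (lam : O') ∈ maximalIdeal O' ∧ Nonempty (R →+* O') := by
  classical
  -- every element of `R` is integral
  have hint : ∀ x : R, IsIntegral ℤ (x : ℂ) := fun x =>
    map_isIntegral_int R.subtype (Algebra.IsIntegral.isIntegral (R := ℤ) x)
  -- a finite spanning set
  obtain ⟨s, hs⟩ := (Module.finite_def (R := ℤ) (M := R)).1 inferInstance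
  let s' : Set ℂ := (fun x : R => (x : ℂ)) '' (s : Set R)
  haveI : Finite s' := (s.finite_toSet.image _).to_subtype
  let E : IntermediateField ℚ ℂ := IntermediateField.adjoin ℚ s'
  haveI hfd : FiniteDimensional ℚ E := by
    apply IntermediateField.finiteDimensional_adjoin
    rintro x ⟨y, -, rfl⟩
    exact (hint y).tower_top
  -- `R ⊆ E`
  have hRE : ∀ x : R, (x : ℂ) ∈ E := by
    intro x
    have hx : x ∈ Submodule.span ℤ (s : Set R) := by rw [hs]; exact Submodule.mem_top
    induction hx using Submodule.span_induction with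
    | mem y hy => exact IntermediateField.subset_adjoin _ _ ⟨y, hy, rfl⟩
    | zero => exact E.zero_mem
    | add y z _ _ hy hz => exact E.add_mem hy hz
    | smul n y _ hy =>
      have : ((n • y : R) : ℂ) = (n : ℂ) * (y : ℂ) := by
        rw [zsmul_eq_mul]; push_cast; rfl
      rw [this]
      exact E.mul_mem (E.intCast_mem n) hy
  -- the map `R → 𝓞 E`
  let f₀ : R →+* E := R.subtype.codRestrict E.toSubfield.toSubring hRE
  have hf₀int : ∀ x : R, IsIntegral ℤ (f₀ x) := by
    intro x
    have h := hint x
    have h2 : (x : ℂ) = algebraMap E ℂ (f₀ x) := rfl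
    rw [h2] at h
    exact (isIntegral_algebraMap_iff (RingHom.injective _)).1 h
  let f : R →+* 𝓞 E := f₀.codRestrict (integralClosure ℤ E) hf₀int
  -- a prime of `𝓞 E` over `lam`
  haveI : (Ideal.span {(lam : ℤ)}).IsPrime :=
    (Ideal.span_singleton_prime (by exact_mod_cast hlam.out.ne_zero)).2
      (Nat.prime_iff_prime_int.1 hlam.out)
  obtain ⟨𝔭, -, h𝔭prime, h𝔭⟩ := Ideal.exists_ideal_over_prime_of_isIntegral
    (S := 𝓞 E) (Ideal.span {(lam : ℤ)}) (⊥ : Ideal (𝓞 E)) (by
      rw [Ideal.comap_bot_of_injective _ (algebraMap ℤ (𝓞 E)).injective_int]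
      exact bot_le)
  have hlammem : (lam : 𝓞 E) ∈ 𝔭 := by
    have h1 : (lam : ℤ) ∈ 𝔭.comap (algebraMap ℤ (𝓞 E)) := by
      rw [h𝔭]; exact Ideal.mem_span_singleton_self _
    rw [Ideal.mem_comap] at h1
    simpa using h1
  have h𝔭0 : 𝔭 ≠ ⊥ := by
    intro h
    rw [h, Ideal.mem_bot] at hlammem
    exact hlam.out.ne_zero (by exact_mod_cast hlammem)
  haveI h𝔭max : 𝔭.IsMaximal := h𝔭prime.isMaximal h𝔭0
  haveI : Finite (𝓞 E ⧸ 𝔭) := Ideal.finiteQuotientOfFreeOfNeBot 𝔭 h𝔭0
  obtain ⟨𝒪, i1, i2, i3, i4, i5, i6, j, -, hp𝒪, -, -⟩ :=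
    exists_completeDVR_of_dedekind (𝓞 E) 𝔭 h𝔭0 lam hlammem
  exact ⟨𝒪, i1, i2, i3, i4, i5, i6, hp𝒪, ⟨j.comp f⟩⟩

/-- **[COMPL], general form**: coefficient data `(O', iota)` for the S35/S36 statements, for an
arbitrary character of the Hecke algebra. -/
theorem exists_compl58_gen {M : ℕ} [NeZero M] (S : Finset ℕ)
    (chig : CuspForm.heckeAlgebra M 2 (↑S : Set ℕ) →+* ℂ) (lam : ℕ) [Fact lam.Prime] :
    ∃ (O' : Type) (_ : CommRing O') (_ : IsDomain O') (_ : IsDiscreteValuationRing O')
      (_ : IsAdicComplete (IsLocalRing.maximalIdeal O') O')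
      (_ : Finite (IsLocalRing.ResidueField O'))
      (_ : CharZero O'), (lam : O') ∈ IsLocalRing.maximalIdeal O' ∧
        Nonempty (chig.range →+* O') := by
  haveI : Module.Finite ℤ (CuspForm.heckeAlgebra M 2 (↑S : Set ℕ)) :=
    Fermat.Agent.S22.result M 2 (↑S : Set ℕ)
  haveI : Module.Finite ℤ chig.range :=
    Module.Finite.of_surjective (chig.rangeRestrict.toAddMonoidHom.toIntLinearMap)
      chig.rangeRestrict_surjective
  exact exists_completeDVR_of_finite_int chig.range lam

end Fermat.Agent.S58
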