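/-
S58 — helper9 — [COUNT]: the trivial bounds `1 ≤ #W(𝔽_q) ≤ 2q + 1` for the reduction of an
integral Weierstrass model, hence `a_q(W) ≠ ±(q + 1)`.
-/
import Mathlib
import Fermat.Prelude.Def_FLTPrelim_Modularity

set_option autoImplicit false

namespace Fermat.Agent.S58

open WeierstrassCurve Polynomial

section Field

variable {F : Type*} [Field F] [Fintype F] [DecidableEq F]

open Classical in
/-- for fixed `x`, at most two `y` satisfy the Weierstrass equation. -/
theorem card_filter_equation_le_two (W : WeierstrassCurve.Affine F) (x : F) :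
    (Finset.univ.filter fun y : F => W.Equation x y).card ≤ 2 := by
  set P : F[X] := X ^ 2 + C (W.a₁ * x + W.a₃) * X - C (x ^ 3 + W.a₂ * x ^ 2 + W.a₄ * x + W.a₆)
    with hP
  have hdeg : P.natDegree = 2 := by
    rw [hP]
    compute_degree!
  have hP0 : P ≠ 0 := by
    intro h0
    rw [h0, natDegree_zero] at hdeg
    exact absurd hdeg (by norm_num)
  have hsub : (Finset.univ.filter fun y : F => W.Equation x y) ⊆ P.roots.toFinset := by
    intro y hy
    rw [Finset.mem_filter] at hy
    rw [Multiset.mem_toFinset, mem_roots hP0, IsRoot.def, hP]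
    have h := (WeierstrassCurve.Affine.equation_iff x y).mp hy.2
    simp only [eval_sub, eval_add, eval_pow, eval_X, eval_mul, eval_C]
    linear_combination h
  calc (Finset.univ.filter fun y : F => W.Equation x y).card
      ≤ P.roots.toFinset.card := Finset.card_le_card hsub
    _ ≤ Multiset.card P.roots := Multiset.toFinset_card_le _
    _ ≤ P.natDegree := card_roots' P
    _ = 2 := hdeg

open Classical in
/-- `#W(F) ≤ 2 #F + 1`. -/
theorem natCard_point_le (W : WeierstrassCurve.Affine F) :
    Nat.card W.Point ≤ 2 * Fintype.card F + 1 := by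
  -- inject the points into `Option` of the solution set
  let Sol : Finset (F × F) := Finset.univ.filter fun p : F × F => W.Equation p.1 p.2
  let f : W.Point → Option Sol := fun P =>
    match P with
    | .zero => none
    | .some x y h => some ⟨(x, y), by
        rw [Finset.mem_filter]
        exact ⟨Finset.mem_univ _, h.1⟩⟩
  have hf : Function.Injective f := by
    rintro (_ | ⟨x₁, y₁, h₁⟩) (_ | ⟨x₂, y₂, h₂⟩) h
    · rfl
    · exact absurd h (by simp [f])
    · exact absurd h (by simp [f])
    · simp only [f, Option.some.injEq, Subtype.mk.injEq, Prod.mk.injEq] at h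
      obtain ⟨rfl, rfl⟩ := h
      rfl
  have h1 : Nat.card W.Point ≤ Nat.card (Option Sol) := Nat.card_le_card_of_injective f hf
  have h2 : Nat.card (Option Sol) = Sol.card + 1 := by
    rw [Nat.card_eq_fintype_card, Fintype.card_option, Fintype.card_coe]
  have h3 : Sol.card ≤ 2 * Fintype.card F := by
    rw [Finset.card_eq_sum_card_fiberwise (f := Prod.fst) (t := Finset.univ)
      (fun _ _ => Finset.mem_univ _)]
    calc ∑ x : F, (Sol.filter fun p => p.1 = x).card
        ≤ ∑ _x : F, 2 := Finset.sum_le_sum fun x _ => by
          refine le_trans ?_ (card_filter_equation_le_two W x)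
          refine Finset.card_le_card_of_injOn Prod.snd ?_ ?_
          · intro p hp
            rw [Finset.mem_coe, Finset.mem_filter, Finset.mem_filter] at hp
            rw [Finset.mem_coe, Finset.mem_filter]
            refine ⟨Finset.mem_univ _, ?_⟩
            rw [← hp.2]
            exact hp.1.2
          · intro p hp p' hp' h
            rw [Finset.mem_coe, Finset.mem_filter] at hp hp'
            exact Prod.ext (hp.2.trans hp'.2.symm) h
      _ = 2 * Fintype.card F := by
        rw [Finset.sum_const, Finset.card_univ, smul_eq_mul, mul_comm]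
  omega

end Field

/-- **[COUNT]** `a_q(W) ≠ ±(q + 1)` for every prime `q` (trivial bounds on the point count). -/
theorem apOfModel_ne (W : WeierstrassCurve ℤ) {q : ℕ} (hq : q.Prime) :
    W.apOfModel q ≠ (q : ℤ) + 1 ∧ W.apOfModel q ≠ -((q : ℤ) + 1) := by
  classical
  haveI : Fact q.Prime := ⟨hq⟩
  haveI : NeZero q := ⟨hq.ne_zero⟩
  have hcardF : Nat.card (ZMod q) = q := Nat.card_zmod q
  have hle := natCard_point_le (W.reductionMod q).toAffine
  rw [ZMod.card] at hle
  have hpos : 0 < Nat.card (W.reductionMod q).toAffine.Point := Nat.card_pos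
  have hdef : W.apOfModel q = (q : ℤ) + 1 - (Nat.card (W.reductionMod q).toAffine.Point : ℤ) := by
    rw [WeierstrassCurve.apOfModel, WeierstrassCurve.traceOfFrobenius, WeierstrassCurve.card,
      hcardF]
  constructor
  · rw [hdef]
    omega
  · rw [hdef]
    omega

end Fermat.Agent.S58
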