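/-
S58 — helper9 — [NEWDESC] + [CHIG].

* `exists_newform_of_eigenform`: with the prelude's (negative, "minimal level") definition of
  `CuspForm.IsNewform`, every normalised eigenform `f` of level `N ≠ 0` has an associated newform
  `g` of some level `M ∣ N` with `a_ℓ(g) = a_ℓ(f)` for all primes `ℓ ∤ N`.
* `exists_eigenCharacter`: the eigencharacter `chig : 𝕋_S →+* ℂ` of a normalised eigenform.
-/
import Mathlib
import Fermat.Prelude.Def_CuspForm_Newforms
import Fermat.Prelude.Def_CuspForm_HeckeAlgebra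
import Fermat.Agent.GR.MULT1_helper2_Extra

set_option autoImplicit false

namespace Fermat.Agent.S58

open CuspForm ModularFormClass CongruenceSubgroup

/-- **[NEWDESC]** the newform attached to a normalised eigenform (prelude's definition of
newform = the good eigensystem occurs at no proper divisor of the level). -/
theorem exists_newform_of_eigenform {N : ℕ} (hN : N ≠ 0)
    (f : CuspForm (Gamma0 N) 2) (hf : f.IsNormalizedEigenform) :
    ∃ M : ℕ, M ∣ N ∧ ∃ g : CuspForm (Gamma0 M) 2, g.IsNewform ∧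
      ∀ ℓ : ℕ, ℓ.Prime → ¬ ℓ ∣ N → qCoeff g ℓ = qCoeff f ℓ := by
  classical
  have hex : ∃ M : ℕ, M ∣ N ∧ GoodEigensystemOccursAt f M :=
    ⟨N, dvd_rfl, GoodEigensystemOccursAt.refl hf⟩
  set M := Nat.find hex with hM
  obtain ⟨hMN, g, hg, hgf⟩ := Nat.find_spec hex
  have hM0 : M ≠ 0 := fun h0 => hN (by
    have := hMN
    rw [← hM, h0] at this
    exact zero_dvd_iff.mp this)
  refine ⟨M, hMN, g, ⟨hg, ?_⟩, hgf⟩
  intro M' hM'M hne hocc
  obtain ⟨g', hg', hg'g⟩ := hocc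
  have hlt : M' < M := lt_of_le_of_ne (Nat.le_of_dvd (Nat.pos_of_ne_zero hM0) hM'M) hne
  refine Nat.find_min hex hlt ⟨hM'M.trans hMN, g', hg', fun ℓ hℓ hℓN => ?_⟩
  rw [hg'g ℓ hℓ fun h => hℓN (h.trans hMN), hgf ℓ hℓ hℓN]

section Chig

variable {M : ℕ} [NeZero M]

/-- every element of the Hecke algebra acts on a normalised eigenform by a scalar. -/
theorem exists_smul_of_mem_heckeAlgebra {g : CuspForm (Gamma0 M) 2} (hg : g.IsNormalizedEigenform)
    (S : Set ℕ) (T : Module.End ℂ (CuspForm (Gamma0 M) 2)) (hT : T ∈ CuspForm.heckeAlgebra M 2 S) :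
    ∃ c : ℂ, T g = c • g := by
  have hmem := Fermat.Agent.GR.isNormalizedEigenform_mem_eigenForms hg
  induction hT using Algebra.adjoin_induction with
  | mem T hT =>
    rcases hT with ⟨ℓ, hℓ, hℓN, -, rfl⟩ | ⟨q, hqN, hq, -, rfl⟩
    · have h := hmem ⟨ℓ, hℓ⟩
      rw [Fermat.Agent.GR.heckeOpP_of_not_dvd (ℓ := ⟨ℓ, hℓ⟩) hℓN] at h
      exact ⟨_, h⟩
    · have h := hmem ⟨q, hq⟩
      rw [Fermat.Agent.GR.heckeOpP_of_dvd (ℓ := ⟨q, hq⟩) hqN] at h
      exact ⟨_, h⟩
  | algebraMap r =>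
    refine ⟨(r : ℂ), ?_⟩
    rw [Algebra.algebraMap_eq_smul_one, LinearMap.smul_apply, Module.End.one_apply]
    exact (Int.cast_smul_eq_zsmul ℂ r g).symm
  | add T T' _ _ h h' =>
    obtain ⟨c, hc⟩ := h
    obtain ⟨c', hc'⟩ := h'
    exact ⟨c + c', by rw [LinearMap.add_apply, hc, hc', add_smul]⟩
  | mul T T' _ _ h h' =>
    obtain ⟨c, hc⟩ := h
    obtain ⟨c', hc'⟩ := h'
    exact ⟨c' * c, by rw [Module.End.mul_apply, hc', map_smul, hc, smul_smul]⟩

/-- **[CHIG]** the eigencharacter of a normalised eigenform on the Hecke algebra `𝕋_S`. -/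
theorem exists_eigenCharacter {g : CuspForm (Gamma0 M) 2} (hg : g.IsNormalizedEigenform)
    (S : Set ℕ) :
    ∃ chig : CuspForm.heckeAlgebra M 2 S →+* ℂ,
      ∀ (ℓ : ℕ) (hℓ : ℓ.Prime) (hℓM : ¬ ℓ ∣ M) (hℓS : ℓ ∉ S),
        chig (CuspForm.heckeAlgebra.T hℓ hℓM hℓS) = qCoeff g ℓ := by
  classical
  have hg0 : g ≠ 0 := Fermat.Agent.GR.isNormalizedEigenform_ne_zero hg
  have hex : ∀ T : CuspForm.heckeAlgebra M 2 S, ∃ c : ℂ,
      (T : Module.End ℂ (CuspForm (Gamma0 M) 2)) g = c • g :=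
    fun T => exists_smul_of_mem_heckeAlgebra hg S T.1 T.2
  choose χ hχ using hex
  have huniq : ∀ {c c' : ℂ}, c • g = c' • g → c = c' := by
    intro c c' h
    by_contra hne
    have h1 : (c - c') • g = 0 := by rw [sub_smul, h, sub_self]
    rcases smul_eq_zero.mp h1 with h2 | h2
    · exact hne (sub_eq_zero.mp h2)
    · exact hg0 h2
  refine ⟨{ toFun := χ
            map_one' := ?_
            map_mul' := ?_
            map_zero' := ?_
            map_add' := ?_ }, ?_⟩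
  · apply huniq
    rw [← hχ 1, one_smul]
    rfl
  · intro T T'
    apply huniq
    rw [← hχ (T * T')]
    have e : ((T * T' : CuspForm.heckeAlgebra M 2 S) : Module.End ℂ (CuspForm (Gamma0 M) 2)) =
        (T : Module.End ℂ (CuspForm (Gamma0 M) 2)) * (T' : Module.End ℂ (CuspForm (Gamma0 M) 2)) :=
      rfl
    rw [e, Module.End.mul_apply, hχ T', map_smul, hχ T, smul_smul, mul_comm]
  · apply huniq
    rw [← hχ 0, zero_smul]
    rfl
  · intro T T'
    apply huniq
    rw [← hχ (T + T')]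
    have e : ((T + T' : CuspForm.heckeAlgebra M 2 S) : Module.End ℂ (CuspForm (Gamma0 M) 2)) =
        (T : Module.End ℂ (CuspForm (Gamma0 M) 2)) + (T' : Module.End ℂ (CuspForm (Gamma0 M) 2)) :=
      rfl
    rw [e, LinearMap.add_apply, hχ T, hχ T', add_smul]
  · intro ℓ hℓ hℓM hℓS
    apply huniq
    show χ (CuspForm.heckeAlgebra.T hℓ hℓM hℓS) • g = _
    rw [← hχ]
    have h := Fermat.Agent.GR.isNormalizedEigenform_mem_eigenForms hg ⟨ℓ, hℓ⟩
    rw [Fermat.Agent.GR.heckeOpP_of_not_dvd (ℓ := ⟨ℓ, hℓ⟩) hℓM] at h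
    exact h

end Chig

end Fermat.Agent.S58
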