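/-
S58 — helper9 — [CARAYOL-STEP] + [COEFF58] + [TOP58]: the statement S58 from the two interfaces
[EC-λ] (`ECTate`, the λ-adic Tate modules of the curve) and [COMPL] (`Compl58`, a complete
discrete valuation ring receiving the eigencharacter).
-/
import Mathlib
import Fermat.Agent.S35
import Fermat.Agent.S36.TOP_helper4_Main
import Fermat.Agent.S36.T3_helper2_Main
import Fermat.Agent.S36.BASE36_helper4_Final
import Fermat.Agent.S35.EMB_helper6
import Fermat.Agent.S58.STAB_helper1_Main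
import Fermat.Agent.S58.TOP58_helper9_Newform
import Fermat.Agent.S58.TOP58_helper9_Count
import Fermat.Agent.S58.TOP58_helper9_Cmp
import Fermat.Prelude.Def_WeierstrassCurve_ConductorLevel

set_option autoImplicit false

namespace Fermat.Agent.S58

open Polynomial IsLocalRing CuspForm ModularFormClass CongruenceSubgroup Fermat.Agent.TW.Kill

/-- **the interface [COMPL]**: a complete discrete valuation ring of residue characteristic `lam`
(characteristic zero, finite residue field) receiving the ring of values of a character of the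
Hecke algebra. -/
def Compl58 : Prop :=
  ∀ (M : ℕ) [NeZero M] (S : Finset ℕ)
    (chig : CuspForm.heckeAlgebra M 2 (↑S : Set ℕ) →+* ℂ) (lam : ℕ) [Fact lam.Prime],
    ∃ (O' : Type) (_ : CommRing O') (_ : IsDomain O') (_ : IsDiscreteValuationRing O')
      (_ : IsAdicComplete (IsLocalRing.maximalIdeal O') O')
      (_ : Finite (IsLocalRing.ResidueField O')) (_ : CharZero O'),
      (lam : O') ∈ IsLocalRing.maximalIdeal O' ∧ Nonempty (chig.range →+* O')

section Poly

variable {R : Type*} [CommRing R]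

theorem coeff_eq_of_quadratic_eq {a b a' b' : R}
    (h : (X ^ 2 - C a * X + C b : R[X]) = X ^ 2 - C a' * X + C b') : a = a' := by
  have h1 := congrArg (fun P : R[X] => P.coeff 1) h
  simp only [coeff_add, coeff_sub, coeff_X_pow, coeff_C_mul, coeff_X_one, coeff_C] at h1
  norm_num at h1
  exact h1

theorem coeff_eq_neg_of_quadratic_eq {a b a' b' : R}
    (h : (X ^ 2 + C a * X + C b : R[X]) = X ^ 2 - C a' * X + C b') : a' = -a := by
  have h1 := congrArg (fun P : R[X] => P.coeff 1) h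
  simp only [coeff_add, coeff_sub, coeff_X_pow, coeff_C_mul, coeff_X_one, coeff_C] at h1
  norm_num at h1
  rw [h1, neg_neg]

theorem map_quadratic58 {R' : Type*} [CommRing R'] (f : R →+* R') (a b : R) :
    (X ^ 2 - C a * X + C b : R[X]).map f = X ^ 2 - C (f a) * X + C (f b) := by
  simp

end Poly

section Key

variable (W : WeierstrassCurve ℤ) (hΔ : W.Δ ≠ 0) (hEC : ECTate W) (hC : Compl58)
  {N : ℕ} (hN0 : N ≠ 0) {M : ℕ} [NeZero M]
  {g : CuspForm (Gamma0 M) 2} (hg : g.IsNewform)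
  (hgW : ∀ ℓ : ℕ, ℓ.Prime → W.IsGoodPrimeFor ℓ → ¬ ℓ ∣ N → qCoeff g ℓ = (W.apOfModel ℓ : ℂ))

include hΔ hEC hC hN0 hg hgW

/-- **[CARAYOL-STEP] + [COEFF58]** for one auxiliary odd prime `lam`. -/
theorem key_step (lam : ℕ) [Fact lam.Prime] (hlam2 : lam ≠ 2) :
    (∀ q : ℕ, q.Prime → q ≠ lam → q ∣ M → ¬ q ^ 2 ∣ M → (q : ℤ) ∣ W.Δ) ∧
    (∀ q : ℕ, q.Prime → q ≠ lam → M.factorization q ≠ 2) ∧
    (∀ ℓ : ℕ, ℓ.Prime → ℓ ≠ lam → ¬ ℓ ∣ M → W.IsGoodPrimeFor ℓ →
      qCoeff g ℓ = (W.apOfModel ℓ : ℂ)) := by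
  classical
  have hM0 : M ≠ 0 := NeZero.ne M
  set S : Finset ℕ := M.primeFactors ∪ {lam} with hS
  have hlamS : lam ∈ S := Finset.mem_union_right _ (Finset.mem_singleton_self lam)
  have hMS : ∀ q : ℕ, q.Prime → q ∣ M → q ∈ S := fun q hq hqM =>
    Finset.mem_union_left _ (Nat.mem_primeFactors.mpr ⟨hq, hqM, hM0⟩)
  have hnotS : ∀ ℓ : ℕ, ℓ.Prime → ℓ ≠ lam → ¬ ℓ ∣ M → ℓ ∉ (↑S : Set ℕ) := by
    intro ℓ hℓ hℓlam hℓM h
    rcases Finset.mem_union.mp (Finset.mem_coe.mp h) with h | h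
    · exact hℓM (Nat.dvd_of_mem_primeFactors h)
    · exact hℓlam (Finset.mem_singleton.mp h)
  obtain ⟨chig, hchig⟩ := exists_eigenCharacter hg.1 (↑S : Set ℕ)
  obtain ⟨O', i1, i2, i3, i4, i5, i6, hlamO', ⟨iota⟩⟩ := hC M S chig lam
  obtain ⟨ρE, hρE, hρEunip⟩ := hEC lam hlam2
  have hiota : Function.Injective iota :=
    Fermat.Agent.S35.injective_of_isIntegral_int (fun x => by
      obtain ⟨x, t, rfl⟩ := x
      exact map_isIntegral_int chig.rangeRestrict
        (Fermat.Agent.GR.isIntegral_heckeAlgebra (↑S : Set ℕ) t)) iota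
  -- the representation of S35
  obtain ⟨O1, j1, j2, j3, j4, j5, j6, j7, j8, j9, hinj1, ρ1, hρ1, hρ1q⟩ :=
    Fermat.Agent.S35.result hg lam S O' hlamO' chig hchig iota hlamS hMS
  have hlamO1 : (lam : O1) ∈ maximalIdeal O1 :=
    Fermat.Agent.TW.natCast_mem_maximalIdeal_of_isLocalHom (algebraMap O' O1) j9 hlamO'
  have hcmp1 := charpoly_eq_map_of_attached W hN0 hΔ hgW lam S O' chig hchig iota O1 hlamO1 ρ1
    hρ1 ρE hρE
  -- the representation of S36
  obtain ⟨O2, k1, k2, k3, k4, k5, k6, k7, k8, k9, hinj2, ρ2, hρ2, hρ2q⟩ :=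
    Fermat.Agent.S36.s36_of_keyInert
      (Fermat.Agent.S36.keyInertStatement_of_bases Fermat.Agent.S36.legInertBase
        Fermat.Agent.S36.hesInertBase) hg lam S O' hlamO' chig hchig iota hlamS hMS
  have hlamO2 : (lam : O2) ∈ maximalIdeal O2 :=
    Fermat.Agent.TW.natCast_mem_maximalIdeal_of_isLocalHom (algebraMap O' O2) k9 hlamO'
  have hcmp2 := charpoly_eq_map_of_attached W hN0 hΔ hgW lam S O' chig hchig iota O2 hlamO2 ρ2
    hρ2 ρE hρE
  refine ⟨?_, ?_, ?_⟩
  · -- q ‖ M ⇒ q ∣ Δ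
    intro q hq hqlam hqM hq2
    by_contra hgood
    haveI : Fact q.Prime := ⟨hq⟩
    have hA := padicPlace_liesOverPrime q
    obtain ⟨σ, hσ⟩ := exists_isFrobeniusAt (padicPlace q) hq hA
    have hE := hρE q hq hqlam hgood (padicPlace q) hA σ hσ
    have h1 := hcmp1 σ
    rw [hE, map_quadratic58] at h1
    rcases hρ1q q hq hqlam hqM hq2 (padicPlace q) hA σ hσ with h2 | h2
    · rw [h2] at h1
      have h3 := coeff_eq_of_quadratic_eq h1
      have h4 : ((W.apOfModel q : ℤ) : O1) = (((q : ℤ) + 1 : ℤ) : O1) := by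
        rw [map_intCast] at h3
        rw [← h3]; push_cast; ring
      exact (apOfModel_ne W hq).1 (Int.cast_injective h4)
    · rw [h2] at h1
      have h3 := coeff_eq_neg_of_quadratic_eq h1
      have h4 : ((W.apOfModel q : ℤ) : O1) = ((-((q : ℤ) + 1) : ℤ) : O1) := by
        rw [map_intCast] at h3
        rw [h3]; push_cast; ring
      exact (apOfModel_ne W hq).2 (Int.cast_injective h4)
  · -- q² ∤ M
    intro q hq hqlam hfac
    refine hρ2q q hq hqlam hfac ?_
    intro P hP σ hσ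
    rw [hcmp2 σ, hρEunip q hq hqlam P hP σ hσ]
    simp
  · -- the coefficients at the good primes
    intro ℓ hℓ hℓlam hℓM hgood
    haveI : Fact ℓ.Prime := ⟨hℓ⟩
    have hA := padicPlace_liesOverPrime ℓ
    obtain ⟨σ, hσ⟩ := exists_isFrobeniusAt (padicPlace ℓ) hℓ hA
    have hℓS := hnotS ℓ hℓ hℓlam hℓM
    have hE := hρE ℓ hℓ hℓlam hgood (padicPlace ℓ) hA σ hσ
    have h1 := hcmp1 σ
    rw [hE, hρ1 ℓ hℓ hℓM hℓS (padicPlace ℓ) hA σ hσ, map_quadratic58] at h1
    have h3 := coeff_eq_of_quadratic_eq h1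
    have h4 : (iota.comp chig.rangeRestrict) (CuspForm.heckeAlgebra.T hℓ hℓM hℓS) =
        ((W.apOfModel ℓ : ℤ) : O') := by
      apply hinj1
      rw [h3, map_intCast, map_intCast]
    have h5 : chig.rangeRestrict (CuspForm.heckeAlgebra.T hℓ hℓM hℓS) =
        ((W.apOfModel ℓ : ℤ) : chig.range) := by
      apply hiota
      rw [map_intCast]
      exact h4
    have h6 := congrArg (fun x : chig.range => (x : ℂ)) h5
    simp only [RingHom.coe_rangeRestrict] at h6
    rw [← hchig ℓ hℓ hℓM hℓS, h6]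
    simp

end Key

end Fermat.Agent.S58
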