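/-
S58 — helper9 — [TOP58]: the statement S58 from the single interface [EC-λ] (`ECTate` for
semistable models with nonzero discriminant).
-/
import Mathlib
import Fermat.Agent.S58.TOP58_helper9_Main
import Fermat.Agent.S58.COMPLGEN_helper3

set_option autoImplicit false

namespace Fermat.Agent.S58

open Polynomial IsLocalRing CuspForm ModularFormClass CongruenceSubgroup

/-- the interface [COMPL] holds (helper3's `exists_compl58_gen`). -/
theorem compl58 : Compl58 := fun _ _ S chig lam _ => exists_compl58_gen S chig lam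

/-- a squarefree number all of whose prime divisors divide `C` divides `C`. -/
theorem dvd_of_squarefree_of_forall_prime_dvd {M C : ℕ} (hM : Squarefree M) (hC : C ≠ 0)
    (h : ∀ q : ℕ, q.Prime → q ∣ M → q ∣ C) : M ∣ C := by
  have hM0 : M ≠ 0 := hM.ne_zero
  rw [← Nat.factorization_le_iff_dvd hM0 hC]
  intro q
  by_cases hq : q.Prime
  · by_cases hqM : q ∣ M
    · calc M.factorization q ≤ 1 := hM.natFactorization_le_one q
        _ ≤ C.factorization q := hq.factorization_pos_of_dvd hC (h q hq hqM)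
    · rw [Nat.factorization_eq_zero_of_not_dvd hqM]
      exact Nat.zero_le _
  · rw [Nat.factorization_eq_zero_of_not_prime M hq]
    exact Nat.zero_le _

/-- **[TOP58]**: S58 from the `lam`-adic Tate modules of semistable curves. -/
theorem s58_of_ecTate
    (hEC : ∀ W : WeierstrassCurve ℤ, W.Δ ≠ 0 → W.IsSemistableModel → ECTate W)
    (W : WeierstrassCurve ℤ) (hss : W.IsSemistableModel) (N : ℕ)
    (hN : W.IsModularModelOfLevel N) (hbad : ∀ ℓ : ℕ, ℓ.Prime → (ℓ : ℤ) ∣ W.Δ → ℓ ∣ N)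
    (hN3 : ∀ q : ℕ, q.Prime → ¬ q ^ 3 ∣ N) :
    W.IsModularModelOfLevel W.conductorLevel := by
  classical
  have hN0 : N ≠ 0 := fun h => hN3 2 Nat.prime_two (h ▸ dvd_zero _)
  have hΔ : W.Δ ≠ 0 := by
    intro h
    obtain ⟨p, hpN, hp⟩ := Nat.exists_infinite_primes (N + 1)
    have h1 : p ∣ N := hbad p hp (h ▸ dvd_zero _)
    have h2 := Nat.le_of_dvd (Nat.pos_of_ne_zero hN0) h1
    omega
  obtain ⟨f, hf, hfW⟩ := hN
  obtain ⟨M, hMN, g, hg, hgf⟩ := exists_newform_of_eigenform hN0 f hf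
  have hM0 : M ≠ 0 := fun h => hN0 (by rw [h] at hMN; exact zero_dvd_iff.mp hMN)
  haveI : NeZero M := ⟨hM0⟩
  have hgW : ∀ ℓ : ℕ, ℓ.Prime → W.IsGoodPrimeFor ℓ → ¬ ℓ ∣ N →
      qCoeff g ℓ = (W.apOfModel ℓ : ℂ) :=
    fun ℓ hℓ hgood hℓN => (hgf ℓ hℓ hℓN).trans (hfW ℓ hℓ hgood hℓN)
  haveI : Fact (Nat.Prime 5) := ⟨by norm_num⟩
  obtain ⟨k3a, k3b, k3c⟩ := key_step W hΔ (hEC W hΔ hss) compl58 hN0 hg hgW 3 (by norm_num)
  obtain ⟨k5a, k5b, k5c⟩ := key_step W hΔ (hEC W hΔ hss) compl58 hN0 hg hgW 5 (by norm_num)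
  -- the exponent of every prime in `M` is at most one
  have hfac : ∀ q : ℕ, q.Prime → ¬ q ^ 2 ∣ M := by
    intro q hq hq2
    have h2 : 2 ≤ M.factorization q := (hq.pow_dvd_iff_le_factorization hM0).mp hq2
    have h3 : ¬ 3 ≤ M.factorization q := fun h =>
      hN3 q hq (((hq.pow_dvd_iff_le_factorization hM0).mpr h).trans hMN)
    have h4 : M.factorization q = 2 := by omega
    by_cases hq3 : q = 3
    · exact k5b q hq (by omega) h4
    · exact k3b q hq hq3 h4
  have hsq : Squarefree M := by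
    rw [Nat.squarefree_iff_prime_squarefree]
    intro q hq hqq
    exact hfac q hq (by rwa [pow_two])
  have hdvd : ∀ q : ℕ, q.Prime → q ∣ M → q ∣ W.conductorLevel := by
    intro q hq hqM
    rw [W.prime_dvd_conductorLevel_iff hΔ hq]
    by_cases hq3 : q = 3
    · exact k5a q hq (by omega) hqM (hfac q hq)
    · exact k3a q hq hq3 hqM (hfac q hq)
  have hMC : M ∣ W.conductorLevel :=
    dvd_of_squarefree_of_forall_prime_dvd hsq W.conductorLevel_pos.ne' hdvd
  obtain ⟨g', hg', hg'g⟩ := exists_stab g hg.1 W.conductorLevel hMC W.squarefree_conductorLevel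
  refine ⟨g', hg', fun ℓ hℓ hgood hℓC => ?_⟩
  rw [hg'g ℓ hℓ hℓC]
  have hℓM : ¬ ℓ ∣ M := fun h => hℓC (h.trans hMC)
  by_cases hℓ3 : ℓ = 3
  · exact k5c ℓ hℓ (by omega) hℓM hgood
  · exact k3c ℓ hℓ hℓ3 hℓM hgood

end Fermat.Agent.S58
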