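/-
S58 — helper9 — the last reduction: the interface `ECTate W` (hence S58) from the single remaining
piece (U-mult): unipotence of inertia on the `lam`-power torsion at the primes dividing the
discriminant (multiplicative reduction).
-/
import Mathlib
import Fermat.Agent.S58.ECTATE_helper9_Asm
import Fermat.Agent.S58.E3_helper6_Good
import Fermat.Agent.EC.TorsDiv_helper4_Qbar
import Fermat.Agent.S58.TOP58_helper9_Top

set_option autoImplicit false

namespace Fermat.Agent.S58

open Polynomial WeierstrassCurve WeierstrassCurve.Affine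
open scoped WeierstrassCurve.Affine

/-- `Ω = AlgebraicClosure ℚ`. -/
local notation "Ω" => AlgebraicClosure ℚ

/-- **the interface (U-mult)**: for every odd prime `lam` and every prime `q ≠ lam` dividing the
discriminant, the inertia groups at `q` act unipotently on the `lam`-power torsion of `E(ℚ̄)`. -/
def UMult58 (W : WeierstrassCurve ℤ) : Prop :=
  ∀ (lam : ℕ) [Fact lam.Prime], lam ≠ 2 → ∀ q : ℕ, q.Prime → q ≠ lam → (q : ℤ) ∣ W.Δ →
    ∀ A : ValuationSubring Ω, A.LiesOverPrime q → ∀ σ ∈ A.inertiaSubgroupIn ℚ,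
      ∀ (n : ℕ) (P : (W⁄Ω).Point), lam ^ n • P = 0 →
        σ • σ • P - (2 : ℤ) • σ • P + P = 0

/-- **[EC-λ]** from (U-mult). -/
theorem ecTate_of_uMult (W : WeierstrassCurve ℤ) (hΔ : W.Δ ≠ 0) (hU : UMult58 W) : ECTate W := by
  intro lam _ hlam2
  exact ecTate_of_pieces W hΔ lam hlam2 (fun ℓ hℓ hgood => e2KerBound_of_good W hℓ hgood)
    (fun P => Fermat.Agent.EC.qbar_divisible W hΔ Fact.out hlam2 P) (hU lam hlam2)

/-- **S58** from (U-mult) for the semistable models. -/
theorem s58_of_uMult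
    (hU : ∀ W : WeierstrassCurve ℤ, W.Δ ≠ 0 → W.IsSemistableModel → UMult58 W)
    (W : WeierstrassCurve ℤ) (hss : W.IsSemistableModel) (N : ℕ)
    (hN : W.IsModularModelOfLevel N) (hbad : ∀ ℓ : ℕ, ℓ.Prime → (ℓ : ℤ) ∣ W.Δ → ℓ ∣ N)
    (hN3 : ∀ q : ℕ, q.Prime → ¬ q ^ 3 ∣ N) :
    W.IsModularModelOfLevel W.conductorLevel :=
  s58_of_ecTate (fun W hΔ hss => ecTate_of_uMult W hΔ (hU W hΔ hss)) W hss N hN hbad hN3

end Fermat.Agent.S58
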