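/-
S58 [COMPL] — helper3 — **the eigen-character of a normalised eigenform on the Hecke algebra, and
the coefficient data `(O', iota)` of S35/S36 for a form with rational integer eigenvalues.**

* `exists_eigenChar_of_adjoin` : a common eigenvector of a set of commuting endomorphisms defines
  a character of the generated `ℤ`-algebra;
* `exists_eigenChar` : the eigen-character `chig : heckeAlgebra M 2 S →+* ℂ` of a normalised
  eigenform, `chig T_ℓ = a_ℓ`, `chig U_q = a_q`;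
* `exists_compl58` : if `a_ℓ(g) ∈ ℤ` for all `ℓ ∉ S`, `ℓ ∤ M` and `S` contains the primes of `M`,
  then `chig.range` consists of integers: `O' := ℤ_[lam]`, `iota : chig.range →+* ℤ_[lam]`.
-/
import Mathlib
import Fermat.Prelude.Def_CuspForm_HeckeGaloisRepDatum
import Fermat.Agent.GR.MULT1_helper2_Extra

set_option autoImplicit false
set_option linter.unusedSectionVars false

namespace Fermat.Agent.S58

open CongruenceSubgroup ModularFormClass Fermat.Agent.GR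

section Generic

variable {V : Type*} [AddCommGroup V] [Module ℂ V]

/-- the endomorphisms having `v` as an eigenvector form a `ℤ`-subalgebra. -/
def eigenSubalgebra (v : V) : Subalgebra ℤ (Module.End ℂ V) where
  carrier := {T | ∃ c : ℂ, T v = c • v}
  mul_mem' := by
    rintro T T' ⟨c, hc⟩ ⟨c', hc'⟩
    refine ⟨c' * c, ?_⟩
    rw [Module.End.mul_apply, hc', map_smul, hc, smul_smul]
  add_mem' := by
    rintro T T' ⟨c, hc⟩ ⟨c', hc'⟩
    exact ⟨c + c', by rw [LinearMap.add_apply, hc, hc', add_smul]⟩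
  algebraMap_mem' := by
    intro n
    refine ⟨(n : ℂ), ?_⟩
    rw [Algebra.algebraMap_eq_smul_one, LinearMap.smul_apply, Module.End.one_apply,
      Int.cast_smul_eq_zsmul]

theorem mem_eigenSubalgebra {v : V} {T : Module.End ℂ V} :
    T ∈ eigenSubalgebra v ↔ ∃ c : ℂ, T v = c • v := Iff.rfl

/-- **the eigen-character**: a common eigenvector `v ≠ 0` of all elements of a subalgebra `A`
defines a ring homomorphism `A → ℂ`. -/
theorem exists_eigenChar_of_le {v : V} (hv : v ≠ 0) (A : Subalgebra ℤ (Module.End ℂ V))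
    (hA : A ≤ eigenSubalgebra v) :
    ∃ χ : ↥A →+* ℂ, ∀ T : ↥A, (T : Module.End ℂ V) v = χ T • v := by
  classical
  have hex : ∀ T : ↥A, ∃ c : ℂ, (T : Module.End ℂ V) v = c • v := fun T => hA T.2
  choose χ hχ using hex
  have huniq : ∀ c c' : ℂ, c • v = c' • v → c = c' := by
    intro c c' h
    by_contra hne
    have h1 : (c - c') • v = 0 := by rw [sub_smul, h, sub_self]
    rcases smul_eq_zero.mp h1 with h2 | h2
    · exact hne (sub_eq_zero.mp h2)
    · exact hv h2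
  refine ⟨{ toFun := χ, map_one' := ?_, map_mul' := ?_, map_zero' := ?_, map_add' := ?_ }, hχ⟩
  · apply huniq
    rw [← hχ, one_smul]
    rfl
  · intro T T'
    apply huniq
    rw [← hχ]
    show ((T : Module.End ℂ V) * (T' : Module.End ℂ V)) v = _
    rw [Module.End.mul_apply, hχ T', map_smul, hχ T, smul_smul, mul_comm]
  · apply huniq
    rw [← hχ, zero_smul]
    rfl
  · intro T T'
    apply huniq
    rw [← hχ]
    show ((T : Module.End ℂ V) + (T' : Module.End ℂ V)) v = _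
    rw [LinearMap.add_apply, hχ T, hχ T', add_smul]

end Generic

section Hecke

variable {M : ℕ} [NeZero M]

/-- **the eigen-character of a normalised eigenform** on the Hecke algebra away from `S`. -/
theorem exists_eigenChar {g : CuspForm (Gamma0 M) 2} (hg : g.IsNormalizedEigenform) (S : Set ℕ) :
    ∃ chig : CuspForm.heckeAlgebra M 2 S →+* ℂ,
      (∀ T : CuspForm.heckeAlgebra M 2 S,
        (T : Module.End ℂ (CuspForm (Gamma0 M) 2)) g = chig T • g) ∧
      (∀ (ℓ : ℕ) (hℓ : ℓ.Prime) (hℓM : ¬ ℓ ∣ M) (hℓS : ℓ ∉ S),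
        chig (CuspForm.heckeAlgebra.T hℓ hℓM hℓS) = qCoeff g ℓ) ∧
      (∀ (q : ℕ) (hq : q.Prime) (hqM : q ∣ M) (hqS : q ∉ S),
        chig (CuspForm.heckeAlgebra.U hq hqM hqS) = qCoeff g q) := by
  have hg0 : g ≠ 0 := isNormalizedEigenform_ne_zero hg
  have hmem := isNormalizedEigenform_mem_eigenForms hg
  have hT : ∀ (ℓ : ℕ) (hℓ : ℓ.Prime) (hℓM : ¬ ℓ ∣ M),
      CuspForm.heckeTLin 2 hℓ hℓM g = qCoeff g ℓ • g := by
    intro ℓ hℓ hℓM
    have h := hmem ⟨ℓ, hℓ⟩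
    rw [heckeOpP_of_not_dvd (ℓ := ⟨ℓ, hℓ⟩) hℓM] at h
    exact h
  have hU : ∀ (q : ℕ) (hq : q.Prime) (hqM : q ∣ M),
      CuspForm.heckeULin 2 hqM g = qCoeff g q • g := by
    intro q hq hqM
    have h := hmem ⟨q, hq⟩
    rw [heckeOpP_of_dvd (ℓ := ⟨q, hq⟩) hqM] at h
    exact h
  have hle : CuspForm.heckeAlgebra M 2 S ≤ eigenSubalgebra g := by
    refine Algebra.adjoin_le ?_
    rintro T (⟨ℓ, hℓ, hℓM, -, rfl⟩ | ⟨q, hqM, hq, -, rfl⟩)
    · exact ⟨_, hT ℓ hℓ hℓM⟩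
    · exact ⟨_, hU q hq hqM⟩
  obtain ⟨χ, hχ⟩ := exists_eigenChar_of_le hg0 (CuspForm.heckeAlgebra M 2 S) hle
  have huniq : ∀ c c' : ℂ, c • g = c' • g → c = c' := by
    intro c c' h
    by_contra hne
    have h1 : (c - c') • g = 0 := by rw [sub_smul, h, sub_self]
    rcases smul_eq_zero.mp h1 with h2 | h2
    · exact hne (sub_eq_zero.mp h2)
    · exact hg0 h2
  refine ⟨χ, hχ, fun ℓ hℓ hℓM hℓS => ?_, fun q hq hqM hqS => ?_⟩
  · apply huniq
    rw [← hχ]
    exact hT ℓ hℓ hℓM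
  · apply huniq
    rw [← hχ]
    exact hU q hq hqM

/-- the integers inside `ℂ`, as a ring isomorphic to `ℤ`. -/
noncomputable def intRangeEquiv : ℤ ≃+* (Int.castRingHom ℂ).range :=
  RingEquiv.ofLeftInverse (g := fun z : ℂ => ⌊z.re⌋) (f := Int.castRingHom ℂ)
    (fun n => by simp)

theorem coe_intRangeEquiv (n : ℤ) : ((intRangeEquiv n : (Int.castRingHom ℂ).range) : ℂ) = n := rfl

/-- **[COMPL]**: the data `(chig, iota)` of S35/S36 with `O' = ℤ_[lam]` for a normalised eigenform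
with rational integer eigenvalues away from `S`. -/
theorem exists_compl58 {g : CuspForm (Gamma0 M) 2} (hg : g.IsNormalizedEigenform)
    (lam : ℕ) [Fact lam.Prime] (S : Finset ℕ) (a : ℕ → ℤ)
    (ha : ∀ ℓ : ℕ, ℓ.Prime → ¬ ℓ ∣ M → ℓ ∉ S → qCoeff g ℓ = (a ℓ : ℂ))
    (hMS : ∀ q : ℕ, q.Prime → q ∣ M → q ∈ S) :
    ∃ (chig : CuspForm.heckeAlgebra M 2 (↑S : Set ℕ) →+* ℂ) (iota : chig.range →+* ℤ_[lam]),
      (∀ (ℓ : ℕ) (hℓ : ℓ.Prime) (hℓM : ¬ ℓ ∣ M) (hℓS : ℓ ∉ (↑S : Set ℕ)),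
        chig (CuspForm.heckeAlgebra.T hℓ hℓM hℓS) = qCoeff g ℓ) ∧
      (∀ (ℓ : ℕ) (hℓ : ℓ.Prime) (hℓM : ¬ ℓ ∣ M) (hℓS : ℓ ∉ (↑S : Set ℕ)),
        (iota.comp chig.rangeRestrict) (CuspForm.heckeAlgebra.T hℓ hℓM hℓS) =
          ((a ℓ : ℤ) : ℤ_[lam])) := by
  obtain ⟨chig, hchig, hT, -⟩ := exists_eigenChar hg (↑S : Set ℕ)
  -- all values of `chig` are integers
  have hint : ∀ T : CuspForm.heckeAlgebra M 2 (↑S : Set ℕ), ∃ n : ℤ, chig T = (n : ℂ) := by
    rintro ⟨T, hTmem⟩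
    induction hTmem using Algebra.adjoin_induction with
    | mem x hx =>
      rcases hx with ⟨ℓ, hℓ, hℓM, hℓS, rfl⟩ | ⟨q, hqM, hq, hqS, rfl⟩
      · refine ⟨a ℓ, ?_⟩
        have := hT ℓ hℓ hℓM hℓS
        rw [ha ℓ hℓ hℓM hℓS] at this
        exact this
      · exact absurd (hMS q hq hqM) hqS
    | algebraMap r =>
      refine ⟨r, ?_⟩
      have h1 : (⟨algebraMap ℤ _ r, Subalgebra.algebraMap_mem _ r⟩ :
          CuspForm.heckeAlgebra M 2 (↑S : Set ℕ)) = (r : CuspForm.heckeAlgebra M 2 (↑S : Set ℕ)) := by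
        apply Subtype.ext
        simp
      rw [h1, map_intCast]
    | add x y hx hy hx' hy' =>
      obtain ⟨n, hn⟩ := hx'
      obtain ⟨m, hm⟩ := hy'
      refine ⟨n + m, ?_⟩
      have h1 : (⟨x + y, add_mem hx hy⟩ : CuspForm.heckeAlgebra M 2 (↑S : Set ℕ)) =
          ⟨x, hx⟩ + ⟨y, hy⟩ := rfl
      rw [h1, map_add, hn, hm, Int.cast_add]
    | mul x y hx hy hx' hy' =>
      obtain ⟨n, hn⟩ := hx'
      obtain ⟨m, hm⟩ := hy'
      refine ⟨n * m, ?_⟩
      have h1 : (⟨x * y, mul_mem hx hy⟩ : CuspForm.heckeAlgebra M 2 (↑S : Set ℕ)) =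
          ⟨x, hx⟩ * ⟨y, hy⟩ := rfl
      rw [h1, map_mul, hn, hm, Int.cast_mul]
  have hle : chig.range ≤ (Int.castRingHom ℂ).range := by
    rintro z ⟨T, rfl⟩
    obtain ⟨n, hn⟩ := hint T
    exact ⟨n, hn.symm⟩
  refine ⟨chig, (Int.castRingHom ℤ_[lam]).comp
    ((intRangeEquiv.symm : (Int.castRingHom ℂ).range →+* ℤ).comp (Subring.inclusion hle)),
    hT, ?_⟩
  intro ℓ hℓ hℓM hℓS
  have h1 : Subring.inclusion hle (chig.rangeRestrict (CuspForm.heckeAlgebra.T hℓ hℓM hℓS)) =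
      intRangeEquiv (a ℓ) := by
    apply Subtype.ext
    show chig (CuspForm.heckeAlgebra.T hℓ hℓM hℓS) = ((a ℓ : ℤ) : ℂ)
    rw [hT ℓ hℓ hℓM hℓS, ha ℓ hℓ hℓM hℓS]
  show (Int.castRingHom ℤ_[lam]) (intRangeEquiv.symm (Subring.inclusion hle
    (chig.rangeRestrict (CuspForm.heckeAlgebra.T hℓ hℓM hℓS)))) = _
  rw [h1, RingEquiv.symm_apply_apply]
  rfl

end Hecke

end Fermat.Agent.S58
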