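/-
# S58 [CHEB] (helper4): Frobenius density for characteristic polynomials

`cheb_charpoly_eq`, `cheb_trace_det_eq` : two `2`-dimensional adic representations `ρ₁` over `A`,
`ρ₂` over `B` (any local rings, `B` separated) whose Frobenius characteristic polynomials agree
through a local homomorphism `f : A →+* B` at all primes outside a finite set have the same
characteristic polynomial (trace, determinant) at EVERY `σ ∈ G_ℚ`.
Proof: Frobenius density on a finite level (`exists_frobenius_pow_conj`: `σ` is conjugate to a POWER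
of a Frobenius modulo `𝔪ⁿ`) + Lucas sequences (trace/det of `M ^ m` from those of `M`) + continuity.
`cheb_separated_of_noetherian` : Krull intersection for Noetherian local domains.
-/
import Mathlib
import Fermat.Agent.GR.S34TOP_helper4

set_option autoImplicit false
set_option linter.unusedSectionVars false
set_option linter.unusedVariables false
set_option linter.style.haveILetI false

namespace Fermat.Agent.S58

open Polynomial IsLocalRing Fermat.Agent.GR

local notation "Ω" => AlgebraicClosure ℚ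
local notation "GQ" => (AlgebraicClosure ℚ ≃ₐ[ℚ] AlgebraicClosure ℚ)

section Cheb

variable {A B : Type} [CommRing A] [IsLocalRing A] [CommRing B] [IsLocalRing B]

/-- a local homomorphism maps `𝔪_A ^ n` into `𝔪_B ^ n`. -/
theorem cheb_map_mem_pow (f : A →+* B) [IsLocalHom f] (n : ℕ) {a : A}
    (ha : a ∈ maximalIdeal A ^ n) : f a ∈ maximalIdeal B ^ n := by
  have h1 : (maximalIdeal A).map f ≤ maximalIdeal B := by
    rw [Ideal.map_le_iff_le_comap]
    intro x hx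
    rw [Ideal.mem_comap, mem_maximalIdeal, mem_nonunits_iff]
    intro hu
    exact (mem_maximalIdeal x).1 hx (isUnit_of_map_unit f x hu)
  have h2 : (maximalIdeal A ^ n).map f ≤ maximalIdeal B ^ n := by
    rw [Ideal.map_pow]
    exact Ideal.pow_right_mono h1 n
  exact h2 (Ideal.mem_map_of_mem f ha)

/-- the determinant of `ρ(φ ^ m)`. -/
theorem cheb_det_pow (ρ : GaloisRepAdic A) (φ : GQ) (m : ℕ) :
    LinearMap.det (ρ.ρ (φ ^ m)) = LinearMap.det (ρ.ρ φ) ^ m := by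
  rw [map_pow, map_pow]

set_option maxHeartbeats 800000 in
/-- **[CHEB] (trace and determinant)**: two `2`-dimensional adic representations whose Frobenius
characteristic polynomials agree (through a local homomorphism `f : A → B` of the coefficient
rings, `B` separated) at all primes outside a finite set `T` have the same trace and determinant
at EVERY element of `G_ℚ`. -/
theorem cheb_trace_det_eq (f : A →+* B) [IsLocalHom f]
    (hB : ∀ b : B, (∀ n : ℕ, b ∈ maximalIdeal B ^ n) → b = 0)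
    (ρ₁ : GaloisRepAdic A) (ρ₂ : GaloisRepAdic B) (T : Finset ℕ)
    (h : ∀ ℓ : ℕ, ℓ.Prime → ℓ ∉ T → ∀ P : ValuationSubring Ω, P.LiesOverPrime ℓ →
      ∀ φ : GQ, P.IsFrobeniusAt φ ℓ →
        (LinearMap.charpoly (ρ₁.ρ φ)).map f = LinearMap.charpoly (ρ₂.ρ φ))
    (σ : GQ) :
    f (LinearMap.trace A ρ₁.V (ρ₁.ρ σ)) = LinearMap.trace B ρ₂.V (ρ₂.ρ σ) ∧
      f (LinearMap.det (ρ₁.ρ σ)) = LinearMap.det (ρ₂.ρ σ) := by
  have key : ∀ n : ℕ,
      f (LinearMap.trace A ρ₁.V (ρ₁.ρ σ)) - LinearMap.trace B ρ₂.V (ρ₂.ρ σ) ∈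
        maximalIdeal B ^ n ∧
      f (LinearMap.det (ρ₁.ρ σ)) - LinearMap.det (ρ₂.ρ σ) ∈ maximalIdeal B ^ n := by
    intro n
    obtain ⟨L₁, hfin₁, hL₁⟩ := ρ₁.isAdicContinuous n
    obtain ⟨L₂, hfin₂, hL₂⟩ := ρ₂.isAdicContinuous n
    haveI := hfin₁
    haveI := hfin₂
    obtain ⟨ℓ, hℓ, hℓT, P, hP, φ, hφ, m, τ, hτ⟩ := exists_frobenius_pow_conj T (L₁ ⊔ L₂) σ
    have hτ₁ : ∀ x ∈ L₁, (τ * σ * τ⁻¹) x = (φ ^ m) x := fun x hx =>
      hτ x ((le_sup_left : L₁ ≤ L₁ ⊔ L₂) hx)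
    have hτ₂ : ∀ x ∈ L₂, (τ * σ * τ⁻¹) x = (φ ^ m) x := fun x hx =>
      hτ x ((le_sup_right : L₂ ≤ L₁ ⊔ L₂) hx)
    -- the Frobenius data
    have hch := h ℓ hℓ hℓT P hP φ hφ
    rw [charpoly_eq_of_finrank_eq_two ρ₁.finrank_eq, charpoly_eq_of_finrank_eq_two ρ₂.finrank_eq]
      at hch
    simp only [Polynomial.map_add, Polynomial.map_sub, Polynomial.map_mul, Polynomial.map_pow,
      Polynomial.map_X, Polynomial.map_C] at hch
    obtain ⟨htr, hdet⟩ : f (LinearMap.trace A ρ₁.V (ρ₁.ρ φ)) = LinearMap.trace B ρ₂.V (ρ₂.ρ φ) ∧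
        f (LinearMap.det (ρ₁.ρ φ)) = LinearMap.det (ρ₂.ρ φ) := by
      constructor
      · have := congrArg (fun g : B[X] => g.coeff 1) hch
        simpa [Polynomial.coeff_X_pow] using this
      · have := congrArg (fun g : B[X] => g.coeff 0) hch
        simpa [Polynomial.coeff_X_pow] using this
    -- traces of the powers
    have ht₁ := trace_pow_eq_luc_of_charpoly ρ₁ φ _ _
      (charpoly_eq_of_finrank_eq_two ρ₁.finrank_eq (ρ₁.ρ φ)) m
    have ht₂ := trace_pow_eq_luc_of_charpoly ρ₂ φ _ _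
      (charpoly_eq_of_finrank_eq_two ρ₂.finrank_eq (ρ₂.ρ φ)) m
    have htm : f (LinearMap.trace A ρ₁.V (ρ₁.ρ (φ ^ m))) =
        LinearMap.trace B ρ₂.V (ρ₂.ρ (φ ^ m)) := by
      rw [ht₁, ht₂, map_luc, htr, hdet]
    have hdm : f (LinearMap.det (ρ₁.ρ (φ ^ m))) = LinearMap.det (ρ₂.ρ (φ ^ m)) := by
      rw [cheb_det_pow, cheb_det_pow, map_pow, hdet]
    -- congruences
    have c1 := trace_sub_trace_mem ρ₁ n L₁ hL₁ (τ * σ * τ⁻¹) (φ ^ m) hτ₁
    have c2 := trace_sub_trace_mem ρ₂ n L₂ hL₂ (τ * σ * τ⁻¹) (φ ^ m) hτ₂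
    have d1 := det_sub_det_mem ρ₁ n L₁ hL₁ (τ * σ * τ⁻¹) (φ ^ m) hτ₁
    have d2 := det_sub_det_mem ρ₂ n L₂ hL₂ (τ * σ * τ⁻¹) (φ ^ m) hτ₂
    rw [trace_conj_eq] at c1 c2
    rw [det_conj_eq] at d1 d2
    constructor
    · have e : f (LinearMap.trace A ρ₁.V (ρ₁.ρ σ)) - LinearMap.trace B ρ₂.V (ρ₂.ρ σ) =
          f (LinearMap.trace A ρ₁.V (ρ₁.ρ σ) - LinearMap.trace A ρ₁.V (ρ₁.ρ (φ ^ m))) -
            (LinearMap.trace B ρ₂.V (ρ₂.ρ σ) - LinearMap.trace B ρ₂.V (ρ₂.ρ (φ ^ m))) := by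
        rw [map_sub, htm]; ring
      rw [e]
      exact Ideal.sub_mem _ (cheb_map_mem_pow f n c1) c2
    · have e : f (LinearMap.det (ρ₁.ρ σ)) - LinearMap.det (ρ₂.ρ σ) =
          f (LinearMap.det (ρ₁.ρ σ) - LinearMap.det (ρ₁.ρ (φ ^ m))) -
            (LinearMap.det (ρ₂.ρ σ) - LinearMap.det (ρ₂.ρ (φ ^ m))) := by
        rw [map_sub, hdm]; ring
      rw [e]
      exact Ideal.sub_mem _ (cheb_map_mem_pow f n d1) d2
  exact ⟨sub_eq_zero.1 (hB _ fun n => (key n).1), sub_eq_zero.1 (hB _ fun n => (key n).2)⟩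

/-- **[CHEB]**: two `2`-dimensional adic representations whose Frobenius characteristic polynomials
agree outside a finite set of primes have the same characteristic polynomial at every element of
`G_ℚ`. -/
theorem cheb_charpoly_eq (f : A →+* B) [IsLocalHom f]
    (hB : ∀ b : B, (∀ n : ℕ, b ∈ maximalIdeal B ^ n) → b = 0)
    (ρ₁ : GaloisRepAdic A) (ρ₂ : GaloisRepAdic B) (T : Finset ℕ)
    (h : ∀ ℓ : ℕ, ℓ.Prime → ℓ ∉ T → ∀ P : ValuationSubring Ω, P.LiesOverPrime ℓ →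
      ∀ φ : GQ, P.IsFrobeniusAt φ ℓ →
        (LinearMap.charpoly (ρ₁.ρ φ)).map f = LinearMap.charpoly (ρ₂.ρ φ))
    (σ : GQ) :
    (LinearMap.charpoly (ρ₁.ρ σ)).map f = LinearMap.charpoly (ρ₂.ρ σ) := by
  obtain ⟨ht, hd⟩ := cheb_trace_det_eq f hB ρ₁ ρ₂ T h σ
  rw [charpoly_eq_of_finrank_eq_two ρ₁.finrank_eq, charpoly_eq_of_finrank_eq_two ρ₂.finrank_eq]
  simp only [Polynomial.map_add, Polynomial.map_sub, Polynomial.map_mul, Polynomial.map_pow,
    Polynomial.map_X, Polynomial.map_C]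
  rw [ht, hd]

/-- separatedness of a Noetherian local domain (Krull), the hypothesis `hB` of `cheb_charpoly_eq`. -/
theorem cheb_separated_of_noetherian (B : Type) [CommRing B] [IsLocalRing B] [IsNoetherianRing B]
    [IsDomain B] : ∀ b : B, (∀ n : ℕ, b ∈ maximalIdeal B ^ n) → b = 0 := by
  intro b hb
  have h1 : (⨅ n : ℕ, maximalIdeal B ^ n) = ⊥ :=
    Ideal.iInf_pow_eq_bot_of_isLocalRing _ (IsLocalRing.maximalIdeal.isMaximal B).ne_top
  have h2 : b ∈ (⨅ n : ℕ, maximalIdeal B ^ n) := by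
    rw [Ideal.mem_iInf]
    exact hb
  rw [h1] at h2
  exact h2

end Cheb

end Fermat.Agent.S58
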