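/-
S58, package [EC-λ], helper7 — part 1 (abstract): an abelian group `J` whose `p`-torsion has `p²`
elements and whose `p`-power torsion is `p`-divisible: compatible "bases" `x¹, x² ∈ T_p J` of all
`J[p^k]`, i.e. `J[p^k] ≅ (ℤ/p^k)²` in the concrete form needed for the Tate module.
-/
import Mathlib
import Fermat.Agent.GR.TATE_lead_Rep
import Fermat.Prelude.Def_GaloisRep_Adic

set_option autoImplicit false
set_option linter.unusedSectionVars false
set_option linter.unusedVariables false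
set_option linter.style.haveILetI false

namespace Fermat.Agent.S58

open Fermat.Agent.GR

section Abs

/-- a two-dimensional vector space over `𝔽_p` has a basis of two elements -/
theorem exists_pair_basis_of_card (p : ℕ) [hp : Fact p.Prime] (M : Type*) [AddCommGroup M]
    [Module (ZMod p) M] (hcard : Nat.card M = p ^ 2) :
    ∃ u v : M, (∀ a c : ZMod p, a • u + c • v = 0 → a = 0 ∧ c = 0) ∧
      ∀ x : M, ∃ a c : ZMod p, x = a • u + c • v := by
  classical
  haveI : Finite M := by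
    apply Nat.finite_of_card_ne_zero
    rw [hcard]
    exact pow_ne_zero _ hp.out.ne_zero
  haveI : Module.Finite (ZMod p) M := Module.Finite.of_finite
  have hfr : Module.finrank (ZMod p) M = 2 := by
    have h1 : Nat.card M = Nat.card (ZMod p) ^ Module.finrank (ZMod p) M :=
      Module.natCard_eq_pow_finrank
    rw [hcard, Nat.card_zmod] at h1
    exact (Nat.pow_right_injective hp.out.two_le h1).symm
  let b := Module.finBasisOfFinrankEq (ZMod p) M hfr
  refine ⟨b 0, b 1, ?_, ?_⟩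
  · intro a c hac
    have hli := b.linearIndependent
    have hb : (b : Fin 2 → M) = ![b 0, b 1] := by
      funext i
      fin_cases i <;> rfl
    rw [hb, LinearIndependent.pair_iff] at hli
    exact hli _ _ hac
  · intro x
    have h1 := b.sum_repr x
    rw [Fin.sum_univ_two] at h1
    exact ⟨_, _, h1.symm⟩

variable {J : Type*} [AddCommGroup J] (p : ℕ) [hp : Fact p.Prime]

/-- a "basis" of the `p`-torsion from its cardinality -/
theorem exists_basis_torsion_prime (hcard : Nat.card (torsionNat J p) = p ^ 2) :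
    ∃ u v : J, p • u = 0 ∧ p • v = 0 ∧
      (∀ a b : ℤ, a • u + b • v = 0 → (p : ℤ) ∣ a ∧ (p : ℤ) ∣ b) ∧
      (∀ x : J, p • x = 0 → ∃ a b : ℤ, x = a • u + b • v) := by
  classical
  let iM : Module (ZMod p) ↥(torsionNat J p) :=
    AddCommGroup.zmodModule (fun x => Subtype.ext x.2)
  obtain ⟨u, v, hind, hspan⟩ := @exists_pair_basis_of_card p hp ↥(torsionNat J p) _ iM hcard
  have hcast : ∀ (a : ℤ) (x : ↥(torsionNat J p)),
      (@HSMul.hSMul (ZMod p) ↥(torsionNat J p) ↥(torsionNat J p) (@instHSMul _ _ iM.toSMul)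
        (a : ZMod p) x) = a • x :=
    fun a x => @Int.cast_smul_eq_zsmul (ZMod p) ↥(torsionNat J p) _ _ iM a x
  refine ⟨u.1, v.1, u.2, v.2, ?_, ?_⟩
  · intro a c hac
    have h2 : (@HSMul.hSMul (ZMod p) ↥(torsionNat J p) ↥(torsionNat J p) (@instHSMul _ _ iM.toSMul)
        (a : ZMod p) u) + (@HSMul.hSMul (ZMod p) ↥(torsionNat J p) ↥(torsionNat J p)
          (@instHSMul _ _ iM.toSMul) (c : ZMod p) v) = 0 := by
      rw [hcast, hcast]
      apply Subtype.ext
      exact hac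
    obtain ⟨ha, hc⟩ := hind _ _ h2
    exact ⟨(ZMod.intCast_zmod_eq_zero_iff_dvd a p).1 ha,
      (ZMod.intCast_zmod_eq_zero_iff_dvd c p).1 hc⟩
  · intro x hx
    obtain ⟨a, c, hac⟩ := hspan ⟨x, hx⟩
    refine ⟨(a.cast : ℤ), (c.cast : ℤ), ?_⟩
    rw [← ZMod.intCast_zmod_cast a, ← ZMod.intCast_zmod_cast c, hcast, hcast] at hac
    have := congrArg Subtype.val hac
    simpa using this

/-- lifting a `p`-torsion point to a Tate sequence -/
theorem exists_tateSeq_of_torsion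
    (hdiv : ∀ x : J, (∃ n : ℕ, p ^ n • x = 0) → ∃ y : J, p • y = x)
    (x : J) (hx : p • x = 0) : ∃ t : ↥(TateSeq J p), t.1 1 = x := by
  have hstep : ∀ y : {y : J // ∃ n : ℕ, p ^ n • y = 0},
      ∃ z : {y : J // ∃ n : ℕ, p ^ n • y = 0}, p • z.1 = y.1 := by
    rintro ⟨y, n, hn⟩
    obtain ⟨z, hz⟩ := hdiv y ⟨n, hn⟩
    exact ⟨⟨z, n + 1, by rw [pow_succ, mul_smul, hz, hn]⟩, hz⟩
  choose f hf using hstep
  let s : ℕ → {y : J // ∃ n : ℕ, p ^ n • y = 0} :=
    fun k => Nat.rec ⟨x, 1, by rwa [pow_one]⟩ (fun _ y => f y) k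
  refine ⟨⟨fun k => Nat.casesOn k 0 (fun j => (s j).1), rfl, ?_⟩, rfl⟩
  intro k
  cases k with
  | zero => exact hx
  | succ j => exact hf (s j)

variable {p}

theorem tateSeq_pow_smul_add (t : ↥(TateSeq J p)) (k j : ℕ) :
    p ^ j • t.1 (k + j) = t.1 k := by
  induction j with
  | zero => simp
  | succ j ih => rw [pow_succ, mul_smul, ← add_assoc, TateSeq.smul_succ, ih]

theorem tateSeq_pow_smul_succ (t : ↥(TateSeq J p)) (k : ℕ) :
    p ^ k • t.1 (k + 1) = t.1 1 := by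
  rw [add_comm]
  exact tateSeq_pow_smul_add t 1 k

/-- independence at every level -/
theorem level_indep (x1 x2 : ↥(TateSeq J p))
    (h1 : ∀ a b : ℤ, a • x1.1 1 + b • x2.1 1 = 0 → (p : ℤ) ∣ a ∧ (p : ℤ) ∣ b) :
    ∀ k : ℕ, ∀ a b : ℤ, a • x1.1 k + b • x2.1 k = 0 →
      ((p ^ k : ℕ) : ℤ) ∣ a ∧ ((p ^ k : ℕ) : ℤ) ∣ b := by
  intro k
  induction k with
  | zero =>
    intro a b _
    simp
  | succ k ih =>
    intro a b hab
    have h2 : a • x1.1 1 + b • x2.1 1 = 0 := by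
      have := congrArg (fun z => p ^ k • z) hab
      simp only [smul_add, smul_zero] at this
      rw [smul_comm, smul_comm (p ^ k) b, tateSeq_pow_smul_succ, tateSeq_pow_smul_succ] at this
      exact this
    obtain ⟨⟨a', rfl⟩, ⟨b', rfl⟩⟩ := h1 a b h2
    have h3 : a' • x1.1 k + b' • x2.1 k = 0 := by
      rw [← TateSeq.smul_succ x1 k, ← TateSeq.smul_succ x2 k]
      rw [← natCast_zsmul (x1.1 (k + 1)), ← natCast_zsmul (x2.1 (k + 1)), smul_smul, smul_smul,
        mul_comm a', mul_comm b']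
      exact hab
    obtain ⟨⟨a'', rfl⟩, ⟨b'', rfl⟩⟩ := ih a' b' h3
    refine ⟨⟨a'', ?_⟩, ⟨b'', ?_⟩⟩ <;> push_cast <;> ring

/-- spanning at every level -/
theorem level_span (x1 x2 : ↥(TateSeq J p))
    (h1 : ∀ x : J, p • x = 0 → ∃ a b : ℤ, x = a • x1.1 1 + b • x2.1 1) :
    ∀ k : ℕ, ∀ y : J, p ^ k • y = 0 → ∃ a b : ℤ, y = a • x1.1 k + b • x2.1 k := by
  intro k
  induction k with
  | zero =>
    intro y hy
    rw [pow_zero, one_smul] at hy
    exact ⟨0, 0, by rw [hy, zero_smul, zero_smul, add_zero]⟩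
  | succ k ih =>
    intro y hy
    rw [pow_succ, mul_smul] at hy
    obtain ⟨a, b, hab⟩ := ih (p • y) hy
    have hz : p • (y - (a • x1.1 (k + 1) + b • x2.1 (k + 1))) = 0 := by
      rw [smul_sub, hab, smul_add, smul_comm p a, smul_comm p b, TateSeq.smul_succ,
        TateSeq.smul_succ, sub_self]
    obtain ⟨c, d, hcd⟩ := h1 _ hz
    refine ⟨a + c * (p ^ k : ℕ), b + d * (p ^ k : ℕ), ?_⟩
    rw [add_smul, add_smul, mul_smul, mul_smul, natCast_zsmul, natCast_zsmul,
      tateSeq_pow_smul_succ, tateSeq_pow_smul_succ]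
    rw [sub_eq_iff_eq_add] at hcd
    rw [hcd]
    abel

theorem zsmul_eq_of_dvd_sub {y : J} {d : ℕ} (hy : d • y = 0) {m n : ℤ}
    (h : (d : ℤ) ∣ m - n) : m • y = n • y := by
  obtain ⟨c, hc⟩ := h
  rw [← sub_eq_zero, ← sub_smul, hc, mul_comm, mul_smul, natCast_zsmul, hy, smul_zero]

theorem toZModPow_eq_appr (k : ℕ) (z : ℤ_[p]) :
    PadicInt.toZModPow k z = ((z.appr k : ℕ) : ZMod (p ^ k)) := rfl

theorem appr_add_dvd (k : ℕ) (z w : ℤ_[p]) :
    ((p ^ k : ℕ) : ℤ) ∣ ((z + w).appr k : ℤ) - ((z.appr k : ℤ) + (w.appr k : ℤ)) := by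
  have h := map_add (PadicInt.toZModPow k (p := p)) z w
  rw [toZModPow_eq_appr, toZModPow_eq_appr, toZModPow_eq_appr] at h
  have h2 : (((z + w).appr k : ℤ) : ZMod (p ^ k)) =
      (((z.appr k : ℤ) + (w.appr k : ℤ) : ℤ) : ZMod (p ^ k)) := by
    push_cast
    exact h
  rw [ZMod.intCast_eq_intCast_iff_dvd_sub] at h2
  rw [← dvd_neg, neg_sub]
  exact h2

theorem appr_succ_dvd (k : ℕ) (z : ℤ_[p]) :
    ((p ^ k : ℕ) : ℤ) ∣ (z.appr (k + 1) : ℤ) - (z.appr k : ℤ) := by
  have h := PadicInt.dvd_appr_sub_appr z k (k + 1) (Nat.le_succ k)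
  rw [← Nat.cast_sub (PadicInt.appr_mono z (Nat.le_succ k))]
  exact Int.natCast_dvd_natCast.2 h

theorem appr_zero_dvd (k : ℕ) : ((p ^ k : ℕ) : ℤ) ∣ ((0 : ℤ_[p]).appr k : ℤ) - 0 := by
  have h := map_zero (PadicInt.toZModPow k (p := p))
  rw [toZModPow_eq_appr] at h
  rw [sub_zero]
  exact Int.natCast_dvd_natCast.2 ((ZMod.natCast_eq_zero_iff _ _).1 h)

/-- `z • t` for a `p`-adic integer `z` and a Tate sequence `t` -/
noncomputable def padicSmul (z : ℤ_[p]) (t : ↥(TateSeq J p)) : ↥(TateSeq J p) :=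
  ⟨fun k => (z.appr k : ℤ) • t.1 k, by
    refine ⟨?_, fun k => ?_⟩
    · show (z.appr 0 : ℤ) • t.1 0 = 0
      rw [TateSeq.zero_eq, smul_zero]
    · show p • ((z.appr (k + 1) : ℤ) • t.1 (k + 1)) = (z.appr k : ℤ) • t.1 k
      rw [smul_comm, TateSeq.smul_succ]
      exact zsmul_eq_of_dvd_sub (TateSeq.pow_smul t k) (appr_succ_dvd k z)⟩

@[simp] theorem padicSmul_apply (z : ℤ_[p]) (t : ↥(TateSeq J p)) (k : ℕ) :
    (padicSmul z t).1 k = (z.appr k : ℤ) • t.1 k := rfl

theorem padicSmul_add_left (z w : ℤ_[p]) (t : ↥(TateSeq J p)) :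
    padicSmul (z + w) t = padicSmul z t + padicSmul w t := by
  apply Subtype.ext
  funext k
  show ((z + w).appr k : ℤ) • t.1 k = (z.appr k : ℤ) • t.1 k + (w.appr k : ℤ) • t.1 k
  rw [← add_smul]
  exact zsmul_eq_of_dvd_sub (TateSeq.pow_smul t k) (appr_add_dvd k z w)

theorem padicSmul_zero_left (t : ↥(TateSeq J p)) : padicSmul (0 : ℤ_[p]) t = 0 := by
  apply Subtype.ext
  funext k
  show ((0 : ℤ_[p]).appr k : ℤ) • t.1 k = 0
  rw [zsmul_eq_of_dvd_sub (TateSeq.pow_smul t k) (appr_zero_dvd k), zero_smul]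

/-- the coordinate map `ℤ_p² → T_p J` attached to two Tate sequences -/
noncomputable def coordMap (x1 x2 : ↥(TateSeq J p)) : (Fin 2 → ℤ_[p]) →+ ↥(TateSeq J p) where
  toFun v := padicSmul (v 0) x1 + padicSmul (v 1) x2
  map_zero' := by
    show padicSmul (0 : ℤ_[p]) x1 + padicSmul (0 : ℤ_[p]) x2 = 0
    rw [padicSmul_zero_left, padicSmul_zero_left, add_zero]
  map_add' v w := by
    show padicSmul (v 0 + w 0) x1 + padicSmul (v 1 + w 1) x2 = _
    rw [padicSmul_add_left, padicSmul_add_left]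
    abel

theorem coordMap_apply (x1 x2 : ↥(TateSeq J p)) (v : Fin 2 → ℤ_[p]) (k : ℕ) :
    (coordMap x1 x2 v).1 k = ((v 0).appr k : ℤ) • x1.1 k + ((v 1).appr k : ℤ) • x2.1 k := rfl

/-- if the `k`-th component of `coordMap v` vanishes then `v ∈ p^k` -/
theorem coordMap_comp_eq_zero (x1 x2 : ↥(TateSeq J p))
    (h1 : ∀ a b : ℤ, a • x1.1 1 + b • x2.1 1 = 0 → (p : ℤ) ∣ a ∧ (p : ℤ) ∣ b)
    (v : Fin 2 → ℤ_[p]) (k : ℕ) (hv : (coordMap x1 x2 v).1 k = 0) (i : Fin 2) :
    PadicInt.toZModPow k (v i) = 0 := by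
  rw [coordMap_apply] at hv
  obtain ⟨ha, hb⟩ := level_indep x1 x2 h1 k _ _ hv
  rw [toZModPow_eq_appr, ZMod.natCast_eq_zero_iff]
  fin_cases i
  · exact Int.natCast_dvd_natCast.1 ha
  · exact Int.natCast_dvd_natCast.1 hb

theorem coordMap_injective (x1 x2 : ↥(TateSeq J p))
    (h1 : ∀ a b : ℤ, a • x1.1 1 + b • x2.1 1 = 0 → (p : ℤ) ∣ a ∧ (p : ℤ) ∣ b) :
    Function.Injective (coordMap x1 x2) := by
  rw [injective_iff_map_eq_zero]
  intro v hv
  funext i
  rw [← PadicInt.ext_of_toZModPow]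
  intro k
  rw [coordMap_comp_eq_zero x1 x2 h1 v k (by rw [hv]; rfl) i]
  exact (map_zero _).symm

theorem coordMap_surjective (x1 x2 : ↥(TateSeq J p))
    (h1 : ∀ a b : ℤ, a • x1.1 1 + b • x2.1 1 = 0 → (p : ℤ) ∣ a ∧ (p : ℤ) ∣ b)
    (h2 : ∀ x : J, p • x = 0 → ∃ a b : ℤ, x = a • x1.1 1 + b • x2.1 1) :
    Function.Surjective (coordMap x1 x2) := by
  intro y
  have hex : ∀ k : ℕ, ∃ a b : ℤ, y.1 k = a • x1.1 k + b • x2.1 k :=
    fun k => level_span x1 x2 h2 k (y.1 k) (TateSeq.pow_smul y k)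
  choose a b hab using hex
  have hcompat : ∀ k, ((p ^ k : ℕ) : ℤ) ∣ a (k + 1) - a k ∧ ((p ^ k : ℕ) : ℤ) ∣ b (k + 1) - b k := by
    intro k
    apply level_indep x1 x2 h1 k
    rw [sub_smul, sub_smul]
    have h3 := hab (k + 1)
    have h4 := congrArg (fun z => p • z) h3
    simp only [smul_add] at h4
    rw [TateSeq.smul_succ, smul_comm, smul_comm p (b (k + 1)), TateSeq.smul_succ,
      TateSeq.smul_succ, hab k] at h4
    have : a (k + 1) • x1.1 k - a k • x1.1 k + (b (k + 1) • x2.1 k - b k • x2.1 k) =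
        (a (k + 1) • x1.1 k + b (k + 1) • x2.1 k) - (a k • x1.1 k + b k • x2.1 k) := by abel
    rw [this, ← h4, sub_self]
  let c1 : ↥(compatSeq p) := ⟨fun k => ((a k : ℤ) : ZMod (p ^ k)), by
    intro k
    show redSucc p k ((a (k + 1) : ℤ) : ZMod (p ^ (k + 1))) = ((a k : ℤ) : ZMod (p ^ k))
    rw [map_intCast, ZMod.intCast_eq_intCast_iff_dvd_sub, ← dvd_neg, neg_sub]
    exact (hcompat k).1⟩
  let c2 : ↥(compatSeq p) := ⟨fun k => ((b k : ℤ) : ZMod (p ^ k)), by
    intro k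
    show redSucc p k ((b (k + 1) : ℤ) : ZMod (p ^ (k + 1))) = ((b k : ℤ) : ZMod (p ^ k))
    rw [map_intCast, ZMod.intCast_eq_intCast_iff_dvd_sub, ← dvd_neg, neg_sub]
    exact (hcompat k).2⟩
  refine ⟨![limZ p c1, limZ p c2], ?_⟩
  apply Subtype.ext
  funext k
  rw [coordMap_apply, hab k]
  have e1 : ((p ^ k : ℕ) : ℤ) ∣ ((limZ p c1).appr k : ℤ) - a k := by
    have h := toZModPow_limZ p c1 k
    rw [toZModPow_eq_appr] at h
    have h' : ((((limZ p c1).appr k : ℕ) : ℤ) : ZMod (p ^ k)) = ((a k : ℤ) : ZMod (p ^ k)) := by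
      rw [Int.cast_natCast]; exact h
    rw [ZMod.intCast_eq_intCast_iff_dvd_sub, ← dvd_neg, neg_sub] at h'
    exact h'
  have e2 : ((p ^ k : ℕ) : ℤ) ∣ ((limZ p c2).appr k : ℤ) - b k := by
    have h := toZModPow_limZ p c2 k
    rw [toZModPow_eq_appr] at h
    have h' : ((((limZ p c2).appr k : ℕ) : ℤ) : ZMod (p ^ k)) = ((b k : ℤ) : ZMod (p ^ k)) := by
      rw [Int.cast_natCast]; exact h
    rw [ZMod.intCast_eq_intCast_iff_dvd_sub, ← dvd_neg, neg_sub] at h'
    exact h'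
  show (((![limZ p c1, limZ p c2] : Fin 2 → ℤ_[p]) 0).appr k : ℤ) • x1.1 k +
    (((![limZ p c1, limZ p c2] : Fin 2 → ℤ_[p]) 1).appr k : ℤ) • x2.1 k = _
  rw [Matrix.cons_val_zero, Matrix.cons_val_one, Matrix.cons_val_zero]
  rw [zsmul_eq_of_dvd_sub (TateSeq.pow_smul x1 k) e1, zsmul_eq_of_dvd_sub (TateSeq.pow_smul x2 k) e2]

variable (J p) in
/-- two Tate sequences lifting a basis of `J[p]` -/
structure TateBasis where
  x1 : ↥(TateSeq J p)
  x2 : ↥(TateSeq J p)
  indep : ∀ a b : ℤ, a • x1.1 1 + b • x2.1 1 = 0 → (p : ℤ) ∣ a ∧ (p : ℤ) ∣ b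
  span : ∀ x : J, p • x = 0 → ∃ a b : ℤ, x = a • x1.1 1 + b • x2.1 1

variable (J p) in
theorem exists_tateBasis (hcard : Nat.card (torsionNat J p) = p ^ 2)
    (hdiv : ∀ x : J, (∃ n : ℕ, p ^ n • x = 0) → ∃ y : J, p • y = x) :
    Nonempty (TateBasis J p) := by
  obtain ⟨u, v, hu, hv, hind, hspan⟩ := exists_basis_torsion_prime p hcard
  obtain ⟨x1, h1⟩ := exists_tateSeq_of_torsion p hdiv u hu
  obtain ⟨x2, h2⟩ := exists_tateSeq_of_torsion p hdiv v hv
  exact ⟨⟨x1, x2, by rw [h1, h2]; exact hind, by rw [h1, h2]; exact hspan⟩⟩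

namespace TateBasis

variable (B : TateBasis J p)

/-- the coordinate isomorphism `ℤ_p² ≃+ T_p J` -/
noncomputable def coordEquiv : (Fin 2 → ℤ_[p]) ≃+ ↥(TateSeq J p) :=
  AddEquiv.ofBijective (coordMap B.x1 B.x2)
    ⟨coordMap_injective B.x1 B.x2 B.indep, coordMap_surjective B.x1 B.x2 B.indep B.span⟩

theorem coordEquiv_apply (v : Fin 2 → ℤ_[p]) : B.coordEquiv v = coordMap B.x1 B.x2 v := rfl

/-- every `p^k`-torsion point is an integral combination of the level `k` basis -/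
theorem exists_eq_of_torsion (k : ℕ) (y : J) (hy : p ^ k • y = 0) :
    ∃ a b : ℤ, y = a • B.x1.1 k + b • B.x2.1 k :=
  level_span B.x1 B.x2 B.span k y hy

include B in
/-- `J[p^k]` is finite -/
theorem finite_torsion (k : ℕ) : Finite ↥(torsionNat J (p ^ k)) := by
  haveI : NeZero (p ^ k) := ⟨pow_ne_zero _ hp.out.ne_zero⟩
  let g : ZMod (p ^ k) × ZMod (p ^ k) → J :=
    fun c => (c.1.val : ℤ) • B.x1.1 k + (c.2.val : ℤ) • B.x2.1 k
  have hsurj : ∀ y : ↥(torsionNat J (p ^ k)), ∃ c, g c = y.1 := by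
    intro y
    obtain ⟨a, b, hab⟩ := B.exists_eq_of_torsion k y.1 y.2
    refine ⟨((a : ZMod (p ^ k)), (b : ZMod (p ^ k))), ?_⟩
    show (((a : ZMod (p ^ k)).val : ℕ) : ℤ) • B.x1.1 k + (((b : ZMod (p ^ k)).val : ℕ) : ℤ) • B.x2.1 k
      = y.1
    rw [hab]
    congr 1
    · apply zsmul_eq_of_dvd_sub (TateSeq.pow_smul B.x1 k)
      rw [← ZMod.intCast_eq_intCast_iff_dvd_sub]
      simp
    · apply zsmul_eq_of_dvd_sub (TateSeq.pow_smul B.x2 k)
      rw [← ZMod.intCast_eq_intCast_iff_dvd_sub]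
      simp
  choose c hc using hsurj
  refine Finite.of_injective c ?_
  intro y y' h
  apply Subtype.ext
  rw [← hc y, ← hc y', h]

/-- separatedness of `ℤ_p²` -/
theorem fin_two_padic_separated (m : Fin 2 → ℤ_[p])
    (h : ∀ k : ℕ, ∃ m' : Fin 2 → ℤ_[p], m = (p : ℤ_[p]) ^ k • m') : m = 0 := by
  funext i
  show m i = 0
  rw [← PadicInt.ext_of_toZModPow]
  intro k
  obtain ⟨m', hm'⟩ := h k
  rw [hm', map_zero]
  show PadicInt.toZModPow k ((p : ℤ_[p]) ^ k * m' i) = 0
  rw [map_mul, map_pow, map_natCast]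
  have : ((p : ZMod (p ^ k)) ^ k) = 0 := by
    rw [← Nat.cast_pow]; exact ZMod.natCast_self (p ^ k)
  rw [this, zero_mul]

/-- the additive endomorphism of `ℤ_p²` corresponding to an additive endomorphism of `J` -/
noncomputable def transportAdd (f : J →+ J) : (Fin 2 → ℤ_[p]) →+ (Fin 2 → ℤ_[p]) :=
  (B.coordEquiv.symm.toAddMonoidHom.comp (TateSeq.map p f)).comp B.coordEquiv.toAddMonoidHom

theorem coordEquiv_transportAdd (f : J →+ J) (v : Fin 2 → ℤ_[p]) :
    B.coordEquiv (B.transportAdd f v) = TateSeq.map p f (B.coordEquiv v) := by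
  show B.coordEquiv (B.coordEquiv.symm (TateSeq.map p f (B.coordEquiv v))) = _
  rw [AddEquiv.apply_symm_apply]

/-- **transport of endomorphisms** `End(J) → End_{ℤ_p}(ℤ_p²)` -/
noncomputable def transport : AddMonoid.End J →+* Module.End ℤ_[p] (Fin 2 → ℤ_[p]) where
  toFun f :=
    { toFun := B.transportAdd f
      map_add' := map_add _
      map_smul' := fun z v =>
        map_padic_smul_of_separated p fin_two_padic_separated (B.transportAdd f) z v }
  map_one' := by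
    apply LinearMap.ext; intro v
    apply B.coordEquiv.injective
    exact B.coordEquiv_transportAdd (AddMonoidHom.id J) v
  map_mul' f g := by
    apply LinearMap.ext; intro v
    apply B.coordEquiv.injective
    show B.coordEquiv (B.transportAdd (AddMonoidHom.comp f g) v) =
      B.coordEquiv (B.transportAdd f (B.transportAdd g v))
    rw [coordEquiv_transportAdd, coordEquiv_transportAdd, coordEquiv_transportAdd]
    rfl
  map_zero' := by
    apply LinearMap.ext; intro v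
    apply B.coordEquiv.injective
    show B.coordEquiv (B.transportAdd (0 : J →+ J) v) = B.coordEquiv 0
    rw [coordEquiv_transportAdd, map_zero]
    apply Subtype.ext; funext k; rfl
  map_add' f g := by
    apply LinearMap.ext; intro v
    apply B.coordEquiv.injective
    show B.coordEquiv (B.transportAdd ((f : J →+ J) + (g : J →+ J)) v) =
      B.coordEquiv (B.transportAdd f v + B.transportAdd g v)
    rw [map_add, coordEquiv_transportAdd, coordEquiv_transportAdd, coordEquiv_transportAdd]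
    apply Subtype.ext; funext k; rfl

theorem coordEquiv_transport (f : AddMonoid.End J) (v : Fin 2 → ℤ_[p]) :
    B.coordEquiv (B.transport f v) = TateSeq.map p f (B.coordEquiv v) :=
  B.coordEquiv_transportAdd f v

/-- endomorphisms agreeing on `p`-power torsion have the same transport -/
theorem transport_congr {f g : AddMonoid.End J}
    (h : ∀ x : J, (∃ n : ℕ, p ^ n • x = 0) → f x = g x) : B.transport f = B.transport g := by
  apply LinearMap.ext; intro v
  apply B.coordEquiv.injective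
  rw [coordEquiv_transport, coordEquiv_transport, TateSeq.map_congr h]

/-- an endomorphism vanishing on `p`-power torsion has zero transport -/
theorem transport_eq_zero {f : AddMonoid.End J}
    (h : ∀ x : J, (∃ n : ℕ, p ^ n • x = 0) → f x = 0) : B.transport f = 0 := by
  rw [← map_zero B.transport]
  exact B.transport_congr h

/-- if `f` fixes all `p^k`-torsion points then `transport f v - v ∈ p^k ℤ_p²` -/
theorem transport_sub_mem (f : AddMonoid.End J) (k : ℕ) (h : ∀ x : J, p ^ k • x = 0 → f x = x)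
    (v : Fin 2 → ℤ_[p]) (i : Fin 2) :
    PadicInt.toZModPow k ((B.transport f v - v) i) = 0 := by
  apply coordMap_comp_eq_zero B.x1 B.x2 B.indep _ k
  rw [← coordEquiv_apply, map_sub, coordEquiv_transport]
  show f ((B.coordEquiv v).1 k) - (B.coordEquiv v).1 k = 0
  rw [h _ (TateSeq.pow_smul _ k), sub_self]

end TateBasis

end Abs

section Rep

open Polynomial

/-- `Ω = AlgebraicClosure ℚ`. -/
local notation "Ω" => AlgebraicClosure ℚ
/-- `GQ = Gal(Ω/ℚ)`. -/
local notation "GQ" => (AlgebraicClosure ℚ ≃ₐ[ℚ] AlgebraicClosure ℚ)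

/-- rank two over a domain: `(f − 1)² = 0` forces the characteristic polynomial `(X − 1)²`. -/
theorem charpoly_eq_sq_of_unipotent58 {R V : Type*} [CommRing R] [IsDomain R]
    [AddCommGroup V] [Module R V] [Module.Free R V] [Module.Finite R V]
    (hV : Module.finrank R V = 2) (f : Module.End R V) (h : (f - 1) * (f - 1) = 0) :
    f.charpoly = (X - 1) ^ 2 := by
  have hnil : IsNilpotent (f - 1) := ⟨2, by rw [pow_two]; exact h⟩
  have h1 := IsNilpotent.charpoly_eq_X_pow_finrank hnil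
  rw [hV] at h1
  set b := Module.Free.chooseBasis R V with hb
  have hf : f.charpoly = (LinearMap.toMatrix b b f).charpoly :=
    (LinearMap.charpoly_toMatrix f b).symm
  have hg : (f - 1).charpoly = (LinearMap.toMatrix b b (f - 1)).charpoly :=
    (LinearMap.charpoly_toMatrix (f - 1) b).symm
  have hs : Matrix.scalar (Module.Free.ChooseBasisIndex R V) (-1 : R) = -1 := by
    rw [map_neg, map_one]
  have hmat : LinearMap.toMatrix b b f =
      LinearMap.toMatrix b b (f - 1) - Matrix.scalar _ (-1 : R) := by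
    rw [hs, map_sub, LinearMap.toMatrix_one]
    abel
  rw [hf, hmat, Matrix.charpoly_sub_scalar, ← hg, h1]
  simp only [map_neg, map_one, pow_comp, X_comp]
  ring

variable {J : Type*} [AddCommGroup J] {p : ℕ} [hp : Fact p.Prime]
variable {G : Type*} [Group G] [DistribMulAction G J]

namespace TateBasis

variable (B : TateBasis J p)

/-- **the representation of `G` on `ℤ_p²`** -/
noncomputable def rho : G →* Module.End ℤ_[p] (Fin 2 → ℤ_[p]) :=
  (B.transport : AddMonoid.End J →* Module.End ℤ_[p] (Fin 2 → ℤ_[p])).comp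
    (DistribMulAction.toAddMonoidEnd G J)

theorem rho_eq_transport (σ : G) :
    B.rho σ = B.transport (DistribMulAction.toAddMonoidEnd G J σ) := rfl

/-- characterisation of `ρ(σ)` -/
theorem coordEquiv_rho (σ : G) (v : Fin 2 → ℤ_[p]) (k : ℕ) :
    (B.coordEquiv (B.rho σ v)).1 k = σ • (B.coordEquiv v).1 k := by
  rw [rho_eq_transport, coordEquiv_transport]
  rfl

/-- an element acting trivially on `p`-power torsion acts trivially on `ℤ_p²` -/
theorem rho_eq_one (σ : G) (h : ∀ x : J, (∃ n : ℕ, p ^ n • x = 0) → σ • x = x) : B.rho σ = 1 := by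
  rw [rho_eq_transport, ← map_one B.transport]
  exact B.transport_congr h

/-- **quadratic relation**: if `σ² x − a (σ x) + q x = 0` on `p`-power torsion then
`ρ(σ)² − a ρ(σ) + q = 0`. -/
theorem rho_quadratic (σ : G) (a q : ℤ)
    (h : ∀ x : J, (∃ n : ℕ, p ^ n • x = 0) → σ • σ • x - a • (σ • x) + q • x = 0) :
    B.rho σ * B.rho σ - (a : ℤ_[p]) • B.rho σ +
      (q : ℤ_[p]) • (1 : Module.End ℤ_[p] (Fin 2 → ℤ_[p])) = 0 := by
  have h1 : B.rho σ * B.rho σ - (a : ℤ_[p]) • B.rho σ +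
      (q : ℤ_[p]) • (1 : Module.End ℤ_[p] (Fin 2 → ℤ_[p])) =
      B.transport (DistribMulAction.toAddMonoidEnd G J σ * DistribMulAction.toAddMonoidEnd G J σ -
        a • DistribMulAction.toAddMonoidEnd G J σ + q • (1 : AddMonoid.End J)) := by
    rw [map_add, map_sub, map_mul B.transport, map_zsmul, map_zsmul, map_one,
      Int.cast_smul_eq_zsmul ℤ_[p] a (B.rho σ),
      Int.cast_smul_eq_zsmul ℤ_[p] q (1 : Module.End ℤ_[p] (Fin 2 → ℤ_[p]))]
    rfl
  rw [h1]
  apply B.transport_eq_zero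
  intro x hx
  exact h x hx

/-- **unipotence**: if `σ² x − 2 σ x + x = 0` on `p`-power torsion then `ρ(σ)` has characteristic
polynomial `(X − 1)²`. -/
theorem rho_charpoly_of_unipotent (σ : G)
    (h : ∀ x : J, (∃ n : ℕ, p ^ n • x = 0) → σ • σ • x - (2 : ℤ) • (σ • x) + x = 0) :
    (B.rho σ).charpoly = (X - 1) ^ 2 := by
  apply charpoly_eq_sq_of_unipotent58 (by simp)
  have h2 := B.rho_quadratic σ 2 1 (fun x hx => by rw [one_smul]; exact h x hx)
  have e : (B.rho σ - 1) * (B.rho σ - 1) =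
      B.rho σ * B.rho σ - ((2 : ℤ) : ℤ_[p]) • B.rho σ +
        ((1 : ℤ) : ℤ_[p]) • (1 : Module.End ℤ_[p] (Fin 2 → ℤ_[p])) := by
    rw [Int.cast_one, one_smul, Int.cast_ofNat, two_smul, sub_mul, mul_sub, mul_sub, mul_one,
      one_mul, mul_one]
    abel
  rw [e]
  exact h2

/-- if `σ` fixes all `p^k`-torsion points then `ρ(σ) v − v ∈ 𝔪^k • ⊤` -/
theorem rho_sub_mem (σ : G) (k : ℕ) (h : ∀ x : J, p ^ k • x = 0 → σ • x = x)
    (v : Fin 2 → ℤ_[p]) :
    B.rho σ v - v ∈ (IsLocalRing.maximalIdeal ℤ_[p] ^ k) • (⊤ : Submodule ℤ_[p] (Fin 2 → ℤ_[p])) := by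
  have h1 : ∀ i : Fin 2, ∃ c : ℤ_[p], (B.rho σ v - v) i = (p : ℤ_[p]) ^ k * c := by
    intro i
    have h2 := B.transport_sub_mem (DistribMulAction.toAddMonoidEnd G J σ) k h v i
    have h3 : (B.rho σ v - v) i ∈ RingHom.ker (PadicInt.toZModPow k (p := p)) := h2
    rw [PadicInt.ker_toZModPow, Ideal.mem_span_singleton] at h3
    exact h3
  choose c hc using h1
  have h4 : B.rho σ v - v = (p : ℤ_[p]) ^ k • c := by
    funext i
    rw [hc i]
    rfl
  rw [h4]
  refine Submodule.smul_mem_smul ?_ Submodule.mem_top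
  apply Ideal.pow_mem_pow
  rw [PadicInt.maximalIdeal_eq_span_p]
  exact Ideal.mem_span_singleton_self _

end TateBasis

section Galois

variable [DistribMulAction GQ J]

/-- **the `p`-adic Galois representation attached to `J`** -/
noncomputable def TateBasis.galoisRep (B : TateBasis J p)
    (hfix : ∀ x : J, (∃ n : ℕ, p ^ n • x = 0) →
      ∃ L : IntermediateField ℚ Ω, FiniteDimensional ℚ L ∧
        ∀ σ : GQ, (∀ a ∈ L, σ a = a) → σ • x = x) : GaloisRepAdic ℤ_[p] where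
  V := Fin 2 → ℤ_[p]
  finrank_eq := by simp
  ρ := B.rho
  isAdicContinuous := by
    intro k
    haveI := B.finite_torsion k
    have hfix' : ∀ x : ↥(torsionNat J (p ^ k)), ∃ L : IntermediateField ℚ Ω,
        FiniteDimensional ℚ L ∧ ∀ σ : GQ, (∀ a ∈ L, σ a = a) → σ • x.1 = x.1 :=
      fun x => hfix x.1 ⟨k, x.2⟩
    choose L hLfin hL using hfix'
    haveI : ∀ x : ↥(torsionNat J (p ^ k)), FiniteDimensional ℚ ↥(L x) := hLfin
    refine ⟨⨆ x : ↥(torsionNat J (p ^ k)), L x,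
      IntermediateField.finiteDimensional_iSup_of_finite, ?_⟩
    intro σ hσ v
    refine B.rho_sub_mem σ k ?_ v
    intro x hx
    refine hL ⟨x, hx⟩ σ fun a ha => hσ a ?_
    exact (le_iSup (fun x : ↥(torsionNat J (p ^ k)) => L x) ⟨x, hx⟩) ha

@[simp] theorem TateBasis.galoisRep_ρ (B : TateBasis J p) (hfix) :
    (B.galoisRep hfix).ρ = B.rho := rfl

end Galois

end Rep

section Scalar

variable {J : Type*} [AddCommGroup J] {p : ℕ} [hp : Fact p.Prime]
variable {G : Type*} [Group G] [DistribMulAction G J]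

theorem appr_dvd_of_toZModPow_eq (z : ℤ_[p]) (n : ℤ) (k : ℕ)
    (h : PadicInt.toZModPow k z = (n : ZMod (p ^ k))) :
    ((p ^ k : ℕ) : ℤ) ∣ (z.appr k : ℤ) - n := by
  rw [toZModPow_eq_appr] at h
  have h' : (((z.appr k : ℕ) : ℤ) : ZMod (p ^ k)) = ((n : ℤ) : ZMod (p ^ k)) := by
    rw [Int.cast_natCast]; exact h
  rw [ZMod.intCast_eq_intCast_iff_dvd_sub, ← dvd_neg, neg_sub] at h'
  exact h'

/-- the `k`-th component of the coordinates of an integral vector -/
theorem TateBasis.coordEquiv_intCast (B : TateBasis J p) (z : ℤ_[p]) (a b : ℤ) (k : ℕ) :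
    (B.coordEquiv ![z * (a : ℤ_[p]), z * (b : ℤ_[p])]).1 k =
      (z.appr k : ℤ) • (a • B.x1.1 k + b • B.x2.1 k) := by
  rw [coordEquiv_apply, coordMap_apply]
  show (((z * (a : ℤ_[p])).appr k : ℕ) : ℤ) • B.x1.1 k + (((z * (b : ℤ_[p])).appr k : ℕ) : ℤ) • B.x2.1 k = _
  have e1 : ((p ^ k : ℕ) : ℤ) ∣ ((z * (a : ℤ_[p])).appr k : ℤ) - (z.appr k : ℤ) * a := by
    apply appr_dvd_of_toZModPow_eq
    rw [map_mul, map_intCast, toZModPow_eq_appr]
    push_cast
    rfl
  have e2 : ((p ^ k : ℕ) : ℤ) ∣ ((z * (b : ℤ_[p])).appr k : ℤ) - (z.appr k : ℤ) * b := by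
    apply appr_dvd_of_toZModPow_eq
    rw [map_mul, map_intCast, toZModPow_eq_appr]
    push_cast
    rfl
  rw [zsmul_eq_of_dvd_sub (TateSeq.pow_smul B.x1 k) e1,
    zsmul_eq_of_dvd_sub (TateSeq.pow_smul B.x2 k) e2, smul_add, mul_smul, mul_smul]

/-- **scalar elements act by integer scalars on every `J[p^k]`** -/
theorem TateBasis.smul_eq_of_rho_eq_smul_one (B : TateBasis J p) (σ : G) (r : ℤ_[p])
    (h : B.rho σ = r • (1 : Module.End ℤ_[p] (Fin 2 → ℤ_[p]))) (k : ℕ) (y : J)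
    (hy : p ^ k • y = 0) : σ • y = (r.appr k : ℤ) • y := by
  obtain ⟨a, b, rfl⟩ := B.exists_eq_of_torsion k y hy
  have h1 := B.coordEquiv_rho σ ![(1 : ℤ_[p]) * (a : ℤ_[p]), (1 : ℤ_[p]) * (b : ℤ_[p])] k
  have h2 : B.rho σ ![(1 : ℤ_[p]) * (a : ℤ_[p]), (1 : ℤ_[p]) * (b : ℤ_[p])] =
      ![r * (a : ℤ_[p]), r * (b : ℤ_[p])] := by
    rw [h]
    funext i
    fin_cases i
    · show r * ((1 : ℤ_[p]) * (a : ℤ_[p])) = r * a
      rw [one_mul]
    · show r * ((1 : ℤ_[p]) * (b : ℤ_[p])) = r * b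
      rw [one_mul]
  rw [h2, B.coordEquiv_intCast, B.coordEquiv_intCast] at h1
  have h3 : (((1 : ℤ_[p]).appr k : ℕ) : ℤ) • (a • B.x1.1 k + b • B.x2.1 k) =
      a • B.x1.1 k + b • B.x2.1 k := by
    have hk : p ^ k • (a • B.x1.1 k + b • B.x2.1 k) = 0 := hy
    have e : ((p ^ k : ℕ) : ℤ) ∣ ((1 : ℤ_[p]).appr k : ℤ) - 1 := by
      apply appr_dvd_of_toZModPow_eq
      rw [map_one, Int.cast_one]
    rw [zsmul_eq_of_dvd_sub hk e, one_smul]
  rw [h3] at h1
  exact h1.symm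

end Scalar

end Fermat.Agent.S58
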