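/-
S58, package [EC-λ], helper7 — (U-mult), final glue: helper9's interface `UMult58 W` for every
semistable model `W` with `Δ ≠ 0`, from `unipotent_of_semistable_of_normalForm`
(`ECTATE_helper7_Unip`) and helper3's nodal normal form `exists_gnode_model` (`NORMF58_helper3`).
-/
import Mathlib
import Fermat.Agent.S58.ECTATE_helper7_Unip
import Fermat.Agent.S58.NORMF58_helper3
import Fermat.Agent.S58.ECTATE_helper9_Fin

set_option autoImplicit false

namespace Fermat.Agent.S58

open WeierstrassCurve WeierstrassCurve.Affine
open scoped WeierstrassCurve.Affine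

/-- `Ω = AlgebraicClosure ℚ`. -/
local notation "Ω" => AlgebraicClosure ℚ

/-- the nodal normal form statement holds over `ℚ̄` (helper3's `exists_gnode_model`). -/
theorem gNodeNormalForm_qbar : GNodeNormalForm Ω :=
  fun A L W' h1 h2 h3 h4 h6 hΔ0 hΔm hc4 => exists_gnode_model A L W' h1 h2 h3 h4 h6 hΔ0 hΔm hc4

/-- **(U-mult)** for the semistable models: helper9's interface `UMult58`. -/
theorem uMult58_of_semistable (W : WeierstrassCurve ℤ) (hΔ : W.Δ ≠ 0)
    (hss : W.IsSemistableModel) : UMult58 W := fun lam _ hlam2 =>
  unipotent_of_semistable_of_normalForm gNodeNormalForm_qbar W hΔ hss lam hlam2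

end Fermat.Agent.S58
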