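/-
S58 [STAB] — helper1 — part 2: **the `q`-stabilised coefficient system** (pure algebra).

`a : ℕ → ℂ` a normalised Hecke eigen-system of level `M` (`a 1 = 1`, multiplicative, the two
prime-power recursions), `q ∤ M` prime, `β` a root of `X² - a_q X + q`.  Then
`b n = a n - β · a (n / q) [q ∣ n]` is a normalised Hecke eigen-system of level `M q`, and
`b n = a n` for `n` prime to `q`.
-/
import Mathlib

set_option autoImplicit false

namespace Fermat.Agent.S58

/-- the stabilised coefficients. -/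
noncomputable def stabCoeff (a : ℕ → ℂ) (q : ℕ) (β : ℂ) (n : ℕ) : ℂ :=
  a n - β * (if q ∣ n then a (n / q) else 0)

variable {a : ℕ → ℂ} {M q : ℕ} {β : ℂ}

theorem stabCoeff_of_not_dvd {n : ℕ} (h : ¬ q ∣ n) : stabCoeff a q β n = a n := by
  rw [stabCoeff, if_neg h, mul_zero, sub_zero]

theorem stabCoeff_of_dvd {n : ℕ} (h : q ∣ n) : stabCoeff a q β n = a n - β * a (n / q) := by
  rw [stabCoeff, if_pos h]

theorem stabCoeff_of_coprime (hq : q.Prime) {n : ℕ} (h : n.Coprime q) :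
    stabCoeff a q β n = a n :=
  stabCoeff_of_not_dvd fun hd => hq.one_lt.ne' (Nat.Coprime.eq_one_of_dvd h.symm hd)

theorem stabCoeff_one (hq : q.Prime) (h1 : a 1 = 1) : stabCoeff a q β 1 = 1 := by
  rw [stabCoeff_of_not_dvd (fun hd => hq.one_lt.ne' (Nat.dvd_one.mp hd)), h1]

theorem stabCoeff_mul (hq : q.Prime) (hmul : ∀ m n : ℕ, m.Coprime n → a (m * n) = a m * a n)
    (m n : ℕ) (hmn : m.Coprime n) :
    stabCoeff a q β (m * n) = stabCoeff a q β m * stabCoeff a q β n := by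
  by_cases hm : q ∣ m
  · have hn : ¬ q ∣ n := fun hn =>
      hq.one_lt.ne' (Nat.eq_one_of_dvd_coprimes hmn hm hn)
    obtain ⟨m', rfl⟩ := hm
    have hm'n : m'.Coprime n := Nat.Coprime.coprime_dvd_left (dvd_mul_left m' q) hmn
    rw [stabCoeff_of_dvd (Dvd.dvd.mul_right (dvd_mul_right q m') n),
      stabCoeff_of_dvd (dvd_mul_right q m'), stabCoeff_of_not_dvd hn, hmul _ _ hmn,
      Nat.mul_div_cancel_left _ hq.pos, mul_assoc, Nat.mul_div_cancel_left _ hq.pos,
      hmul _ _ hm'n]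
    ring
  · by_cases hn : q ∣ n
    · obtain ⟨n', rfl⟩ := hn
      have hmn' : m.Coprime n' := Nat.Coprime.coprime_dvd_right (dvd_mul_left n' q) hmn
      have e1 : m * (q * n') = q * (m * n') := by ring
      rw [stabCoeff_of_dvd (Dvd.dvd.mul_left (dvd_mul_right q n') m),
        stabCoeff_of_dvd (dvd_mul_right q n'), stabCoeff_of_not_dvd hm, hmul _ _ hmn,
        Nat.mul_div_cancel_left _ hq.pos, e1, Nat.mul_div_cancel_left _ hq.pos,
        hmul _ _ hmn']
      ring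
    · have hmn' : ¬ q ∣ m * n := fun h => (hq.dvd_mul.mp h).elim hm hn
      rw [stabCoeff_of_not_dvd hmn', stabCoeff_of_not_dvd hm, stabCoeff_of_not_dvd hn,
        hmul _ _ hmn]

theorem stabCoeff_prime_pow_of_ne (hq : q.Prime) {p : ℕ} (hp : p.Prime) (hpq : p ≠ q) (j : ℕ) :
    stabCoeff a q β (p ^ j) = a (p ^ j) :=
  stabCoeff_of_not_dvd fun hd =>
    hpq ((Nat.prime_dvd_prime_iff_eq hq hp).mp (hq.dvd_of_dvd_pow hd)).symm

theorem stabCoeff_prime_pow_of_not_dvd (hq : q.Prime)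
    (hgood : ∀ p r : ℕ, p.Prime → ¬ p ∣ M →
      a (p ^ (r + 2)) = a p * a (p ^ (r + 1)) - p * a (p ^ r))
    (p r : ℕ) (hp : p.Prime) (hpN : ¬ p ∣ M * q) :
    stabCoeff a q β (p ^ (r + 2)) =
      stabCoeff a q β p * stabCoeff a q β (p ^ (r + 1)) - p * stabCoeff a q β (p ^ r) := by
  have hpq : p ≠ q := fun h => hpN (h ▸ dvd_mul_left p M)
  have hpM : ¬ p ∣ M := fun h => hpN (Dvd.dvd.mul_right h q)
  have h1 := stabCoeff_prime_pow_of_ne (a := a) (β := β) hq hp hpq
  have h2 : stabCoeff a q β p = a p := by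
    have := h1 1
    rwa [pow_one] at this
  rw [h1, h1, h1, h2, hgood p r hp hpM]

theorem stabCoeff_prime_pow_of_dvd (hq : q.Prime) (hqM : ¬ q ∣ M) (h1 : a 1 = 1)
    (hgood : ∀ p r : ℕ, p.Prime → ¬ p ∣ M →
      a (p ^ (r + 2)) = a p * a (p ^ (r + 1)) - p * a (p ^ r))
    (hbad : ∀ p r : ℕ, p.Prime → p ∣ M → a (p ^ (r + 2)) = a p * a (p ^ (r + 1)))
    (hβ : β ^ 2 - a q * β + q = 0)
    (p r : ℕ) (hp : p.Prime) (hpN : p ∣ M * q) :
    stabCoeff a q β (p ^ (r + 2)) = stabCoeff a q β p * stabCoeff a q β (p ^ (r + 1)) := by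
  rcases (hp.dvd_mul.mp hpN) with hpM | hpq
  · have hpq : p ≠ q := fun h => hqM (h ▸ hpM)
    have h1' := stabCoeff_prime_pow_of_ne (a := a) (β := β) hq hp hpq
    have h2 : stabCoeff a q β p = a p := by
      have := h1' 1
      rwa [pow_one] at this
    rw [h1', h1', h2, hbad p r hp hpM]
  · have hpq' : p = q := (Nat.prime_dvd_prime_iff_eq hp hq).mp hpq
    subst hpq'
    have e1 : ∀ j : ℕ, p ^ (j + 1) / p = p ^ j := fun j => by
      rw [pow_succ, Nat.mul_div_cancel _ hp.pos]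
    have e2 : stabCoeff a p β p = a p - β := by
      rw [stabCoeff_of_dvd (dvd_refl p), Nat.div_self hp.pos, h1, mul_one]
    rw [stabCoeff_of_dvd (dvd_pow_self p (by omega)), stabCoeff_of_dvd (dvd_pow_self p (by omega)),
      e2, e1, e1, hgood p r hp hqM]
    linear_combination (-(a (p ^ r))) * hβ

end Fermat.Agent.S58
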