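/-
S58 [STAB] — helper1 — part 3: **raising the level of a normalised eigenform by stabilisation.**

* `stab_step` : `q ∤ M` prime, `g` a normalised eigenform of level `M` (in the prelude's sense:
  conditions on the `q`-expansion only) ⇒ a normalised eigenform `g' = g - β g(q z)` of level
  `M q` with the same coefficients prime to `q`;
* `exists_stab` : `M ∣ D`, `D` squarefree ⇒ a normalised eigenform of level `D` with the same
  prime coefficients outside `D`.
-/
import Mathlib
import Fermat.Agent.S58.STAB_helper1_Op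
import Fermat.Agent.S58.STAB_helper1_Coeff

set_option autoImplicit false

noncomputable section

namespace Fermat.Agent.S58

open CongruenceSubgroup UpperHalfPlane ModularForm ModularFormClass CuspForm
open Fermat.Agent.X0N Fermat.Agent.RatStr
open scoped MatrixGroups ModularForm

/-- transport along an equality of levels. -/
theorem exists_of_level_eq {N N' : ℕ} (h : N = N') (g : CuspForm (Gamma0 N) 2)
    (hg : g.IsNormalizedEigenform) :
    ∃ g' : CuspForm (Gamma0 N') 2, g'.IsNormalizedEigenform ∧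
      ∀ n : ℕ, qCoeff g' n = qCoeff g n := by
  subst h
  exact ⟨g, hg, fun _ => rfl⟩

/-- **one stabilisation step.** -/
theorem stab_step {M q : ℕ} (hq : q.Prime) (hqM : ¬ q ∣ M) (g : CuspForm (Gamma0 M) 2)
    (hg : g.IsNormalizedEigenform) :
    ∃ g' : CuspForm (Gamma0 (M * q)) 2, g'.IsNormalizedEigenform ∧
      ∀ n : ℕ, n.Coprime q → qCoeff g' n = qCoeff g n := by
  have : NeZero q := ⟨hq.ne_zero⟩
  have hq0 : (q : ℂ) ≠ 0 := by exact_mod_cast hq.ne_zero
  obtain ⟨β, hβ⟩ : ∃ β : ℂ, β ^ 2 - qCoeff g q * β + q = 0 := by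
    obtain ⟨s, hs⟩ := IsAlgClosed.exists_eq_mul_self (discrim (1 : ℂ) (-qCoeff g q) q)
    obtain ⟨x, hx⟩ := exists_quadratic_eq_zero (one_ne_zero) ⟨s, hs⟩
    exact ⟨x, by linear_combination hx⟩
  set g' : CuspForm (Gamma0 (M * q)) 2 := levelIncl q g - (β / q) • levelV q g with hg'
  have hcoef : ∀ n : ℕ, qCoeff g' n = stabCoeff (fun n => qCoeff g n) q β n := by
    intro n
    have hF := isHolBdd_cuspForm g
    have hd := isHolBdd_dilate (NeZero.ne q) hF
    have hfun : (⇑g' : ℍ → ℂ) = ⇑g - β • dilate q ⇑g := by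
      rw [hg', FunLike.coe_sub, FunLike.coe_smul, coe_levelIncl, coe_levelV_eq, smul_smul]
      congr 2
      have : ((2 : ℤ) - 1) = 1 := by norm_num
      rw [this, zpow_one, div_mul_cancel₀ _ hq0]
    have hd' : AnalyticAt ℂ (cuspFunction 1 (β • dilate q ⇑g)) 0 :=
      (show IsHolBdd 1 (β • dilate q ⇑g) from
        ⟨by
          have := hd.per
          intro z
          simp only [Function.comp_apply, Pi.smul_apply]
          have h2 := this z
          simp only [Function.comp_apply] at h2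
          rw [h2],
        hd.hol.const_smul β, hd.bdd.const_smul_left β⟩).analyticAt one_pos
    rw [qCoeff, hfun, qExpansion_sub (hF.analyticAt one_pos) hd',
      qExpansion_smul (hd.analyticAt one_pos), qExpansion_dilate (NeZero.ne q) hF, map_sub,
      PowerSeries.coeff_smul, dilPS, PowerSeries.coeff_mk, smul_eq_mul, stabCoeff]
    rfl
  refine ⟨g', ⟨?_, ?_, ?_, ?_⟩, ?_⟩
  · rw [hcoef]
    exact stabCoeff_one hq hg.qCoeff_one
  · intro m n hmn
    rw [hcoef, hcoef, hcoef]
    exact stabCoeff_mul hq hg.qCoeff_mul_of_coprime m n hmn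
  · intro p r hp hpN
    rw [hcoef, hcoef, hcoef, hcoef]
    exact stabCoeff_prime_pow_of_not_dvd hq hg.qCoeff_prime_pow_of_not_dvd p r hp hpN
  · intro p r hp hpN
    rw [hcoef, hcoef, hcoef]
    exact stabCoeff_prime_pow_of_dvd hq hqM hg.qCoeff_one hg.qCoeff_prime_pow_of_not_dvd
      hg.qCoeff_prime_pow_of_dvd hβ p r hp hpN
  · intro n hn
    rw [hcoef]
    exact stabCoeff_of_coprime hq hn

/-- raising the level by a squarefree factor prime to the level. -/
theorem exists_stab_mul {M : ℕ} (g : CuspForm (Gamma0 M) 2) (hg : g.IsNormalizedEigenform) :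
    ∀ e : ℕ, Squarefree e → M.Coprime e →
      ∃ g' : CuspForm (Gamma0 (M * e)) 2, g'.IsNormalizedEigenform ∧
        ∀ ℓ : ℕ, ℓ.Prime → ¬ ℓ ∣ e → qCoeff g' ℓ = qCoeff g ℓ := by
  intro e
  induction e using Nat.strong_induction_on with
  | _ e ih =>
    intro hsq hcop
    rcases Nat.lt_or_ge e 2 with he | he
    · have he1 : e = 1 := by
        rcases e with _ | _ | e
        · exact absurd hsq not_squarefree_zero
        · rfl
        · omega
      subst he1
      obtain ⟨g', hg', h⟩ := exists_of_level_eq (mul_one M).symm g hg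
      exact ⟨g', hg', fun ℓ _ _ => h ℓ⟩
    · have hq : (Nat.minFac e).Prime := Nat.minFac_prime (by omega)
      obtain ⟨e', he'⟩ := Nat.minFac_dvd e
      set q := Nat.minFac e with hqdef
      have hsq' : Squarefree (q * e') := he' ▸ hsq
      have hqe' : ¬ q ∣ e' := fun hd => by
        have h1 : q * q ∣ q * e' := Nat.mul_dvd_mul_left q hd
        exact hq.one_lt.ne' (Nat.isUnit_iff.mp (hsq' q h1))
      have hsqe' : Squarefree e' := hsq'.of_mul_right
      have he'pos : 0 < e' := by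
        rcases Nat.eq_zero_or_pos e' with h0 | h0
        · rw [h0, mul_zero] at he'; omega
        · exact h0
      have hlt : e' < e := by
        rw [he']
        calc e' = 1 * e' := (one_mul _).symm
          _ < q * e' := Nat.mul_lt_mul_of_pos_right hq.one_lt he'pos
      have hcop' : M.Coprime e' := Nat.Coprime.coprime_dvd_right ⟨q, by rw [he']; ring⟩ hcop
      have hqM : ¬ q ∣ M := fun hd =>
        hq.one_lt.ne' (Nat.eq_one_of_dvd_coprimes hcop hd ⟨e', he'⟩)
      obtain ⟨g₁, hg₁, h₁⟩ := ih e' hlt hsqe' hcop'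
      have hqMe' : ¬ q ∣ M * e' := fun hd => (hq.dvd_mul.mp hd).elim hqM hqe'
      obtain ⟨g₂, hg₂, h₂⟩ := stab_step hq hqMe' g₁ hg₁
      obtain ⟨g₃, hg₃, h₃⟩ := exists_of_level_eq (show M * e' * q = M * e by rw [he']; ring) g₂ hg₂
      refine ⟨g₃, hg₃, fun ℓ hℓ hℓe => ?_⟩
      have hℓq : ℓ ≠ q := fun h => hℓe (h ▸ ⟨e', he'⟩)
      have hℓe' : ¬ ℓ ∣ e' := fun hd => hℓe (he' ▸ Dvd.dvd.mul_left hd q)
      rw [h₃, h₂ ℓ ((Nat.coprime_primes hℓ hq).mpr hℓq), h₁ ℓ hℓ hℓe']

/-- **raising the level to a squarefree multiple.** -/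
theorem exists_stab {M : ℕ} (g : CuspForm (Gamma0 M) 2) (hg : g.IsNormalizedEigenform)
    (D : ℕ) (hMD : M ∣ D) (hD : Squarefree D) :
    ∃ g' : CuspForm (Gamma0 D) 2, g'.IsNormalizedEigenform ∧
      ∀ ℓ : ℕ, ℓ.Prime → ¬ ℓ ∣ D → qCoeff g' ℓ = qCoeff g ℓ := by
  obtain ⟨e, rfl⟩ := hMD
  obtain ⟨g', hg', h⟩ := exists_stab_mul g hg e hD.of_mul_right
    (Nat.coprime_of_squarefree_mul hD)
  exact ⟨g', hg', fun ℓ hℓ hℓD => h ℓ hℓ fun hd => hℓD (Dvd.dvd.mul_left hd M)⟩

end Fermat.Agent.S58
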