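/-
S58 [COMPL] — helper3 — **one-stop consumers of S35 and S36 for a newform with rational integer
eigenvalues away from `S`**: coefficients `O' = ℤ_[lam]`, the Frobenius traces are the integers
`a ℓ`.
-/
import Mathlib
import Fermat.Agent.S58.COMPL_helper3
import Fermat.Agent.S35
import Fermat.Agent.S36

set_option autoImplicit false
set_option linter.unusedSectionVars false

namespace Fermat.Agent.S58

open CongruenceSubgroup ModularFormClass Polynomial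

section Padic

variable (lam : ℕ) [Fact lam.Prime]

instance finite_residueField_padicInt : Finite (IsLocalRing.ResidueField ℤ_[lam]) :=
  Finite.of_equiv (ZMod lam) (PadicInt.residueField (p := lam)).symm.toEquiv

theorem natCast_mem_maximalIdeal_padicInt :
    (lam : ℤ_[lam]) ∈ IsLocalRing.maximalIdeal ℤ_[lam] := by
  rw [PadicInt.maximalIdeal_eq_span_p]
  exact Ideal.subset_span (Set.mem_singleton _)

end Padic

section Rep

variable {M : ℕ} [NeZero M]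

/-- **S35 for a newform with integer eigenvalues away from `S`**, coefficients over `ℤ_[lam]`. -/
theorem exists_galoisRepAdic_of_newform_int {g : CuspForm (Gamma0 M) 2} (hg : g.IsNewform)
    (lam : ℕ) [Fact lam.Prime] (S : Finset ℕ) (a : ℕ → ℤ)
    (ha : ∀ ℓ : ℕ, ℓ.Prime → ¬ ℓ ∣ M → ℓ ∉ S → qCoeff g ℓ = (a ℓ : ℂ))
    (hlamS : lam ∈ S) (hMS : ∀ q : ℕ, q.Prime → q ∣ M → q ∈ S) :
    ∃ (O'' : Type) (_ : CommRing O'') (_ : IsDomain O'') (_ : IsDiscreteValuationRing O'')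
      (_ : IsAdicComplete (IsLocalRing.maximalIdeal O'') O'')
      (_ : Finite (IsLocalRing.ResidueField O''))
      (_ : CharZero O'') (_ : Algebra ℤ_[lam] O'') (_ : Module.Finite ℤ_[lam] O'')
      (_ : IsLocalHom (algebraMap ℤ_[lam] O'')),
      Function.Injective (algebraMap ℤ_[lam] O'') ∧
      ∃ ρ : GaloisRepAdic O'',
        (∀ (ℓ : ℕ) (_ : ℓ.Prime) (_ : ¬ ℓ ∣ M) (_ : ℓ ∉ (↑S : Set ℕ)),
          ∀ A : ValuationSubring (AlgebraicClosure ℚ), A.LiesOverPrime ℓ →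
            ∀ σ : AlgebraicClosure ℚ ≃ₐ[ℚ] AlgebraicClosure ℚ, A.IsFrobeniusAt σ ℓ →
              LinearMap.charpoly (ρ.ρ σ) =
                X ^ 2 - C (((a ℓ : ℤ) : O'')) * X + C ((ℓ : O''))) ∧
        (∀ q : ℕ, q.Prime → q ≠ lam → q ∣ M → ¬ q ^ 2 ∣ M →
          ∀ A : ValuationSubring (AlgebraicClosure ℚ), A.LiesOverPrime q →
            ∀ σ : AlgebraicClosure ℚ ≃ₐ[ℚ] AlgebraicClosure ℚ, A.IsFrobeniusAt σ q →
              LinearMap.charpoly (ρ.ρ σ) = X ^ 2 - C ((q : O'') + 1) * X + C ((q : O'')) ∨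
              LinearMap.charpoly (ρ.ρ σ) = X ^ 2 + C ((q : O'') + 1) * X + C ((q : O''))) := by
  obtain ⟨chig, iota, hchig, hiota⟩ := exists_compl58 hg.1 lam S a ha hMS
  obtain ⟨O'', i1, i2, i3, i4, i5, i6, i7, i8, i9, hinj, ρ, hρ, hρq⟩ :=
    Fermat.Agent.S35.result hg lam S ℤ_[lam] (natCast_mem_maximalIdeal_padicInt lam) chig hchig
      iota hlamS hMS
  refine ⟨O'', i1, i2, i3, i4, i5, i6, i7, i8, i9, hinj, ρ, ?_, hρq⟩
  intro ℓ hℓ hℓM hℓS A hA σ hσ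
  rw [hρ ℓ hℓ hℓM hℓS A hA σ hσ, hiota ℓ hℓ hℓM hℓS, map_intCast]

/-- **S36 for a newform with integer eigenvalues away from `S`**, coefficients over `ℤ_[lam]`. -/
theorem exists_galoisRepAdic_not_unipotent_of_newform_int {g : CuspForm (Gamma0 M) 2}
    (hg : g.IsNewform) (lam : ℕ) [Fact lam.Prime] (hlam2 : lam ≠ 2) (S : Finset ℕ) (a : ℕ → ℤ)
    (ha : ∀ ℓ : ℕ, ℓ.Prime → ¬ ℓ ∣ M → ℓ ∉ S → qCoeff g ℓ = (a ℓ : ℂ))
    (hlamS : lam ∈ S) (hMS : ∀ q : ℕ, q.Prime → q ∣ M → q ∈ S)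
    (hres : ∀ (O'' : Type) [CommRing O''] [IsDomain O''] [IsDiscreteValuationRing O'']
      [IsAdicComplete (IsLocalRing.maximalIdeal O'') O''] [Finite (IsLocalRing.ResidueField O'')]
      [CharZero O''] [Algebra ℤ_[lam] O''] [Module.Finite ℤ_[lam] O'']
      [IsLocalHom (algebraMap ℤ_[lam] O'')],
      Function.Injective (algebraMap ℤ_[lam] O'') → ∀ (ρ : GaloisRepAdic O''),
      (∀ (ℓ : ℕ) (_ : ℓ.Prime) (_ : ℓ ≠ lam) (_ : ¬ ℓ ∣ M) (_ : ℓ ∉ (↑S : Set ℕ)),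
        ∀ A : ValuationSubring (AlgebraicClosure ℚ), A.LiesOverPrime ℓ →
          ∀ σ : AlgebraicClosure ℚ ≃ₐ[ℚ] AlgebraicClosure ℚ, A.IsFrobeniusAt σ ℓ →
            LinearMap.charpoly (ρ.ρ σ) = X ^ 2 - C (((a ℓ : ℤ) : O'')) * X + C ((ℓ : O'')))
      → ρ.residual.IsAbsolutelyIrreducible ∧ ρ.residual.IsOdd) :
    ∃ (O'' : Type) (_ : CommRing O'') (_ : IsDomain O'') (_ : IsDiscreteValuationRing O'')
      (_ : IsAdicComplete (IsLocalRing.maximalIdeal O'') O'')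
      (_ : Finite (IsLocalRing.ResidueField O''))
      (_ : CharZero O'') (_ : Algebra ℤ_[lam] O'') (_ : Module.Finite ℤ_[lam] O'')
      (_ : IsLocalHom (algebraMap ℤ_[lam] O'')),
      Function.Injective (algebraMap ℤ_[lam] O'') ∧
      ∃ ρ : GaloisRepAdic O'',
        (∀ (ℓ : ℕ) (_ : ℓ.Prime) (_ : ¬ ℓ ∣ M) (_ : ℓ ∉ (↑S : Set ℕ)),
          ∀ A : ValuationSubring (AlgebraicClosure ℚ), A.LiesOverPrime ℓ →
            ∀ σ : AlgebraicClosure ℚ ≃ₐ[ℚ] AlgebraicClosure ℚ, A.IsFrobeniusAt σ ℓ →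
              LinearMap.charpoly (ρ.ρ σ) =
                X ^ 2 - C (((a ℓ : ℤ) : O'')) * X + C ((ℓ : O''))) ∧
        (∀ q : ℕ, q.Prime → q ≠ lam → M.factorization q = 2 →
          ¬ ρ.IsUnipotentOnInertiaAt q) := by
  obtain ⟨chig, iota, hchig, hiota⟩ := exists_compl58 hg.1 lam S a ha hMS
  obtain ⟨O'', i1, i2, i3, i4, i5, i6, i7, i8, i9, hinj, ρ, hρ, hρq⟩ :=
    Fermat.Agent.S36.result hg lam S ℤ_[lam] (natCast_mem_maximalIdeal_padicInt lam) hlam2 chig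
      hchig iota hlamS hMS (by
        intro O'' _ _ _ _ _ _ _ _ _ hinj ρ hρ
        refine hres O'' hinj ρ ?_
        intro ℓ hℓ hℓlam hℓM hℓS A hA σ hσ
        rw [hρ ℓ hℓ hℓlam hℓM hℓS A hA σ hσ, hiota ℓ hℓ hℓM hℓS, map_intCast])
  refine ⟨O'', i1, i2, i3, i4, i5, i6, i7, i8, i9, hinj, ρ, ?_, hρq⟩
  intro ℓ hℓ hℓM hℓS A hA σ hσ
  rw [hρ ℓ hℓ hℓM hℓS A hA σ hσ, hiota ℓ hℓ hℓM hℓS, map_intCast]

end Rep

end Fermat.Agent.S58
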