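/-
S58 [STAB] — helper1 — part 1: **the two degeneracy maps `S_k(Γ₀(M)) → S_k(Γ₀(M q))`.**

* `levelIncl F` : the same function, at the smaller group;
* `levelV F` : `F ∣[k] diag(q, 1)` (`= q^{k-1} F(q z)`);
* their `q`-expansions: `qCoeff_levelIncl`, `qCoeff_levelV`.
-/
import Mathlib
import Fermat.Agent.X0N.J_helper8_Dilate
import Fermat.Prelude.Def_FLTPrelim_Modularity

set_option autoImplicit false

noncomputable section

namespace Fermat.Agent.S58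

open Matrix Matrix.SpecialLinearGroup CongruenceSubgroup UpperHalfPlane ModularForm
open Fermat.Agent.X0N Fermat.Agent.RatStr
open scoped MatrixGroups ModularForm

variable {M q : ℕ} {k : ℤ}

theorem stab_exists_SL2_entries (a b c d : ℤ) (h : a * d - b * c = 1) :
    ∃ g : SL(2, ℤ), g 0 0 = a ∧ g 0 1 = b ∧ g 1 0 = c ∧ g 1 1 = d :=
  ⟨⟨!![a, b; c, d], by rw [Matrix.det_fin_two_of]; exact h⟩, by simp, by simp, by simp, by simp⟩

theorem stab_Gamma0_mul_le : Gamma0 (M * q) ≤ Gamma0 M := by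
  intro γ hγ
  rw [Gamma0_mem, ZMod.intCast_zmod_eq_zero_iff_dvd] at hγ ⊢
  exact dvd_trans (by push_cast; exact dvd_mul_right _ _) hγ

/-- `diag(q,1) γ = γ' diag(q,1)` for `γ ∈ Γ₀(M q)`, with `γ' ∈ Γ₀(M)`. -/
theorem stab_exists_diag_mul_mapGL (hq : q ≠ 0) (γ : SL(2, ℤ)) (hγ : γ ∈ Gamma0 (M * q)) :
    ∃ γ' ∈ Gamma0 M, heckeDiagMatrix q * mapGL ℝ γ = mapGL ℝ γ' * heckeDiagMatrix q := by
  rw [Gamma0_mem, ZMod.intCast_zmod_eq_zero_iff_dvd] at hγ
  obtain ⟨c', hc'⟩ := hγ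
  have hdet : γ 0 0 * γ 1 1 - γ 0 1 * γ 1 0 = 1 := by
    have := γ.det_coe
    rwa [Matrix.det_fin_two] at this
  obtain ⟨γ', h00, h01, h10, h11⟩ := stab_exists_SL2_entries (γ 0 0) ((q : ℤ) * γ 0 1)
    ((M : ℤ) * c') (γ 1 1) (by rw [hc'] at hdet; push_cast at hdet; linarith)
  refine ⟨γ', ?_, ?_⟩
  · rw [Gamma0_mem, h10]
    simp
  · apply Units.ext
    rw [Units.val_mul, Units.val_mul, val_heckeDiagMatrix hq]
    ext a b
    fin_cases a <;> fin_cases b <;>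
      simp [Matrix.mul_apply, Fin.sum_univ_two, hc', h00, h01, h10, h11,
        mul_comm, mul_assoc, mul_left_comm]

open ConjAct Pointwise in
theorem stab_map_Gamma0_le_conj (hq : q ≠ 0) :
    Subgroup.map (mapGL ℝ) (Gamma0 (M * q)) ≤
      toConjAct (heckeDiagMatrix q)⁻¹ • (Subgroup.map (mapGL ℝ) (Gamma0 M)) := by
  rintro x ⟨γ, hγ, rfl⟩
  rw [Subgroup.mem_pointwise_smul_iff_inv_smul_mem, ConjAct.smul_def]
  simp only [map_inv, ofConjAct_toConjAct, inv_inv]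
  obtain ⟨γ', hγ', h1⟩ := stab_exists_diag_mul_mapGL hq γ hγ
  exact ⟨γ', hγ', by rw [h1, mul_assoc, mul_inv_cancel, mul_one]⟩

/-- the inclusion `S_k(Γ₀(M)) ⊆ S_k(Γ₀(M q))`. -/
def levelIncl (q : ℕ) (F : CuspForm (Gamma0 M) k) : CuspForm (Gamma0 (M * q)) k where
  toFun := ⇑F
  slash_action_eq' γ hγ := by
    obtain ⟨γ0, hγ0, rfl⟩ := hγ
    exact SlashInvariantFormClass.slash_action_eq F _ ⟨γ0, stab_Gamma0_mul_le hγ0, rfl⟩
  holo' := CuspFormClass.holo F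
  zero_at_cusps' hc := CuspFormClass.zero_at_cusps F
    (hc.mono (Subgroup.map_mono stab_Gamma0_mul_le))

@[simp] theorem coe_levelIncl (q : ℕ) (F : CuspForm (Gamma0 M) k) : ⇑(levelIncl q F) = ⇑F := rfl

/-- the degeneracy map `F ↦ F ∣[k] diag(q, 1)`, `S_k(Γ₀(M)) → S_k(Γ₀(M q))`. -/
def levelV (q : ℕ) [NeZero q] (F : CuspForm (Gamma0 M) k) : CuspForm (Gamma0 (M * q)) k where
  toFun := ⇑F ∣[k] heckeDiagMatrix q
  slash_action_eq' γ hγ := by
    obtain ⟨γ0, hγ0, rfl⟩ := hγ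
    obtain ⟨γ', hγ', h1⟩ := stab_exists_diag_mul_mapGL (NeZero.ne q) γ0 hγ0
    rw [← SlashAction.slash_mul, h1, SlashAction.slash_mul]
    congr 1
    exact SlashInvariantFormClass.slash_action_eq F _ ⟨γ', hγ', rfl⟩
  holo' := (CuspFormClass.holo F).slash k (heckeDiagMatrix q)
  zero_at_cusps' hc := (CuspForm.translate F (heckeDiagMatrix q)).zero_at_cusps'
    (hc.mono (stab_map_Gamma0_le_conj (NeZero.ne q)))

@[simp] theorem coe_levelV (q : ℕ) [NeZero q] (F : CuspForm (Gamma0 M) k) :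
    ⇑(levelV q F) = ⇑F ∣[k] heckeDiagMatrix q := rfl

theorem coe_levelV_eq (q : ℕ) [NeZero q] (F : CuspForm (Gamma0 M) k) :
    ⇑(levelV q F) = ((q : ℂ) ^ (k - 1)) • dilate q ⇑F := by
  ext τ
  rw [coe_levelV, slash_heckeDiagMatrix_apply k (NeZero.ne q), Pi.smul_apply, smul_eq_mul,
    dilate_apply]

theorem isHolBdd_cuspForm (F : CuspForm (Gamma0 M) k) : IsHolBdd 1 ⇑F :=
  isHolBdd_of_modularForm F one_pos (by simp)

open ModularFormClass in
theorem qCoeff_levelIncl (q : ℕ) (F : CuspForm (Gamma0 M) k) (n : ℕ) :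
    qCoeff (levelIncl q F) n = qCoeff F n := rfl

open ModularFormClass in
/-- the `q`-expansion of `F ∣[k] diag(q,1)`. -/
theorem qCoeff_levelV (q : ℕ) [NeZero q] (F : CuspForm (Gamma0 M) k) (n : ℕ) :
    qCoeff (levelV q F) n =
      (q : ℂ) ^ (k - 1) * (if q ∣ n then qCoeff F (n / q) else 0) := by
  have hF := isHolBdd_cuspForm F
  have hd := isHolBdd_dilate (NeZero.ne q) hF
  rw [qCoeff, coe_levelV_eq, qExpansion_smul (hd.analyticAt one_pos),
    qExpansion_dilate (NeZero.ne q) hF, PowerSeries.coeff_smul, dilPS, PowerSeries.coeff_mk,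
    smul_eq_mul]
  rfl

end Fermat.Agent.S58
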