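import Mathlib
import Fermat.Agent.S58.XPAR_helper8_Delta
import Fermat.Agent.EC.Tors_helper6_AddSub

set_option autoImplicit false
set_option linter.unusedSectionVars false

/-!
# The x-line parallelogram law, part 4: points

`k` a field, `ι : k(x) →+* K` a field embedding, `W'` a Weierstrass curve over `K` whose
`b`-invariants come from a curve `W` over `k` with `Δ ≠ 0`, `η = (ι x, yη)` a point of `W'`
("generic point").  For a point `P` of `W'(K)` with `x(P) ∈ ι(k(x))` put `xDeg P := ratDeg (x(P))`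
(and `xDeg O := 0`).  Then

  `xDeg (P + η) + xDeg (P - η) = 2 xDeg P + 2`

whenever `P`, `P + η`, `P - η` all have x-coordinate in `ι(k(x))` (or are `O`).
-/

namespace Fermat.Agent.S58

open Polynomial WeierstrassCurve WeierstrassCurve.Affine Fermat.Agent.EC

variable {k : Type*} [Field k] {K : Type*} [Field K] [DecidableEq K]
  (ι : RatFunc k →+* K) (W' : Affine K)

open Classical in
/-- the x-degree of a point whose x-coordinate lies in `ι(k(x))` (`0` for `O` and as junk value) -/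
noncomputable def xDeg : W'.Point → ℕ
  | .zero => 0
  | .some X _ _ => if h : ∃ f, ι f = X then ratDeg h.choose else 0

/-- the x-coordinate lies in `ι(k(x))`, or the point is `O` -/
def IsXRat : W'.Point → Prop
  | .zero => True
  | .some X _ _ => ∃ f, ι f = X

variable {ι W'}

theorem xDeg_zero : xDeg ι W' 0 = 0 := rfl

theorem isXRat_zero : IsXRat ι W' 0 := trivial

theorem xDeg_some {X Y : K} (h : W'.Nonsingular X Y) {f : RatFunc k} (hf : ι f = X) :
    xDeg ι W' (.some X Y h) = ratDeg f := by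
  have hex : ∃ f, ι f = X := ⟨f, hf⟩
  have : hex.choose = f := ι.injective (hex.choose_spec.trans hf.symm)
  simp only [xDeg, dif_pos hex, this]

theorem isXRat_some {X Y : K} (h : W'.Nonsingular X Y) :
    IsXRat ι W' (.some X Y h) ↔ ∃ f, ι f = X := Iff.rfl

theorem xDeg_neg (P : W'.Point) : xDeg ι W' (-P) = xDeg ι W' P := by
  cases P with
  | zero => rfl
  | some X Y h => rw [Point.neg_some]; rfl

theorem isXRat_neg (P : W'.Point) : IsXRat ι W' (-P) ↔ IsXRat ι W' P := by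
  cases P with
  | zero => exact Iff.rfl
  | some X Y h => rw [Point.neg_some]; exact Iff.rfl

section main

variable (W : WeierstrassCurve k)
  (hb₂ : W'.b₂ = ι (RatFunc.C W.b₂)) (hb₄ : W'.b₄ = ι (RatFunc.C W.b₄))
  (hb₆ : W'.b₆ = ι (RatFunc.C W.b₆)) (hb₈ : W'.b₈ = ι (RatFunc.C W.b₈))

include hb₂ hb₄ hb₆ in
theorem xpar_psi2_sq {yη : K} (hη : W'.Equation (ι RatFunc.X) yη) :
    (yη - W'.negY (ι RatFunc.X) yη) ^ 2 =
      ι (algebraMap k[X] (RatFunc k) (xparFx W.b₂ W.b₄ W.b₆)) := by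
  have e : ι (algebraMap k[X] (RatFunc k) (xparFx W.b₂ W.b₄ W.b₆)) =
      4 * ι RatFunc.X ^ 3 + W'.b₂ * ι RatFunc.X ^ 2 + 2 * W'.b₄ * ι RatFunc.X + W'.b₆ := by
    rw [hb₂, hb₄, hb₆]
    simp only [xparFx, map_add, map_mul, map_pow, map_ofNat, RatFunc.algebraMap_X,
      RatFunc.algebraMap_C]
  rw [e]
  rw [equation_iff] at hη
  simp only [negY, b₂, b₄, b₆]
  linear_combination 4 * hη

include hb₄ hb₆ hb₈ in
theorem xpar_symQ_self :
    symQ W' (ι RatFunc.X) (ι RatFunc.X) 0 =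
      ι (algebraMap k[X] (RatFunc k) (xparGx W.b₄ W.b₆ W.b₈)) := by
  have e : ι (algebraMap k[X] (RatFunc k) (xparGx W.b₄ W.b₆ W.b₈)) =
      ι RatFunc.X ^ 4 - W'.b₄ * ι RatFunc.X ^ 2 - 2 * W'.b₆ * ι RatFunc.X - W'.b₈ := by
    rw [hb₄, hb₆, hb₈]
    simp only [xparGx, map_sub, map_mul, map_pow, map_ofNat, RatFunc.algebraMap_X,
      RatFunc.algebraMap_C]
  rw [e]
  unfold symQ
  ring

include hb₂ hb₄ hb₆ hb₈ in
/-- the generic point is not a 2-torsion point and `xDeg (2η) = 4` -/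
theorem xDeg_double (hΔ : W.Δ ≠ 0) {yη : K} (hη : W'.Nonsingular (ι RatFunc.X) yη)
    (h : IsXRat ι W' (Point.some _ _ hη + Point.some _ _ hη)) :
    xDeg ι W' (Point.some _ _ hη + Point.some _ _ hη) = 4 := by
  have hcop := xpar_isCoprime_of_Δ W hΔ
  have hF : ι (algebraMap k[X] (RatFunc k) (xparFx W.b₂ W.b₄ W.b₆)) ≠ 0 := by
    intro h0
    have h1 : algebraMap k[X] (RatFunc k) (xparFx W.b₂ W.b₄ W.b₆) = 0 :=
      ι.injective (by rw [h0, map_zero])
    exact xparFx_ne_zero hcop (RatFunc.algebraMap_injective k (by rw [h1, map_zero]))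
  have hy : yη ≠ W'.negY (ι RatFunc.X) yη := by
    intro hy
    apply hF
    rw [← xpar_psi2_sq W hb₂ hb₄ hb₆ hη.1, ← hy, sub_self]
    ring
  rw [Point.add_self_of_Y_ne hy] at h ⊢
  obtain ⟨f₅, hf₅⟩ := h
  rw [xDeg_some _ hf₅]
  apply xpar_dup hcop
  apply ι.injective
  have := addX_self_symQ hη.1 hy 0
  rw [sub_zero, xpar_psi2_sq W hb₂ hb₄ hb₆ hη.1, xpar_symQ_self W hb₄ hb₆ hb₈, ← hf₅] at this
  rw [map_mul]
  exact this

include hb₂ hb₄ hb₆ hb₈ in
/-- **the parallelogram law on the x-line** -/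
theorem xDeg_parallelogram (hΔ : W.Δ ≠ 0) {yη : K} (hη : W'.Nonsingular (ι RatFunc.X) yη)
    (P : W'.Point) (hP : IsXRat ι W' P) (h₃ : IsXRat ι W' (P + Point.some _ _ hη))
    (h₄ : IsXRat ι W' (P - Point.some _ _ hη)) :
    xDeg ι W' (P + Point.some _ _ hη) + xDeg ι W' (P - Point.some _ _ hη) =
      2 * xDeg ι W' P + 2 := by
  have hxη : xDeg ι W' (Point.some _ _ hη) = 1 := by
    rw [xDeg_some hη rfl, ratDeg_X]
  cases P with
  | zero =>
    have e1 : (Point.zero : W'.Point) = 0 := rfl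
    rw [e1, zero_add, zero_sub, xDeg_neg, hxη, xDeg_zero]
  | some X Y hXY =>
    by_cases hX : X = ι RatFunc.X
    · -- `P = ±η`
      rcases (Point.X_eq_iff (h₁ := hXY) (h₂ := hη)).mp hX with hPη | hPη
      · rw [hPη, sub_self, xDeg_zero, add_zero, hxη]
        rw [hPη] at h₃
        exact xDeg_double W hb₂ hb₄ hb₆ hb₈ hΔ hη h₃
      · rw [hPη, neg_add_cancel, xDeg_zero, zero_add, xDeg_neg, hxη]
        rw [hPη] at h₄
        have e : -Point.some _ _ hη - Point.some _ _ hη =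
            -(Point.some _ _ hη + Point.some _ _ hη) := by abel
        rw [e, isXRat_neg] at h₄
        rw [e, xDeg_neg]
        exact xDeg_double W hb₂ hb₄ hb₆ hb₈ hΔ hη h₄
    · -- the generic case
      obtain ⟨f, hf⟩ := hP
      rw [sub_eq_add_neg, Point.neg_some] at h₄ ⊢
      rw [Point.add_of_X_ne hX] at h₃ h₄ ⊢
      rw [Point.add_of_X_ne hX]
      obtain ⟨f₃, hf₃⟩ := h₃
      obtain ⟨f₄, hf₄⟩ := h₄
      rw [xDeg_some _ hf₃, xDeg_some _ hf₄, xDeg_some _ hf]
      have hsum := addX_sum hXY.1 hη.1 hX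
      have hprod := addX_prod hXY.1 hη.1 hX
      rw [← hf₃, ← hf₄, ← hf] at hsum hprod
      apply xpar W hΔ
      · apply ι.injective
        simp only [map_add, map_mul, map_sub, map_pow, map_ofNat]
        rw [hsum, symS, hb₂, hb₄, hb₆]
      · apply ι.injective
        simp only [map_add, map_mul, map_sub, map_pow]
        rw [hprod, symT, hb₄, hb₆, hb₈]

end main

end Fermat.Agent.S58
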